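import Mathlib.NumberTheory.PellMatiyasevic
import Mathlib.NumberTheory.PythagoreanTriples
import Mathlib.RingTheory.Int.Basic
import Mathlib.Data.ZMod.Basic
import Mathlib.Tactic

/-!
# Euler's theorem (1738): `x ^ 2 = y ^ 3 + 1` has only the integral solutions
`y = -1, 0, 2`

Proof: `b ^ 2 - 3 a ^ 2` and `b ^ 2 + 3 a ^ 2` are not both squares (`a ≠ 0`, descent; `3` is not a
congruent number); so in the solutions `(x_k, y_k)` of Pell's equation `x ^ 2 - 3 y ^ 2 = 1` the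
number `x_k` is a square only for `k = 0`; and `x ^ 2 = y ^ 3 + 1` with `3 ∣ y + 1` gives
`y + 1 = 3 m ^ 2`, `y_k = 2 m ^ 2 - 1`, `m ^ 2 = x_j y_(j + 1)` with `k = 2 j + 1`.
-/

namespace Fermat.Agent.Cor.Cat

/-- the first of two coprime factors of a square is a square -/
theorem sq_left {A R e : ℤ} (h : IsCoprime A R) (he : A * R = e ^ 2) (hA : 0 < A) :
    ∃ r, A = r ^ 2 := by
  obtain ⟨r, hr | hr⟩ := Int.sq_of_gcd_eq_one (Int.isCoprime_iff_gcd_eq_one.1 h) he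
  · exact ⟨r, hr⟩
  · exact absurd hA (by rw [hr]; nlinarith [sq_nonneg r])

theorem three_dvd_of_sq_add {r s w : ℤ} (h : r ^ 2 + s ^ 2 = 3 * w) : (3 : ℤ) ∣ r ∧ (3 : ℤ) ∣ s := by
  have key : ∀ r s : ZMod 3, r ^ 2 + s ^ 2 = 0 → r = 0 ∧ s = 0 := by decide
  have h1 : ((r ^ 2 + s ^ 2 : ℤ) : ZMod 3) = 0 := by
    rw [h]; push_cast; rw [show (3 : ZMod 3) = 0 from rfl, zero_mul]
  push_cast at h1
  obtain ⟨h2, h3⟩ := key _ _ h1
  exact ⟨(ZMod.intCast_zmod_eq_zero_iff_dvd _ 3).1 h2, (ZMod.intCast_zmod_eq_zero_iff_dvd _ 3).1 h3⟩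

/-- the step of the descent -/
theorem concordant_step {m n c : ℤ} (hn : 0 < n) (hmn : n < m) (hcop : IsCoprime m n)
    (hpar : Odd (m + n)) (h : m * n * (m - n) * (m + n) = 3 * c ^ 2) :
    ∃ α w γ δ : ℤ, α ^ 2 - 3 * w ^ 2 = γ ^ 2 ∧ α ^ 2 + 3 * w ^ 2 = δ ^ 2 ∧ w ≠ 0 ∧
      IsCoprime α w ∧ w ^ 2 ≤ c ^ 2 := by
  have hm : 0 < m := hn.trans hmn
  have h1 : 0 < m - n := by linarith
  have h2 : 0 < m + n := by linarith
  have c1 : IsCoprime m (m - n) := by
    obtain ⟨u, v, huv⟩ := hcop; exact ⟨u + v, -v, by linear_combination huv⟩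
  have c2 : IsCoprime m (m + n) := by
    obtain ⟨u, v, huv⟩ := hcop; exact ⟨u - v, v, by linear_combination huv⟩
  have c3 : IsCoprime n (m - n) := by
    obtain ⟨u, v, huv⟩ := hcop; exact ⟨u + v, u, by linear_combination huv⟩
  have c4 : IsCoprime n (m + n) := by
    obtain ⟨u, v, huv⟩ := hcop; exact ⟨v - u, u, by linear_combination huv⟩
  have c5 : IsCoprime (m - n) (m + n) := by
    have h3 : IsCoprime (m - n) (2 : ℤ) := by
      rw [Int.isCoprime_iff_gcd_eq_one]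
      obtain ⟨k, hk⟩ := hpar
      exact Int.isCoprime_iff_gcd_eq_one.1 ⟨1, n - k, by linear_combination hk⟩
    have h4 : IsCoprime (m - n) (2 * n) := h3.mul_right c3.symm
    obtain ⟨u, v, huv⟩ := h4
    exact ⟨u - v, v, by linear_combination huv⟩
  have h3 : (3 : ℤ) ∣ m * n * (m - n) * (m + n) := ⟨c ^ 2, h⟩
  have p3 : Prime (3 : ℤ) := Int.prime_three
  rcases p3.dvd_or_dvd h3 with h3 | h3
  rcases p3.dvd_or_dvd h3 with h3 | h3
  rcases p3.dvd_or_dvd h3 with h3 | h3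
  · -- `3 ∣ m`
    exfalso
    obtain ⟨w, hw⟩ := h3
    have hw0 : 0 < w := by linarith
    have cw : IsCoprime w n := hcop.of_isCoprime_of_dvd_left ⟨3, by rw [hw]; ring⟩
    have cw1 : IsCoprime w (m - n) := c1.of_isCoprime_of_dvd_left ⟨3, by rw [hw]; ring⟩
    have cw2 : IsCoprime w (m + n) := c2.of_isCoprime_of_dvd_left ⟨3, by rw [hw]; ring⟩
    have h4 : w * n * (m - n) * (m + n) = c ^ 2 := by
      have : 3 * (w * n * (m - n) * (m + n)) = 3 * c ^ 2 := by rw [← h, hw]; ring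
      linarith
    obtain ⟨r, hr⟩ := sq_left (A := n) (R := w * (m - n) * (m + n)) (e := c)
      ((cw.symm.mul_right c3).mul_right c4) (by rw [← h4]; ring) hn
    obtain ⟨s, hs⟩ := sq_left (A := m - n) (R := w * n * (m + n)) (e := c)
      ((cw1.symm.mul_right c3.symm).mul_right c5) (by rw [← h4]; ring) h1
    have h5 := three_dvd_of_sq_add (r := r) (s := s) (w := w) (by rw [← hr, ← hs, ← hw]; ring)
    have h6 : IsCoprime (r ^ 2) (s ^ 2) := by rw [← hr, ← hs]; exact c3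
    have h7 : IsUnit (3 : ℤ) := h6.isUnit_of_dvd' (h5.1.pow two_ne_zero) (h5.2.pow two_ne_zero)
    exact p3.not_isUnit h7
  · -- `3 ∣ n`
    obtain ⟨w, hw⟩ := h3
    have hw0 : 0 < w := by linarith
    have cw : IsCoprime m w := hcop.of_isCoprime_of_dvd_right ⟨3, by rw [hw]; ring⟩
    have cw1 : IsCoprime w (m - n) := c3.of_isCoprime_of_dvd_left ⟨3, by rw [hw]; ring⟩
    have cw2 : IsCoprime w (m + n) := c4.of_isCoprime_of_dvd_left ⟨3, by rw [hw]; ring⟩
    have h4 : m * w * (m - n) * (m + n) = c ^ 2 := by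
      have : 3 * (m * w * (m - n) * (m + n)) = 3 * c ^ 2 := by rw [← h, hw]; ring
      linarith
    obtain ⟨α, hα⟩ := sq_left (A := m) (R := w * (m - n) * (m + n)) (e := c)
      ((cw.mul_right c1).mul_right c2) (by rw [← h4]; ring) hm
    obtain ⟨r, hr⟩ := sq_left (A := w) (R := m * (m - n) * (m + n)) (e := c)
      ((cw.symm.mul_right cw1).mul_right cw2) (by rw [← h4]; ring) hw0
    obtain ⟨γ, hγ⟩ := sq_left (A := m - n) (R := m * w * (m + n)) (e := c)
      ((c1.symm.mul_right cw1.symm).mul_right c5) (by rw [← h4]; ring) h1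
    obtain ⟨δ, hδ⟩ := sq_left (A := m + n) (R := m * w * (m - n)) (e := c)
      ((c2.symm.mul_right cw2.symm).mul_right c5.symm) (by rw [← h4]; ring) h2
    refine ⟨α, r, γ, δ, ?_, ?_, ?_, ?_, ?_⟩
    · rw [← hα, ← hr, ← hγ, hw]
    · rw [← hα, ← hr, ← hδ, hw]
    · rintro rfl; simp at hr; exact hw0.ne' hr
    · have h5 : IsCoprime (α ^ 2) (r ^ 2) := by rw [← hα, ← hr]; exact cw
      exact (IsCoprime.pow_iff (by norm_num) (by norm_num)).1 h5
    · rw [← h4, ← hr]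
      have e1 : 1 ≤ m * ((m - n) * (m + n)) := by
        have : 0 < m * ((m - n) * (m + n)) := by positivity
        omega
      nlinarith
  · -- `3 ∣ m - n`
    exfalso
    obtain ⟨w, hw⟩ := h3
    have hw0 : 0 < w := by linarith
    have cw : IsCoprime m w := c1.of_isCoprime_of_dvd_right ⟨3, by rw [hw]; ring⟩
    have cw1 : IsCoprime n w := c3.of_isCoprime_of_dvd_right ⟨3, by rw [hw]; ring⟩
    have cw2 : IsCoprime w (m + n) := c5.of_isCoprime_of_dvd_left ⟨3, by rw [hw]; ring⟩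
    have h4 : m * n * w * (m + n) = c ^ 2 := by
      have : 3 * (m * n * w * (m + n)) = 3 * c ^ 2 := by
        rw [← h, hw]; ring
      linarith
    obtain ⟨α, hα⟩ := sq_left (A := m) (R := n * w * (m + n)) (e := c)
      ((hcop.mul_right cw).mul_right c2) (by rw [← h4]; ring) hm
    obtain ⟨β, hβ⟩ := sq_left (A := n) (R := m * w * (m + n)) (e := c)
      ((hcop.symm.mul_right cw1).mul_right c4) (by rw [← h4]; ring) hn
    obtain ⟨r, hr⟩ := sq_left (A := w) (R := m * n * (m + n)) (e := c)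
      ((cw.symm.mul_right cw1.symm).mul_right cw2) (by rw [← h4]; ring) hw0
    obtain ⟨δ, hδ⟩ := sq_left (A := m + n) (R := m * n * w) (e := c)
      ((c2.symm.mul_right c4.symm).mul_right cw2.symm) (by rw [← h4]; ring) h2
    have e1 : α ^ 2 - β ^ 2 = 3 * r ^ 2 := by rw [← hα, ← hβ, ← hr, hw]
    have e2 : α ^ 2 + β ^ 2 = δ ^ 2 := by rw [← hα, ← hβ, ← hδ]
    have key : ∀ a b r d : ZMod 8, a ^ 2 - b ^ 2 = 3 * r ^ 2 → a ^ 2 + b ^ 2 = d ^ 2 →
        4 * (a ^ 2 + b ^ 2) = 0 := by decide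
    have h5 := key α β r δ (by exact_mod_cast congrArg (Int.cast : ℤ → ZMod 8) e1)
      (by exact_mod_cast congrArg (Int.cast : ℤ → ZMod 8) e2)
    have h6 : ((4 * (m + n) : ℤ) : ZMod 8) = 0 := by
      rw [hα, hβ]; push_cast; exact h5
    have h7 := (ZMod.intCast_zmod_eq_zero_iff_dvd _ 8).1 h6
    obtain ⟨k, hk⟩ := h7
    obtain ⟨l, hl⟩ := hpar
    push_cast at hk
    omega
  · -- `3 ∣ m + n`
    exfalso
    obtain ⟨w, hw⟩ := h3
    have hw0 : 0 < w := by linarith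
    have cw : IsCoprime m w := c2.of_isCoprime_of_dvd_right ⟨3, by rw [hw]; ring⟩
    have cw1 : IsCoprime n w := c4.of_isCoprime_of_dvd_right ⟨3, by rw [hw]; ring⟩
    have h4 : m * n * (m - n) * w = c ^ 2 := by
      have : 3 * (m * n * (m - n) * w) = 3 * c ^ 2 := by
        rw [← h, hw]; ring
      linarith
    obtain ⟨α, hα⟩ := sq_left (A := m) (R := n * (m - n) * w) (e := c)
      ((hcop.mul_right c1).mul_right cw) (by rw [← h4]; ring) hm
    obtain ⟨β, hβ⟩ := sq_left (A := n) (R := m * (m - n) * w) (e := c)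
      ((hcop.symm.mul_right c3).mul_right cw1) (by rw [← h4]; ring) hn
    have h5 := three_dvd_of_sq_add (r := α) (s := β) (w := w) (by rw [← hα, ← hβ, ← hw])
    have h6 : IsCoprime (α ^ 2) (β ^ 2) := by rw [← hα, ← hβ]; exact hcop
    have h7 : IsUnit (3 : ℤ) := h6.isUnit_of_dvd' (h5.1.pow two_ne_zero) (h5.2.pow two_ne_zero)
    exact p3.not_isUnit h7

/-- `b ^ 2 - 3 a ^ 2` and `b ^ 2 + 3 a ^ 2` are not both squares -/
theorem no_concordant_aux (N : ℕ) : ∀ a b x y : ℤ, a.natAbs = N → a ≠ 0 → IsCoprime b a →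
    b ^ 2 - 3 * a ^ 2 = y ^ 2 → b ^ 2 + 3 * a ^ 2 = x ^ 2 → False := by
  induction N using Nat.strong_induction_on with
  | _ N ih =>
  intro a b x y hN ha hcop hy hx
  -- signs
  wlog hb : 0 < b generalizing b
  · have hb0 : b ≠ 0 := by
      rintro rfl
      have : 0 < a ^ 2 := by positivity
      nlinarith [sq_nonneg y]
    exact this (-b) hcop.neg_left (by rw [neg_sq, hy]) (by rw [neg_sq, hx]) (by omega)
  wlog hx0 : 0 ≤ x generalizing x
  · exact this (-x) (by rw [neg_sq, hx]) (by omega)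
  wlog hy0 : 0 ≤ y generalizing y
  · exact this (-y) (by rw [neg_sq, hy]) (by omega)
  -- `a` is even
  have key : ∀ a b x y : ZMod 8, b ^ 2 - 3 * a ^ 2 = y ^ 2 → b ^ 2 + 3 * a ^ 2 = x ^ 2 →
      4 * a = 0 := by decide
  have ha2 : Even a := by
    have h1 := key a b x y (by exact_mod_cast congrArg (Int.cast : ℤ → ZMod 8) hy)
      (by exact_mod_cast congrArg (Int.cast : ℤ → ZMod 8) hx)
    have h2 : ((4 * a : ℤ) : ZMod 8) = 0 := by push_cast; exact h1
    have h3 := (ZMod.intCast_zmod_eq_zero_iff_dvd _ 8).1 h2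
    obtain ⟨k, hk⟩ := h3
    push_cast at hk
    exact ⟨k, by omega⟩
  have hbo : Odd b := by
    by_contra h
    rw [Int.not_odd_iff_even] at h
    have := hcop.isUnit_of_dvd' h.two_dvd ha2.two_dvd
    exact Int.prime_two.not_isUnit this
  obtain ⟨c, hc⟩ := ha2.two_dvd
  have hxo : Odd x := by
    have : Odd (x ^ 2) := by
      rw [← hx, hc]
      exact hbo.pow.add_even ⟨6 * c ^ 2, by ring⟩
    exact (Int.odd_pow' two_ne_zero).1 this
  have hyo : Odd y := by
    have : Odd (y ^ 2) := by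
      rw [← hy, hc]
      exact hbo.pow.sub_even ⟨6 * c ^ 2, by ring⟩
    exact (Int.odd_pow' two_ne_zero).1 this
  obtain ⟨p, hp⟩ := hxo.add_odd hyo
  obtain ⟨q, hq⟩ := hxo.sub_odd hyo
  have hxpq : x = p + q := by omega
  have hypq : y = p - q := by omega
  have hy1 : 0 < y := by
    rcases hy0.eq_or_lt with h | h
    · rw [← h] at hyo; exact absurd hyo (by decide)
    · exact h
  have ha3 : 0 < a ^ 2 := by positivity
  have hxy : y < x := by nlinarith
  have hq0 : 0 < q := by omega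
  have hp0 : 0 < p := by omega
  have e1 : p ^ 2 + q ^ 2 = b ^ 2 := by
    have : (p + q) ^ 2 + (p - q) ^ 2 = 2 * b ^ 2 := by rw [← hxpq, ← hypq, ← hx, ← hy]; ring
    nlinarith
  have e2 : p * q = 6 * c ^ 2 := by
    have : (p + q) ^ 2 - (p - q) ^ 2 = 24 * c ^ 2 := by
      rw [← hxpq, ← hypq, ← hx, ← hy, hc]; ring
    nlinarith
  have hcpq : IsCoprime p q := by
    refine isCoprime_of_prime_dvd (by rintro ⟨h, -⟩; exact hp0.ne' h) ?_
    intro d hd h1 h2
    have h3 : d ∣ b := by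
      refine hd.dvd_of_dvd_pow (n := 2) ?_
      rw [← e1]
      exact dvd_add (h1.pow two_ne_zero) (h2.pow two_ne_zero)
    have h4 : d * d ∣ 6 * c ^ 2 := by rw [← e2]; exact mul_dvd_mul h1 h2
    have hdc : ¬ d ∣ c := fun h5 => hd.not_isUnit
      (hcop.isUnit_of_dvd' h3 (by rw [hc]; exact h5.mul_left 2))
    have h5 : d * d ∣ 6 := by
      have h6 : IsCoprime (d * d) (c ^ 2) := by
        have h7 : IsCoprime d c := (hd.coprime_iff_not_dvd).2 hdc
        exact (h7.mul_left h7).pow_right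
      exact h6.dvd_of_dvd_mul_right h4
    have h6 : d * d ≤ 6 := Int.le_of_dvd (by norm_num) h5
    have h7 : d ≤ 2 ∧ -2 ≤ d := by constructor <;> nlinarith
    have h8 : d = 2 ∨ d = -2 ∨ d = 1 ∨ d = -1 ∨ d = 0 := by omega
    rcases h8 with rfl | rfl | rfl | rfl | rfl
    · norm_num at h5
    · norm_num at h5
    · exact hd.not_isUnit isUnit_one
    · exact hd.not_isUnit isUnit_one.neg
    · exact hd.ne_zero rfl
  -- the classification of Pythagorean triples
  obtain ⟨m, n, hmn, hm0, hg, hpar⟩ : ∃ m n : ℤ,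
      ((p = m ^ 2 - n ^ 2 ∧ q = 2 * m * n) ∨ (q = m ^ 2 - n ^ 2 ∧ p = 2 * m * n)) ∧ 0 ≤ m ∧
      Int.gcd m n = 1 ∧ Odd (m + n) := by
    by_cases hpo : p % 2 = 1
    · obtain ⟨m, n, h1, h2, -, h4, h5, h6⟩ := PythagoreanTriple.coprime_classification'
        (x := p) (y := q) (z := b) (by unfold PythagoreanTriple; linear_combination e1)
        (Int.isCoprime_iff_gcd_eq_one.1 hcpq) hpo hb
      exact ⟨m, n, Or.inl ⟨h1, h2⟩, h6, h4, by rw [Int.odd_iff]; omega⟩
    · have hqo : q % 2 = 1 := by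
        by_contra h
        have h1 : (2 : ℤ) ∣ p := by omega
        have h2 : (2 : ℤ) ∣ q := by omega
        exact Int.prime_two.not_isUnit (hcpq.isUnit_of_dvd' h1 h2)
      obtain ⟨m, n, h1, h2, -, h4, h5, h6⟩ := PythagoreanTriple.coprime_classification'
        (x := q) (y := p) (z := b) (by unfold PythagoreanTriple; linear_combination e1)
        (Int.isCoprime_iff_gcd_eq_one.1 hcpq.symm) hqo hb
      exact ⟨m, n, Or.inr ⟨h1, h2⟩, h6, h4, by rw [Int.odd_iff]; omega⟩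
  have h1 : 0 < m ^ 2 - n ^ 2 := by rcases hmn with ⟨h, -⟩ | ⟨h, -⟩ <;> rw [← h] <;> assumption
  have h2 : 0 < 2 * m * n := by rcases hmn with ⟨-, h⟩ | ⟨-, h⟩ <;> rw [← h] <;> assumption
  have h3 : (m ^ 2 - n ^ 2) * (2 * m * n) = 6 * c ^ 2 := by
    rw [← e2]; rcases hmn with ⟨h, h'⟩ | ⟨h, h'⟩ <;> rw [h, h'] ; ring
  have hm1 : 0 < m := by
    rcases hm0.eq_or_lt with h | h
    · rw [← h] at h2; simp at h2
    · exact h
  have hn1 : 0 < n := by
    by_contra h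
    have : n ≤ 0 := not_lt.1 h
    nlinarith
  have hnm : n < m := by nlinarith
  have h4 : m * n * (m - n) * (m + n) = 3 * c ^ 2 := by
    have h5 : (m ^ 2 - n ^ 2) * (2 * m * n) = 2 * (m * n * (m - n) * (m + n)) := by ring
    linarith
  obtain ⟨α, w, γ, δ, f1, f2, f3, f4, f5⟩ := concordant_step (c := c) hn1 hnm
    (Int.isCoprime_iff_gcd_eq_one.2 hg) hpar h4
  refine ih w.natAbs ?_ w α δ γ rfl f3 f4 f1 f2
  rw [← hN]
  zify
  rw [← sq_lt_sq, hc]
  have : 0 < c ^ 2 := by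
    have : c ≠ 0 := by rintro rfl; exact ha (by rw [hc]; ring)
    positivity
  nlinarith

/-- `b ^ 2 - 3 a ^ 2` and `b ^ 2 + 3 a ^ 2` are not both squares -/
theorem no_concordant {a b x y : ℤ} (ha : a ≠ 0) (hcop : IsCoprime b a)
    (hy : b ^ 2 - 3 * a ^ 2 = y ^ 2) (hx : b ^ 2 + 3 * a ^ 2 = x ^ 2) : False :=
  no_concordant_aux a.natAbs a b x y rfl ha hcop hy hx

/-- `r ^ 4 - 3 y ^ 2 = 1` implies `y = 0` -/
theorem eq_zero_of_pow_four {r y : ℤ} (h : r ^ 4 - 3 * y ^ 2 = 1) : y = 0 := by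
  by_contra hy0
  -- `r` is odd
  have hro : Odd r := by
    have key : ∀ r y : ZMod 8, r ^ 4 - 3 * y ^ 2 = 1 → 4 * r = 4 := by decide
    have h1 := key r y (by exact_mod_cast congrArg (Int.cast : ℤ → ZMod 8) h)
    have h2 : ((4 * r - 4 : ℤ) : ZMod 8) = 0 := by push_cast; rw [h1, sub_self]
    have h3 := (ZMod.intCast_zmod_eq_zero_iff_dvd _ 8).1 h2
    obtain ⟨k, hk⟩ := h3
    push_cast at hk
    exact ⟨k, by omega⟩
  obtain ⟨t, ht⟩ := hro
  -- `A = (r ^ 2 - 1) / 2`, `B = A + 1`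
  set A : ℤ := 2 * t ^ 2 + 2 * t with hA
  have hr2 : r ^ 2 = 2 * A + 1 := by rw [ht, hA]; ring
  have hAB : 4 * (A * (A + 1)) = 3 * y ^ 2 := by
    have : r ^ 4 = (2 * A + 1) ^ 2 := by rw [← hr2]; ring
    rw [this] at h; linarith
  have hye : Even y := by
    have h1 : Even (3 * y ^ 2) := ⟨2 * (A * (A + 1)), by rw [← hAB]; ring⟩
    rcases Int.even_mul.1 h1 with h2 | h2
    · exact absurd h2 (by decide)
    · exact (Int.even_pow' two_ne_zero).1 h2
  obtain ⟨z, hz⟩ := hye.two_dvd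
  have hAz : A * (A + 1) = 3 * z ^ 2 := by rw [hz] at hAB; linarith
  have hA0 : 0 < A := by
    have h1 : 0 ≤ A := by nlinarith [sq_nonneg t, sq_nonneg (t + 1)]
    rcases h1.eq_or_lt with h2 | h2
    · exfalso
      rw [← h2] at hAz
      have : z = 0 := by nlinarith [sq_nonneg z]
      exact hy0 (by rw [hz, this]; ring)
    · exact h2
  have hc : IsCoprime A (A + 1) := ⟨-1, 1, by ring⟩
  have p3 : Prime (3 : ℤ) := Int.prime_three
  have h3 : (3 : ℤ) ∣ A * (A + 1) := ⟨z ^ 2, hAz⟩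
  rcases p3.dvd_or_dvd h3 with h4 | h4
  · obtain ⟨w, hw⟩ := h4
    have hw0 : 0 < w := by linarith
    have h5 : w * (A + 1) = z ^ 2 := by
      have : 3 * (w * (A + 1)) = 3 * z ^ 2 := by rw [← hAz, ← mul_assoc, ← hw]
      linarith
    have hcw : IsCoprime w (A + 1) := hc.of_isCoprime_of_dvd_left ⟨3, by rw [hw]; ring⟩
    obtain ⟨a, ha⟩ := sq_left hcw h5 hw0
    obtain ⟨b, hb⟩ := sq_left hcw.symm (by rw [mul_comm]; exact h5) (by linarith)
    refine no_concordant (a := a) (b := b) (x := r) (y := 1) ?_ ?_ ?_ ?_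
    · rintro rfl; simp at ha; exact hw0.ne' ha
    · have h6 : IsCoprime (b ^ 2) (a ^ 2) := by rw [← ha, ← hb]; exact hcw.symm
      exact (IsCoprime.pow_iff (by norm_num) (by norm_num)).1 h6
    · rw [← ha, ← hb]; linarith
    · rw [← ha, ← hb, hr2]; linarith
  · -- `3 ∣ A + 1` : then `A` is a square congruent to `-1`
    obtain ⟨w, hw⟩ := h4
    have hw0 : 0 < w := by linarith
    have h5 : A * w = z ^ 2 := by
      have : 3 * (A * w) = 3 * z ^ 2 := by rw [← hAz, hw]; ring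
      linarith
    have hcw : IsCoprime A w := hc.of_isCoprime_of_dvd_right ⟨3, by rw [hw]; ring⟩
    obtain ⟨a, ha⟩ := sq_left hcw h5 hA0
    have h6 := three_dvd_of_sq_add (r := a) (s := 1) (w := w) (by rw [← ha]; linarith)
    exact p3.not_isUnit (isUnit_of_dvd_one h6.2)

/-- the numbers `x_k` of Pell's equation `x ^ 2 - 3 y ^ 2 = 1` -/
theorem pell_ne_sq {k : ℕ} (hk : k ≠ 0) {r : ℤ} :
    (Pell.xn (a := 2) (by norm_num) k : ℤ) ≠ r ^ 2 := by
  intro h
  have h1 := Pell.pell_eqz (a := 2) (by norm_num) k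
  have h2 : (r ^ 2) * (r ^ 2) - 3 * (Pell.yn (a := 2) (by norm_num) k : ℤ)
      * (Pell.yn (a := 2) (by norm_num) k : ℤ) = 1 := by
    rw [← h]
    exact h1
  have h3 := eq_zero_of_pow_four (r := r) (y := (Pell.yn (a := 2) (by norm_num) k : ℤ))
    (by linear_combination h2)
  have h4 : Pell.yn (a := 2) (by norm_num) 0 < Pell.yn (a := 2) (by norm_num) k :=
    (Pell.strictMono_y (a := 2) (by norm_num)) (Nat.pos_of_ne_zero hk)
  rw [Pell.yn_zero] at h4
  exact h4.ne' (by exact_mod_cast h3)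

/-- `n ^ 2 = 3 m ^ 4 - 3 m ^ 2 + 1` implies `m ^ 2 ≤ 1` -/
theorem sq_le_one_of_quartic {m n : ℤ} (h : n ^ 2 = 3 * m ^ 4 - 3 * m ^ 2 + 1) : m ^ 2 ≤ 1 := by
  by_contra hm
  have hm2 : 2 ≤ m ^ 2 := by omega
  have a1 : 1 < 2 := by norm_num
  -- Pell
  obtain ⟨k, hk1, hk2⟩ := Pell.eq_pell (a := 2) a1 (x := (2 * n).natAbs)
    (y := (2 * m ^ 2 - 1).natAbs) (by
      show (2 * n).natAbs * (2 * n).natAbs - 3 * (2 * m ^ 2 - 1).natAbs * (2 * m ^ 2 - 1).natAbs = 1
      have h1 : (2 * n).natAbs * (2 * n).natAbs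
          = 3 * (2 * m ^ 2 - 1).natAbs * (2 * m ^ 2 - 1).natAbs + 1 := by
        apply Nat.cast_injective (R := ℤ)
        have e1 := Int.natAbs_mul_self' (2 * n)
        have e2 := Int.natAbs_mul_self' (2 * m ^ 2 - 1)
        rw [Nat.cast_add, Nat.cast_mul, Nat.cast_mul, Nat.cast_mul]
        simp only [Nat.cast_ofNat, Nat.cast_one]
        linear_combination e1 - 3 * e2 + 4 * h
      omega)
  have hk2' : (Pell.yn (a := 2) a1 k : ℤ) = 2 * m ^ 2 - 1 := by
    rw [← hk2, Int.natCast_natAbs, abs_of_nonneg (by linarith)]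
  -- recurrences
  have hX : ∀ j, (Pell.xn (a := 2) a1 (j + 1) : ℤ)
      = 2 * Pell.xn (a := 2) a1 j + 3 * Pell.yn (a := 2) a1 j := by
    intro j
    have h1 : Pell.xn (a := 2) a1 (j + 1)
      = Pell.xn (a := 2) a1 j * 2 + 3 * Pell.yn (a := 2) a1 j := Pell.xn_succ (a := 2) a1 j
    rw [h1]; push_cast; ring
  have hY : ∀ j, (Pell.yn (a := 2) a1 (j + 1) : ℤ)
      = Pell.xn (a := 2) a1 j + 2 * Pell.yn (a := 2) a1 j := by
    intro j
    rw [Pell.yn_succ]; push_cast; ring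
  have hN : ∀ j, (Pell.xn (a := 2) a1 j : ℤ) ^ 2 - 3 * (Pell.yn (a := 2) a1 j : ℤ) ^ 2 = 1 := by
    intro j
    have h1 : (Pell.xn (a := 2) a1 j : ℤ) * Pell.xn (a := 2) a1 j
      - 3 * Pell.yn (a := 2) a1 j * Pell.yn (a := 2) a1 j = 1 := Pell.pell_eqz (a := 2) a1 j
    linear_combination h1
  have hadd : ∀ i j, (Pell.yn (a := 2) a1 (i + j) : ℤ)
      = Pell.xn (a := 2) a1 i * Pell.yn (a := 2) a1 j
        + Pell.yn (a := 2) a1 i * Pell.xn (a := 2) a1 j := by
    intro i j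
    rw [Pell.yn_add]; push_cast; ring
  have hpos : ∀ j, 0 < (Pell.xn (a := 2) a1 j : ℤ) := by
    intro j
    have h1 := hN j
    have h2 : 0 ≤ (Pell.xn (a := 2) a1 j : ℤ) := Int.natCast_nonneg _
    rcases h2.eq_or_lt with h3 | h3
    · rw [← h3] at h1; nlinarith [sq_nonneg (Pell.yn (a := 2) a1 j : ℤ)]
    · exact h3
  -- parity
  have hpar : ∀ j : ℕ, ((Pell.xn (a := 2) a1 j : ℤ) + j) % 2 = 1 ∧
      ((Pell.yn (a := 2) a1 j : ℤ) + j) % 2 = 0 := by
    intro j
    induction j with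
    | zero => rw [Pell.xn_zero, Pell.yn_zero]; simp
    | succ j ih =>
      rw [hX, hY]
      push_cast
      omega
  have hcXY : ∀ j, IsCoprime (Pell.xn (a := 2) a1 j : ℤ) (Pell.yn (a := 2) a1 j : ℤ) :=
    fun j => ⟨Pell.xn (a := 2) a1 j, -3 * Pell.yn (a := 2) a1 j, by linear_combination hN j⟩
  have hko : ∃ j, k = 2 * j + 1 := by
    have h1 := (hpar k).2
    rw [hk2'] at h1
    exact ⟨k / 2, by omega⟩
  obtain ⟨j, hj⟩ := hko
  -- `m ^ 2 = x_j y_(j + 1)`
  have hm3 : (Pell.xn (a := 2) a1 j : ℤ) * (Pell.xn (a := 2) a1 j + 2 * Pell.yn (a := 2) a1 j)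
      = m ^ 2 := by
    have h1 := hadd j (j + 1)
    rw [show j + (j + 1) = k by omega, hk2', hX, hY] at h1
    have h2 : 2 * ((Pell.xn (a := 2) a1 j : ℤ) *
        (Pell.xn (a := 2) a1 j + 2 * Pell.yn (a := 2) a1 j)) = 2 * m ^ 2 := by
      linear_combination (-1 : ℤ) * h1 + hN j
    linarith
  rcases Nat.even_or_odd j with hje | hjo
  · -- `x_j` is odd
    have hodd : IsCoprime (Pell.xn (a := 2) a1 j : ℤ) 2 := by
      rw [Int.isCoprime_iff_gcd_eq_one]
      have h1 := (hpar j).1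
      obtain ⟨i, hi⟩ := hje
      have h2 : (Pell.xn (a := 2) a1 j : ℤ) % 2 = 1 := by omega
      exact Int.isCoprime_iff_gcd_eq_one.1
        ⟨1, -((Pell.xn (a := 2) a1 j : ℤ) / 2), by omega⟩
    have hc : IsCoprime (Pell.xn (a := 2) a1 j : ℤ)
        (Pell.xn (a := 2) a1 j + 2 * Pell.yn (a := 2) a1 j) := by
      obtain ⟨u, v, huv⟩ := hodd.mul_right (hcXY j)
      exact ⟨u - v, v, by linear_combination huv⟩
    obtain ⟨r, hr⟩ := sq_left hc hm3 (hpos j)
    have hj0 : j = 0 := by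
      by_contra h0
      exact pell_ne_sq h0 hr
    rw [hj0] at hj
    rw [hj, show 2 * 0 + 1 = 1 from rfl, Pell.yn_one] at hk2'
    push_cast at hk2'
    omega
  · -- `x_j` is even
    obtain ⟨i, hi⟩ := hjo
    have h1 := (hpar j).1
    obtain ⟨u, hu⟩ : ∃ u : ℤ, (Pell.xn (a := 2) a1 j : ℤ) = 2 * u :=
      ⟨(Pell.xn (a := 2) a1 j : ℤ) / 2, by omega⟩
    have h2 := hadd (i + 1) (i + 1)
    rw [show (i + 1) + (i + 1) = j + 1 by omega, hY, hu] at h2
    rw [hu] at hm3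
    have h3 : (Pell.xn (a := 2) a1 (i + 1) : ℤ) * Pell.yn (a := 2) a1 (i + 1)
        = u + Pell.yn (a := 2) a1 j := by linarith
    have hc1 : IsCoprime u (Pell.yn (a := 2) a1 j : ℤ) := by
      have := hcXY j
      rw [hu] at this
      exact this.of_isCoprime_of_dvd_left ⟨2, by ring⟩
    have hc2 : IsCoprime u ((Pell.xn (a := 2) a1 (i + 1) : ℤ) * Pell.yn (a := 2) a1 (i + 1)) := by
      rw [h3]
      obtain ⟨s, t, hst⟩ := hc1
      exact ⟨s - t, t, by linear_combination hst⟩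
    have hm4 : Even m := by
      have : Even (m ^ 2) := ⟨u * (2 * u + 2 * Pell.yn (a := 2) a1 j), by rw [← hm3]; ring⟩
      exact (Int.even_pow' two_ne_zero).1 this
    obtain ⟨m', hm'⟩ := hm4.two_dvd
    have h4 : (Pell.xn (a := 2) a1 (i + 1) : ℤ) * (u * Pell.yn (a := 2) a1 (i + 1)) = m' ^ 2 := by
      rw [hm'] at hm3
      have h5 : u * (u + Pell.yn (a := 2) a1 j) = m' ^ 2 := by linarith
      rw [← h5, ← h3]; ring
    have hc3 : IsCoprime (Pell.xn (a := 2) a1 (i + 1) : ℤ) (u * Pell.yn (a := 2) a1 (i + 1)) :=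
      ((IsCoprime.mul_right_iff.1 hc2).1.symm).mul_right (hcXY (i + 1))
    obtain ⟨r, hr⟩ := sq_left hc3 h4 (hpos _)
    exact pell_ne_sq (Nat.succ_ne_zero i) hr

/-- **Euler's theorem (1738).** -/
theorem sq_eq_cube_add_one {x y : ℤ} (h : x ^ 2 = y ^ 3 + 1) : y = -1 ∨ y = 0 ∨ y = 2 := by
  have hy : -1 ≤ y := by
    by_contra hlt
    have h1 : y ≤ -2 := by omega
    nlinarith [sq_nonneg x, sq_nonneg y, sq_nonneg (y + 1)]
  by_cases h3 : (3 : ℤ) ∣ y + 1
  · -- `3 ∣ y + 1`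
    obtain ⟨z, hz⟩ := h3
    have hyz : y = 3 * z - 1 := by linarith
    have hz0 : 0 ≤ z := by omega
    have hx3 : (3 : ℤ) ∣ x := by
      refine Int.prime_three.dvd_of_dvd_pow (n := 2) ?_
      rw [h, hyz]
      exact ⟨9 * z ^ 3 - 9 * z ^ 2 + 3 * z, by ring⟩
    obtain ⟨w, hw⟩ := hx3
    have h1 : z * (3 * z ^ 2 - 3 * z + 1) = w ^ 2 := by
      rw [hw, hyz] at h; linarith
    rcases hz0.eq_or_lt with h0 | h0
    · left; omega
    have hc : IsCoprime z (3 * z ^ 2 - 3 * z + 1) := ⟨-3 * z + 3, 1, by ring⟩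
    obtain ⟨m, hm⟩ := sq_left hc h1 h0
    obtain ⟨n, hn⟩ := sq_left hc.symm (by rw [mul_comm]; exact h1) (by nlinarith)
    have h2 := sq_le_one_of_quartic (m := m) (n := n) (by rw [← hn, hm]; ring)
    right; right
    rw [← hm] at h2
    omega
  · -- `y + 1` is prime to `3`
    have hprod : (y + 1) * (y ^ 2 - y + 1) = x ^ 2 := by rw [h]; ring
    have hc : IsCoprime (y + 1) (y ^ 2 - y + 1) := by
      have h4 : IsCoprime (y + 1) (3 : ℤ) := (Int.prime_three.coprime_iff_not_dvd.2 h3).symm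
      obtain ⟨u, v, huv⟩ := h4
      exact ⟨u - v * (y - 2), v, by linear_combination huv⟩
    rcases hy.eq_or_lt with h0 | h0
    · left; exact h0.symm
    have h1 : 0 < y + 1 := by linarith
    obtain ⟨n, hn⟩ := sq_left hc.symm (by rw [mul_comm]; exact hprod) (by nlinarith)
    obtain ⟨m, hm⟩ := sq_left hc hprod h1
    -- `y ^ 2 - y + 1 = n ^ 2` : `y = 0` or `y = 1`
    wlog hn0 : 0 ≤ n generalizing n
    · exact this (-n) (by rw [neg_sq, hn]) (by omega)
    have h5 : y ≤ 1 := by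
      by_contra hlt
      have h6 : 2 ≤ y := by omega
      have h7 : n < y := by nlinarith
      have h8 : y - 1 < n := by nlinarith
      omega
    have h9 : y = 0 ∨ y = 1 := by omega
    rcases h9 with h9 | h9
    · right; left; exact h9
    · exfalso
      rw [h9] at hm
      have h10 : m ^ 2 = 2 := by linarith
      have h11 : -2 < m ∧ m < 2 := by constructor <;> nlinarith
      obtain ⟨h12, h13⟩ := h11
      interval_cases m <;> norm_num at h10

end Fermat.Agent.Cor.Cat
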