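import Mathlib.NumberTheory.PellMatiyasevic
import Mathlib.RingTheory.Int.Basic
import Mathlib.Algebra.Ring.GeomSum
import Mathlib.Tactic

/-!
# Ko Chao's theorem (1965): `x ^ 2 - y ^ p = 1` with `p ≥ 5` prime has no solution, `x y ≠ 0`

Nagell: `y` is even and `p` divides `x` (Pell's equation).  Chein (1976): then
`b ^ (2 p) - c ^ p` is a square, `b ^ 2 - c` is a square, and this is impossible by size.
-/

namespace Fermat.Agent.Cor.Cat

open Finset

/-- Pell's equation with `d = a ^ 2 - 1` : if `y` is even, then `a` divides `y`. -/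
theorem dvd_of_pell {a : ℕ} (a1 : 1 < a) {x y : ℕ} (h : x * x = (a * a - 1) * y * y + 1)
    (he : 2 ∣ y) : a ∣ y := by
  obtain ⟨n, -, hn⟩ := Pell.eq_pell a1 (x := x) (y := y) (by
    show x * x - (a * a - 1) * y * y = 1
    omega)
  have h2 : Pell.yn a1 2 ∣ Pell.yn a1 n := by
    rw [Pell.y_dvd_iff]
    have := Pell.yn_modEq_two a1 n
    rw [← hn] at this
    exact (Nat.modEq_zero_iff_dvd.1 (this.symm.trans (Nat.modEq_zero_iff_dvd.2 he)))
  have h3 : a ∣ Pell.yn a1 2 := by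
    rw [show (2 : ℕ) = 1 + 1 from rfl, Pell.yn_succ, Pell.yn_one, Pell.xn_one]
    exact ⟨2, by ring⟩
  rw [hn]
  exact h3.trans h2

/-- `a ^ p - b ^ p = (a - b) Q` with `Q ≡ p b ^ (p - 1) mod (a - b)` -/
theorem exists_quot (a b : ℤ) (p : ℕ) : ∃ Q k : ℤ, a ^ p - b ^ p = (a - b) * Q ∧
    Q = p * a ^ (p - 1) + (a - b) * k := by
  refine ⟨∑ i ∈ range p, a ^ i * b ^ (p - 1 - i), ?_⟩
  have h1 : a ^ p - b ^ p = (a - b) * ∑ i ∈ range p, a ^ i * b ^ (p - 1 - i) := by
    rw [mul_comm]; exact (Commute.all a b).geom_sum₂_mul p |>.symm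
  have h2 : (a - b) ∣ (∑ i ∈ range p, a ^ i * b ^ (p - 1 - i)) - p * a ^ (p - 1) := by
    have e : (p : ℤ) * a ^ (p - 1) = ∑ i ∈ range p, a ^ i * a ^ (p - 1 - i) := by
      rw [Finset.sum_congr rfl (g := fun _ => a ^ (p - 1))]
      · simp
      · intro i hi
        rw [Finset.mem_range] at hi
        rw [← pow_add]; congr 1; omega
    rw [e, ← Finset.sum_sub_distrib]
    refine Finset.dvd_sum fun i _ => ?_
    rw [← mul_sub]
    have := sub_dvd_pow_sub_pow a b (p - 1 - i)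
    rw [← neg_sub (a ^ (p - 1 - i))]
    exact (this.neg_right).mul_left _
  obtain ⟨k, hk⟩ := h2
  exact ⟨k, h1, by linarith⟩

/-- the two factors are coprime if `p` does not divide the product and `a`, `b` are coprime -/
theorem isCoprime_quot {a b m : ℤ} {p n : ℕ} (hp : p.Prime) (hab : IsCoprime a b) {Q k : ℤ}
    (hQ : a ^ p - b ^ p = (a - b) * Q) (hk : Q = p * a ^ (p - 1) + (a - b) * k)
    (hm : a ^ p - b ^ p = m ^ n) (hpm : ¬ (p : ℤ) ∣ m) : IsCoprime (a - b) Q := by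
  have h1 : IsCoprime (a - b) a := by
    obtain ⟨u, v, huv⟩ := hab
    exact ⟨-v, u + v, by linear_combination huv⟩
  have hpp : Prime (p : ℤ) := Nat.prime_iff_prime_int.1 hp
  have h2 : IsCoprime (a - b) (p : ℤ) := by
    refine IsCoprime.symm ((Prime.coprime_iff_not_dvd hpp).2 fun h => hpm ?_)
    refine hpp.dvd_of_dvd_pow (n := n) ?_
    rw [← hm, hQ]
    exact h.mul_right _
  rw [hk]
  exact (h2.mul_right h1.pow_right).add_mul_left_right k

/-- Nagell: `x ^ 2 - y ^ p = 1` with `x > 0`, `y > 0` : `y` is even -/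
theorem even_of_sq_sub {x y : ℤ} {p : ℕ} (hodd : Odd p) (hp3 : 3 ≤ p) (hx : 0 < x) (hy : 0 < y)
    (h : x ^ 2 = y ^ p + 1) : Even y := by
  by_contra hy2
  rw [Int.not_even_iff_odd] at hy2
  have hxe : Even x := by
    have h1 : Even (x ^ 2) := by rw [h]; exact hy2.pow.add_odd odd_one
    exact (Int.even_pow.1 h1).1
  have hcop : IsCoprime (x - 1) (x + 1) := by
    obtain ⟨k, hk⟩ := hxe
    exact ⟨-k - 1, k, by rw [hk]; ring⟩
  have hprod : (x - 1) * (x + 1) = y ^ p := by linear_combination h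
  obtain ⟨⟨r, hr⟩, ⟨s, hs⟩⟩ := Int.eq_pow_of_mul_eq_pow_odd hcop hodd hprod
  have hp0 : p ≠ 0 := by omega
  have hx2 : 2 ≤ x := by
    by_contra hlt
    have : x = 1 := by omega
    subst this
    have h0 : 0 < y ^ p := pow_pos hy p
    linarith
  have hrpos : 0 < r := by
    have : 0 < r ^ p := by rw [← hr]; linarith
    exact (hodd.pow_pos_iff).1 this
  have hdiff : s ^ p - r ^ p = 2 := by rw [← hr, ← hs]; ring
  have hlt : r < s := by
    by_contra hle
    have h0 : s ^ p ≤ r ^ p := (hodd.strictMono_pow (R := ℤ)).monotone (not_lt.1 hle)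
    linarith
  have hpar : Even (s - r) := by
    have h1 : Even (s ^ p - r ^ p) := by rw [hdiff]; decide
    rw [Int.even_sub, Int.even_pow' hp0, Int.even_pow' hp0] at h1
    rwa [Int.even_sub]
  obtain ⟨k, hk⟩ := hpar
  have hs2 : r + 2 ≤ s := by omega
  have h1 : (r + 2) ^ p ≤ s ^ p := pow_le_pow_left₀ (by linarith) hs2 p
  have h2 : r ^ p + 2 < (r + 2) ^ p := by
    obtain ⟨m, rfl⟩ : ∃ m, p = m + 1 := ⟨p - 1, by omega⟩
    have h3 : r ^ m ≤ (r + 2) ^ m := pow_le_pow_left₀ hrpos.le (by linarith) m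
    have h4 : (1 : ℤ) < (r + 2) ^ m := one_lt_pow₀ (by linarith) (by omega)
    rw [pow_succ, pow_succ]
    nlinarith
  linarith

/-- Nagell: `x ^ 2 - y ^ p = 1` with `x > 0`, `y > 0` : `p` divides `x` -/
theorem dvd_of_sq_sub {x y : ℤ} {p : ℕ} (hp : p.Prime) (hp3 : 3 ≤ p) (hx : 0 < x) (hy : 0 < y)
    (h : x ^ 2 = y ^ p + 1) : (p : ℤ) ∣ x := by
  have hodd : Odd p := hp.odd_of_ne_two (by omega)
  have hye := even_of_sq_sub hodd hp3 hx hy h
  by_contra hpx
  obtain ⟨Q, k, hQ, hk⟩ := exists_quot y (-1) p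
  have e : y ^ p - (-1) ^ p = x ^ 2 := by rw [hodd.neg_one_pow, h]; ring
  have hcop := isCoprime_quot hp (b := -1) (isCoprime_one_right.neg_right) hQ hk e hpx
  have hprod : (y - -1) * Q = x ^ 2 := by rw [← hQ, e]
  obtain ⟨u, hu⟩ := Int.sq_of_gcd_eq_one (Int.isCoprime_iff_gcd_eq_one.1 hcop) hprod
  have hu2 : y + 1 = u ^ 2 := by
    rcases hu with hu | hu
    · rw [← hu]; ring
    · exfalso; nlinarith [sq_nonneg u]
  obtain ⟨j, hj⟩ := hodd
  have hj0 : j ≠ 0 := by omega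
  -- Pell
  have hpell : x ^ 2 = (u ^ 2 - 1) * (y ^ j) * (y ^ j) + 1 := by
    rw [h, hj, ← hu2]; ring
  have hua : (1 : ℤ) < |u| := by
    have h1 : 2 < u ^ 2 := by
      rw [← hu2]
      obtain ⟨t, ht⟩ := hye
      omega
    by_contra hle
    have h2 : |u| ≤ 1 := not_lt.1 hle
    have h3 : u ^ 2 ≤ 1 := by
      rw [← sq_abs]; nlinarith [abs_nonneg u]
    linarith
  have hun : 1 < u.natAbs := by
    have := Int.natCast_natAbs u
    omega
  have key : u.natAbs ∣ (y ^ j).natAbs := by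
    refine dvd_of_pell (a := u.natAbs) (x := x.natAbs) hun ?_ ?_
    · zify
      rw [Nat.cast_sub (by nlinarith [hun])]
      push_cast
      rw [abs_mul_abs_self, abs_mul_abs_self, mul_assoc, abs_mul_abs_self]
      linear_combination hpell
    · rw [← Int.natCast_dvd_natCast, Int.dvd_natAbs]
      exact_mod_cast (hye.two_dvd.pow hj0)
  have hdvd : u ∣ y ^ j := Int.natAbs_dvd_natAbs.1 key
  have hcop2 : IsCoprime u (y ^ j) := by
    apply IsCoprime.pow_right
    exact ⟨u, -1, by rw [← sub_eq_zero]; linear_combination -hu2⟩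
  have hunit : IsUnit u := hcop2.isUnit_of_dvd' dvd_rfl hdvd
  rcases Int.isUnit_iff.1 hunit with h1 | h1 <;> rw [h1] at hua <;> norm_num at hua

/-- **Ko Chao's theorem (1965).** -/
theorem sq_sub_pow_ne_one_of_prime {x y : ℤ} {p : ℕ} (hp : p.Prime) (hp5 : 5 ≤ p) (hx : x ≠ 0)
    (hy : y ≠ 0) : x ^ 2 ≠ y ^ p + 1 := by
  intro h
  have hodd : Odd p := hp.odd_of_ne_two (by omega)
  have hp0 : p ≠ 0 := by omega
  have hpp : Prime (p : ℤ) := Nat.prime_iff_prime_int.1 hp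
  have hy0 : 0 < y := by
    have h1 : 0 ≤ y ^ p := by
      have : 0 < x ^ 2 := by positivity
      omega
    have h2 : 0 ≤ y := (hodd.pow_nonneg_iff).1 h1
    omega
  have habs : |x| ^ 2 = y ^ p + 1 := by rw [sq_abs, h]
  have hye := even_of_sq_sub hodd (by omega) (abs_pos.2 hx) hy0 habs
  have hpx : (p : ℤ) ∣ x := (dvd_abs _ _).1 (dvd_of_sq_sub hp (by omega) (abs_pos.2 hx) hy0 habs)
  -- choose the sign
  obtain ⟨X, s, hX, hXs, hpX⟩ : ∃ X s : ℤ, X = 4 * s + 1 ∧ X ^ 2 = y ^ p + 1 ∧ (p : ℤ) ∣ X := by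
    have hxo : Odd x := by
      by_contra hxe
      rw [Int.not_odd_iff_even] at hxe
      have h1 : Odd (x ^ 2) := by rw [h]; exact (hye.pow_of_ne_zero hp0).add_odd odd_one
      exact (Int.not_even_iff_odd.2 h1) (hxe.pow_of_ne_zero two_ne_zero)
    obtain ⟨t, ht⟩ := hxo
    rcases Int.even_or_odd t with ⟨s, hs⟩ | ⟨s, hs⟩
    · exact ⟨x, s, by omega, h, hpx⟩
    · exact ⟨-x, -s - 1, by omega, by rw [neg_sq, h], hpx.neg_right⟩
  have hprod : (2 * s + 1) * (8 * s) = y ^ p := by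
    rw [hX] at hXs; linear_combination hXs
  have hcop : IsCoprime (2 * s + 1) (8 * s) := by
    have h1 : IsCoprime (2 * s + 1) s := ⟨1, -2, by ring⟩
    have h2 : IsCoprime (2 * s + 1) (8 : ℤ) := by
      have : IsCoprime (2 * s + 1) (2 : ℤ) := ⟨1, -s, by ring⟩
      have := this.pow_right (n := 3)
      norm_num at this
      exact this
    exact h2.mul_right h1
  obtain ⟨⟨b, hb⟩, ⟨c, hc⟩⟩ := Int.eq_pow_of_mul_eq_pow_odd hcop hodd hprod
  have hs0 : s ≠ 0 := by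
    rintro rfl
    simp at hprod
    exact hy (pow_eq_zero_iff hp0 |>.1 hprod.symm)
  have hc0 : c ≠ 0 := by
    rintro rfl
    rw [zero_pow hp0] at hc
    omega
  -- `b ^ (2 p) - c ^ p = (2 s - 1) ^ 2`
  have hsq : (b ^ 2) ^ p - c ^ p = (2 * s - 1) ^ 2 := by
    rw [← hc, ← pow_mul, mul_comm 2 p, pow_mul, ← hb]; ring
  have hm0 : ¬ (p : ℤ) ∣ 2 * s - 1 := by
    intro h1
    have h3 : (p : ℤ) ∣ 3 := by
      have : (3 : ℤ) = X - 2 * (2 * s - 1) := by rw [hX]; ring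
      rw [this]
      exact dvd_sub hpX (h1.mul_left _)
    have h4 := Int.le_of_dvd (by norm_num) h3
    omega
  have hbc : IsCoprime (b ^ 2) c := by
    have h1 : IsCoprime (b ^ p) (c ^ p) := by rw [← hb, ← hc]; exact hcop
    have h2 : IsCoprime b c := (IsCoprime.pow_iff hp.pos hp.pos).1 h1
    exact h2.pow_left
  obtain ⟨Q, k, hQ, hk⟩ := exists_quot (b ^ 2) c p
  have hcop2 := isCoprime_quot hp hbc hQ hk hsq hm0
  have hprod2 : (b ^ 2 - c) * Q = (2 * s - 1) ^ 2 := by rw [← hQ, hsq]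
  obtain ⟨d, hd⟩ := Int.sq_of_gcd_eq_one (Int.isCoprime_iff_gcd_eq_one.1 hcop2) hprod2
  have hpos : c < b ^ 2 := by
    have h1 : 0 < (2 * s - 1) ^ 2 := by
      have : 2 * s - 1 ≠ 0 := by omega
      positivity
    have h2 : c ^ p < (b ^ 2) ^ p := by linarith
    exact (hodd.strictMono_pow (R := ℤ)).lt_iff_lt.1 h2
  have hd2 : b ^ 2 - c = d ^ 2 := by
    rcases hd with hd | hd
    · exact hd
    · exfalso; nlinarith [sq_nonneg d]
  -- parity
  have hbo : Odd b := by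
    have h1 : Odd (b ^ p) := ⟨s, by rw [← hb]⟩
    exact (Int.odd_pow' hp0).1 h1
  have hce : Even c := by
    have h1 : Even (c ^ p) := ⟨4 * s, by rw [← hc]; ring⟩
    exact (Int.even_pow' hp0).1 h1
  -- size
  have hbd : |b| ≠ |d| := by
    intro h1
    have : b ^ 2 = d ^ 2 := by rw [← sq_abs b, h1, sq_abs]
    exact hc0 (by linarith)
  have hcge : 2 * |b| - 1 ≤ |c| := by
    have h1 : c = |b| ^ 2 - |d| ^ 2 := by rw [sq_abs, sq_abs]; linarith
    rcases lt_or_gt_of_ne hbd with h2 | h2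
    · have h3 : |b| + 1 ≤ |d| := h2
      rw [h1, abs_sub_comm]
      refine le_trans ?_ (le_abs_self _)
      nlinarith [abs_nonneg b]
    · have h3 : |d| ≤ |b| - 1 := by omega
      rw [h1]
      refine le_trans ?_ (le_abs_self _)
      nlinarith [abs_nonneg d]
  obtain ⟨a, ha⟩ := hce.two_dvd
  have habs2 : |b| ≤ |a| := by
    rw [ha, abs_mul, abs_two] at hcge
    omega
  have hb1 : 1 ≤ |b| := Int.one_le_abs (by rintro rfl; exact absurd hbo (by decide))
  have hfin : |c| ^ p ≤ 4 * |b| ^ p + 4 := by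
    rw [← abs_pow, ← abs_pow, ← hc, ← hb, abs_le]
    constructor
    · nlinarith [neg_abs_le (2 * s + 1)]
    · nlinarith [le_abs_self (2 * s + 1)]
  have hfin2 : 32 * |b| ^ p ≤ |c| ^ p := by
    rw [ha, abs_mul, mul_pow, abs_two]
    have h1 : |b| ^ p ≤ |a| ^ p := pow_le_pow_left₀ (abs_nonneg _) habs2 p
    have h2 : (32 : ℤ) ≤ 2 ^ p := by
      calc (32 : ℤ) = 2 ^ 5 := by norm_num
        _ ≤ 2 ^ p := pow_le_pow_right₀ (by norm_num) hp5
    have h3 : 0 ≤ |b| ^ p := by positivity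
    nlinarith
  have h1 : (1 : ℤ) ≤ |b| ^ p := one_le_pow₀ hb1
  linarith

end Fermat.Agent.Cor.Cat
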