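import Fermat.Agent.Corollaries.Cat.Lebesgue
import Fermat.Agent.Corollaries.Cat.KoChao
import Fermat.Agent.Corollaries.Cat.Euler

/-!
# Catalan's equation with an exponent `2` (Lebesgue 1850, Euler 1738, Ko Chao 1965)

`x ^ 2 = y ^ n + 1` with `2 ≤ n`, `x y ≠ 0` has only the solutions `(± 3) ^ 2 = 2 ^ 3 + 1`, and
`x ^ 2 + 1 = y ^ n` has none.
-/

namespace Fermat.Agent.Cor.Cat

/-- **Catalan's equation `x ^ 2 - y ^ n = 1`**: the only solutions in nonzero integers with
`2 ≤ n` are `(± 3) ^ 2 - 2 ^ 3 = 1`. -/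
theorem sq_eq_pow_add_one {x y : ℤ} {n : ℕ} (hn : 2 ≤ n) (hx : x ≠ 0) (hy : y ≠ 0)
    (h : x ^ 2 = y ^ n + 1) : n = 3 ∧ y = 2 ∧ (x = 3 ∨ x = -3) := by
  have hp : n.minFac.Prime := Nat.minFac_prime (by omega)
  obtain ⟨k, hk⟩ := n.minFac_dvd
  have hk0 : k ≠ 0 := by rintro rfl; omega
  have h' : x ^ 2 = (y ^ k) ^ n.minFac + 1 := by rw [← pow_mul, mul_comm k, ← hk, h]
  have hyk : y ^ k ≠ 0 := pow_ne_zero _ hy
  rcases Nat.lt_or_ge n.minFac 5 with h5 | h5
  · have h23 : n.minFac = 2 ∨ n.minFac = 3 := by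
      have h2 := hp.two_le
      have h4 : n.minFac ≠ 4 := by intro h; rw [h] at hp; exact absurd hp (by norm_num)
      omega
    rcases h23 with h2 | h3
    · exfalso
      rw [h2] at h'
      have h1 : (x - y ^ k) * (x + y ^ k) = 1 := by linear_combination h'
      rcases Int.mul_eq_one_iff_eq_one_or_neg_one.1 h1 with ⟨e1, e2⟩ | ⟨e1, e2⟩ <;>
      exact hyk (by linarith)
    · rw [h3] at h'
      rcases sq_eq_cube_add_one h' with e | e | e
      · exfalso
        rw [e] at h'
        have : x ^ 2 = 0 := by rw [h']; norm_num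
        exact hx (pow_eq_zero_iff two_ne_zero |>.1 this)
      · exact absurd e hyk
      · have hk1 : k = 1 ∧ y = 2 := by
          rcases Nat.lt_or_ge k 2 with h2 | h2
          · have : k = 1 := by omega
            subst this
            exact ⟨rfl, by simpa using e⟩
          · exfalso
            have h1 : y ∣ 2 := by rw [← e]; exact dvd_pow_self y hk0
            have h4 : (4 : ℤ) ∣ 2 := by
              have hye : (2 : ℤ) ∣ y := by
                refine Int.prime_two.dvd_of_dvd_pow (n := k) ?_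
                rw [e]
              obtain ⟨z, hz⟩ := hye
              obtain ⟨l, rfl⟩ := Nat.exists_eq_add_of_le h2
              refine ⟨z ^ 2 * y ^ l, ?_⟩
              rw [pow_add] at e
              rw [← e, hz]; ring
            norm_num at h4
        obtain ⟨rfl, rfl⟩ := hk1
        rw [h3] at hk
        refine ⟨by omega, rfl, ?_⟩
        have h9 : (x - 3) * (x + 3) = 0 := by
          rw [e] at h'; linear_combination h'
        rcases mul_eq_zero.1 h9 with h9 | h9
        · left; linarith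
        · right; linarith
  · exact absurd h' (sq_sub_pow_ne_one_of_prime hp h5 hx hyk)

/-- Natural numbers: `x ^ 2 = y ^ n + 1` with `2 ≤ n`, `0 < y` only for `3 ^ 2 = 2 ^ 3 + 1`. -/
theorem sq_eq_pow_add_one_nat {x y n : ℕ} (hn : 2 ≤ n) (hy : 0 < y) (h : x ^ 2 = y ^ n + 1) :
    x = 3 ∧ y = 2 ∧ n = 3 := by
  have hx : x ≠ 0 := by rintro rfl; simp at h
  obtain ⟨h1, h2, h3⟩ := sq_eq_pow_add_one (x := x) (y := y) hn (by exact_mod_cast hx)
    (by exact_mod_cast hy.ne') (by exact_mod_cast h)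
  refine ⟨?_, by exact_mod_cast h2, h1⟩
  rcases h3 with h3 | h3
  · exact_mod_cast h3
  · omega

end Fermat.Agent.Cor.Cat
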