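import Mathlib

/-!
# The approximation of Cassels (Catalan's equation, piece B)

`p > q` odd primes, `a, y` integers with `|a|^q ≥ q^(p-1)`: then `(1 + a^q)^p - y^q ≠ 1`.
The binomial series of `(1 + t)^(p/q)` is truncated at `m = ⌊p/q⌋ + 1`; its denominators are
powers of `q`.
-/

set_option autoImplicit false

open Finset

namespace Fermat.Agent.Cor.Cat

/-- the numerator `∏_{j < k} (p - j q)` -/
def numB (p q k : ℕ) : ℤ := ∏ j ∈ range k, ((p : ℤ) - j * q)

/-- the binomial coefficient `binom(p/q, k)` -/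
noncomputable def bin (p q k : ℕ) : ℝ := (numB p q k : ℝ) / ((q : ℝ) ^ k * (k.factorial : ℝ))

theorem numB_succ (p q k : ℕ) : numB p q (k + 1) = numB p q k * ((p : ℤ) - k * q) := by
  unfold numB
  rw [prod_range_succ]

theorem bin_zero (p q : ℕ) : bin p q 0 = 1 := by
  simp [bin, numB]

theorem bin_succ (p : ℕ) {q : ℕ} (hq : q ≠ 0) (k : ℕ) :
    bin p q (k + 1) = bin p q k * (((p : ℝ) / q - k) / (k + 1)) := by
  have hq' : (q : ℝ) ≠ 0 := Nat.cast_ne_zero.mpr hq
  have hk : (k : ℝ) + 1 ≠ 0 := by positivity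
  have hk' : (k.factorial : ℝ) ≠ 0 := Nat.cast_ne_zero.mpr (Nat.factorial_ne_zero k)
  unfold bin
  rw [numB_succ, Nat.factorial_succ, pow_succ]
  push_cast
  field_simp

theorem dvd_numB (p : ℕ) {q M k : ℕ} (hM : M ∣ k.factorial) (hc : Nat.Coprime q M) :
    (M : ℤ) ∣ numB p q k := by
  have hM0 : M ≠ 0 := fun h => Nat.factorial_ne_zero k (Nat.eq_zero_of_zero_dvd (h ▸ hM))
  have : NeZero M := ⟨hM0⟩
  rw [← ZMod.intCast_zmod_eq_zero_iff_dvd]
  set r : ℕ := ((q : ZMod M)⁻¹).val with hr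
  have h1 : (q : ZMod M) * (r : ZMod M) = 1 := by
    rw [hr, ZMod.natCast_zmod_val]
    exact ZMod.coe_mul_inv_eq_one q hc
  have h2 : (r : ZMod M) ^ k * (numB p q k : ZMod M) = (((r * p).descFactorial k : ℕ) : ZMod M) := by
    have h3 : (((r * p).descFactorial k : ℕ) : ℤ) = ∏ j ∈ range k, (((r * p : ℕ) : ℤ) - j) := by
      rw [← descPochhammer_eval_eq_prod_range, descPochhammer_eval_eq_descFactorial]
    have h4 : (((r * p).descFactorial k : ℕ) : ZMod M) =
        ((∏ j ∈ range k, (((r * p : ℕ) : ℤ) - j) : ℤ) : ZMod M) := by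
      rw [← h3]
      push_cast
      rfl
    rw [h4, numB]
    push_cast
    have h5 : (r : ZMod M) ^ k = ∏ _j ∈ range k, (r : ZMod M) := by simp
    rw [h5, ← prod_mul_distrib]
    refine prod_congr rfl fun j _ => ?_
    linear_combination (-(j : ZMod M)) * h1
  have h3 : (((r * p).descFactorial k : ℕ) : ZMod M) = 0 := by
    rw [ZMod.natCast_eq_zero_iff]
    exact hM.trans (Nat.factorial_dvd_descFactorial _ _)
  rw [h3] at h2
  calc (numB p q k : ZMod M) = ((q : ZMod M) * r) ^ k * (numB p q k : ZMod M) := by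
        rw [h1, one_pow, one_mul]
    _ = (q : ZMod M) ^ k * ((r : ZMod M) ^ k * (numB p q k : ZMod M)) := by
        rw [mul_pow]
        ring
    _ = 0 := by rw [h2, mul_zero]

theorem not_dvd_numB {p q : ℕ} (hq : q.Prime) (hqp : ¬ q ∣ p) (k : ℕ) :
    ¬ (q : ℤ) ∣ numB p q k := by
  intro h
  rw [numB, (Nat.prime_iff_prime_int.mp hq).dvd_finsetProd_iff] at h
  obtain ⟨j, _, hj⟩ := h
  have h1 : (q : ℤ) ∣ (p : ℤ) := by
    have := dvd_add hj (Dvd.intro_left (j : ℤ) rfl : (q : ℤ) ∣ j * q)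
    simpa using this
  exact hqp (Int.natCast_dvd_natCast.mp h1)

/-- the exponent of `q` in the denominator -/
noncomputable def exq (q k : ℕ) : ℕ := k + k.factorial.factorization q

theorem exq_lt {q k m : ℕ} (h : k < m) : exq q k < exq q m := by
  unfold exq
  have h1 : k.factorial.factorization q ≤ m.factorial.factorization q :=
    (Nat.factorization_le_iff_dvd (Nat.factorial_ne_zero _) (Nat.factorial_ne_zero _)).mpr
      (Nat.factorial_dvd_factorial h.le) q
  omega

theorem exists_num {p q : ℕ} (hq : q.Prime) (hqp : ¬ q ∣ p) (k : ℕ) :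
    ∃ N : ℤ, (N : ℝ) = (q : ℝ) ^ exq q k * bin p q k ∧ ¬ (q : ℤ) ∣ N := by
  set v := k.factorial.factorization q with hv
  set M : ℕ := k.factorial / q ^ v with hM
  have hfac : q ^ v * M = k.factorial := Nat.ordProj_mul_ordCompl_eq_self _ _
  have hMd : M ∣ k.factorial := Dvd.intro_left _ hfac
  have hM0 : M ≠ 0 := fun h => Nat.factorial_ne_zero k (by rw [← hfac, h, mul_zero])
  have hc : Nat.Coprime q M := Nat.coprime_ordCompl hq (Nat.factorial_ne_zero k)
  obtain ⟨N, hN⟩ := dvd_numB p hMd hc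
  refine ⟨N, ?_, fun h => not_dvd_numB hq hqp k (hN ▸ h.mul_left _)⟩
  have hq' : (q : ℝ) ≠ 0 := Nat.cast_ne_zero.mpr hq.ne_zero
  have hM' : (M : ℝ) ≠ 0 := Nat.cast_ne_zero.mpr hM0
  unfold bin exq
  rw [hN, ← hv, ← hfac]
  push_cast
  rw [pow_add]
  field_simp

/-- the integers `D binom(p/q, k)` -/
theorem exists_coeffs {p q : ℕ} (hq : q.Prime) (hqp : ¬ q ∣ p) (m : ℕ) :
    ∃ b : ℕ → ℤ, (∀ k ≤ m, (b k : ℝ) = (q : ℝ) ^ exq q m * bin p q k) ∧
      (∀ k < m, (q : ℤ) ∣ b k) ∧ ¬ (q : ℤ) ∣ b m := by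
  choose N hN hN' using exists_num hq hqp
  refine ⟨fun k => (q : ℤ) ^ (exq q m - exq q k) * N k, fun k hk => ?_, fun k hk => ?_, ?_⟩
  · push_cast
    rw [hN, ← mul_assoc, ← pow_add]
    congr 2
    rcases hk.eq_or_lt with h | h
    · rw [h]
      omega
    · have := exq_lt (q := q) h
      omega
  · have := exq_lt (q := q) hk
    exact (dvd_pow_self _ (by omega)).mul_right _
  · simp only [Nat.sub_self, pow_zero, one_mul]
    exact hN' m

theorem choose_eq_bin {p q : ℕ} (hq : q ≠ 0) (k : ℕ) :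
    Ring.choose ((p : ℝ) / q) k = bin p q k := by
  induction k with
  | zero => simp [bin_zero]
  | succ k ih =>
    rw [bin_succ p hq, ← ih]
    have h1 := Ring.descPochhammer_eq_factorial_smul_choose ((p : ℝ) / q) (k + 1)
    have h2 := Ring.descPochhammer_eq_factorial_smul_choose ((p : ℝ) / q) k
    rw [descPochhammer_succ_right, Polynomial.smeval_mul, h2] at h1
    simp only [Polynomial.smeval_sub, Polynomial.smeval_X, pow_one, Polynomial.smeval_natCast,
      pow_zero, nsmul_eq_mul, mul_one, Nat.factorial_succ] at h1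
    push_cast at h1
    have hk : (k : ℝ) + 1 ≠ 0 := by positivity
    have hk' : (k.factorial : ℝ) ≠ 0 := Nat.cast_ne_zero.mpr (Nat.factorial_ne_zero k)
    have h3 : (k.factorial : ℝ) * (Ring.choose ((p : ℝ) / q) k * ((p : ℝ) / q - k)) =
        (k.factorial : ℝ) * ((k + 1) * Ring.choose ((p : ℝ) / q) (k + 1)) := by
      linear_combination h1
    have h4 := mul_left_cancel₀ hk' h3
    rw [← mul_div_assoc, h4]
    field_simp

theorem hasSum_bin {p q : ℕ} (hq : q ≠ 0) {t : ℝ} (ht : |t| < 1) :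
    HasSum (fun k => bin p q k * t ^ k) ((1 + t) ^ ((p : ℝ) / q)) := by
  have h1 := (Real.one_add_rpow_hasFPowerSeriesOnBall_zero (a := (p : ℝ) / q)).hasSum
    (y := t) (by
      rw [← ENNReal.ofReal_one, Metric.eball_ofReal]
      simpa using ht)
  rw [zero_add] at h1
  have h2 : (fun k => bin p q k * t ^ k) =
      fun n => binomialSeries ℝ ((p : ℝ) / q) n fun _ => t := by
    ext k
    rw [binomialSeries_apply, choose_eq_bin hq]
    simp
  rw [h2]
  exact h1

theorem abs_bin_le_one {p q : ℕ} (hq : q ≠ 0) {m : ℕ} (hm : (m : ℝ) - 1 ≤ (p : ℝ) / q)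
    (hm' : (p : ℝ) / q ≤ m) {k : ℕ} (hk : m ≤ k) : |bin p q k| ≤ 1 := by
  have hpq : (0 : ℝ) ≤ (p : ℝ) / q := by positivity
  have h1 : ∀ i ≤ m, |bin p q i| ≤ (m.choose i : ℝ) := by
    intro i
    induction i with
    | zero =>
      intro _
      simp [bin_zero]
    | succ i ih =>
      intro hi
      have hi' : (i : ℝ) + 1 ≤ m := by exact_mod_cast hi
      have hpos : (0 : ℝ) < (i : ℝ) + 1 := by positivity
      rw [bin_succ p hq, abs_mul, abs_div, abs_of_pos hpos]
      have h2 := ih (by omega)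
      have h3 : |(p : ℝ) / q - i| ≤ (m : ℝ) - i := by
        rw [abs_of_nonneg (by linarith)]
        linarith
      have h4 : (m.choose (i + 1) : ℝ) = (m.choose i : ℝ) * (((m : ℝ) - i) / (i + 1)) := by
        have h5 := Nat.choose_succ_right_eq m i
        have h6 : ((m.choose (i + 1) * (i + 1) : ℕ) : ℝ) = ((m.choose i * (m - i) : ℕ) : ℝ) := by
          rw [h5]
        push_cast [Nat.cast_sub (show i ≤ m by omega)] at h6
        rw [mul_div_assoc', eq_div_iff hpos.ne']
        exact h6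
      rw [h4]
      gcongr
  induction k, hk using Nat.le_induction with
  | base => simpa using h1 m le_rfl
  | succ k hk ih =>
    have hk' : (m : ℝ) ≤ k := by exact_mod_cast hk
    have hpos : (0 : ℝ) < (k : ℝ) + 1 := by positivity
    rw [bin_succ p hq, abs_mul, abs_div, abs_of_pos hpos]
    have h3 : |(p : ℝ) / q - k| / ((k : ℝ) + 1) ≤ 1 := by
      rw [div_le_one hpos, abs_le]
      constructor <;> linarith
    calc |bin p q k| * (|(p : ℝ) / q - k| / ((k : ℝ) + 1)) ≤ 1 * 1 :=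
          mul_le_mul ih h3 (by positivity) zero_le_one
      _ = 1 := one_mul 1

/-- the remainder of the binomial series -/
theorem abs_rpow_sub_le {p q : ℕ} (hq : q ≠ 0) {m : ℕ} (hm : (m : ℝ) - 1 ≤ (p : ℝ) / q)
    (hm' : (p : ℝ) / q ≤ m) {t : ℝ} (ht : |t| < 1) :
    |(1 + t) ^ ((p : ℝ) / q) - ∑ k ∈ range (m + 1), bin p q k * t ^ k| ≤
      |t| ^ (m + 1) / (1 - |t|) := by
  have h1 := (hasSum_nat_add_iff' (f := fun k => bin p q k * t ^ k) (m + 1)).mpr (hasSum_bin hq ht)
  have h2 : HasSum (fun n : ℕ => |t| ^ (m + 1) * |t| ^ n) (|t| ^ (m + 1) * (1 - |t|)⁻¹) :=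
    (hasSum_geometric_of_lt_one (abs_nonneg t) ht).mul_left _
  rw [← h1.tsum_eq, ← Real.norm_eq_abs, div_eq_mul_inv]
  refine tsum_of_norm_bounded h2 fun n => ?_
  rw [Real.norm_eq_abs, abs_mul, abs_pow, ← pow_add, add_comm (m + 1) n]
  calc |bin p q (n + (m + 1))| * |t| ^ (n + (m + 1)) ≤ 1 * |t| ^ (n + (m + 1)) := by
        refine mul_le_mul_of_nonneg_right (abs_bin_le_one hq hm hm' (by omega)) (by positivity)
    _ = |t| ^ (n + (m + 1)) := one_mul _

/-- the `q`-th roots of `(1 + t)^p - t^p` and `(1 + t)^p` -/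
theorem abs_sub_rpow_le {p q : ℕ} (hq : q.Prime) {t F : ℝ} (ht : |t| < 1)
    (hpt : (p : ℝ) * |t| ≤ 1 / 2) (hF : F ^ q = (1 + t) ^ p - t ^ p) (hF0 : 0 ≤ F) :
    |F - (1 + t) ^ ((p : ℝ) / q)| ≤ 2 * |t| ^ p := by
  have hq0 : (q : ℝ) ≠ 0 := Nat.cast_ne_zero.mpr hq.ne_zero
  have h1t : 0 < 1 + t := by
    rw [abs_lt] at ht
    linarith
  set G : ℝ := (1 + t) ^ ((p : ℝ) / q) with hG
  have hG0 : 0 < G := Real.rpow_pos_of_pos h1t _
  have hGq : G ^ q = (1 + t) ^ p := by
    rw [hG, ← Real.rpow_natCast, ← Real.rpow_mul h1t.le, div_mul_cancel₀ _ hq0, Real.rpow_natCast]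
  have hGq' : 1 / 2 ≤ G ^ (q - 1) := by
    by_cases h : 1 ≤ G
    · exact le_trans (by norm_num) (one_le_pow₀ h)
    · push Not at h
      have h2 : G ^ q ≤ G ^ (q - 1) := pow_le_pow_of_le_one hG0.le h.le (by omega)
      refine le_trans ?_ h2
      rw [hGq]
      have h3 := one_add_mul_le_pow (a := t) (by rw [abs_lt] at ht; linarith) p
      have h4 : -((p : ℝ) * |t|) ≤ p * t := by
        have : -|t| ≤ t := neg_abs_le t
        nlinarith [(Nat.cast_nonneg p : (0 : ℝ) ≤ p)]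
      linarith
  set S : ℝ := ∑ i ∈ range q, F ^ i * G ^ (q - 1 - i) with hS
  have h5 : F ^ q - G ^ q = (F - G) * S := ((Commute.all F G).mul_geom_sum₂ q).symm
  have h6 : 1 / 2 ≤ S := by
    refine hGq'.trans ?_
    have h7 := single_le_sum (s := range q) (f := fun i => F ^ i * G ^ (q - 1 - i))
      (fun i _ => by positivity) (mem_range.mpr hq.pos)
    simpa using h7
  have h7 : |F - G| * S = |t| ^ p := by
    rw [← abs_of_nonneg (show (0 : ℝ) ≤ S by linarith), ← abs_mul, ← h5, hF, hGq, ← abs_pow,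
      ← abs_neg]
    congr 1
    ring
  have h8 : |F - G| * (1 / 2) ≤ |F - G| * S := mul_le_mul_of_nonneg_left h6 (abs_nonneg _)
  linarith

theorem exq_le {p q : ℕ} (hq : q.Prime) (hq3 : 3 ≤ q) (hp5 : 5 ≤ p) :
    exq q (p / q + 1) ≤ p - 2 := by
  have : Fact q.Prime := ⟨hq⟩
  have h1 := sub_one_mul_padicValNat_factorial_lt_of_ne_zero q (n := p / q + 1)
    (Nat.succ_ne_zero _)
  rw [← Nat.factorization_def _ hq] at h1
  unfold exq
  set v := (p / q + 1).factorial.factorization q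
  have h2 : 2 * v ≤ (q - 1) * v := Nat.mul_le_mul_right _ (by omega)
  have h3 : p / q ≤ p / 3 := Nat.div_le_div_left hq3 (by norm_num)
  omega

/-- **(B)** the approximation of Cassels -/
theorem ne_one_of_le {p q : ℕ} (hp : p.Prime) (hq : q.Prime) (hq2 : q ≠ 2) (hlt : q < p)
    {a y : ℤ} (ha : (q : ℤ) ^ (p - 1) ≤ |a| ^ q) : (1 + a ^ q) ^ p - y ^ q ≠ 1 := by
  intro h
  have hq3 : 3 ≤ q := by
    have := hq.two_le
    omega
  have hqodd : Odd q := hq.odd_of_ne_two hq2
  have hp5 : 5 ≤ p := by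
    by_contra hcon
    have : p = 4 := by omega
    rw [this] at hp
    exact absurd hp (by norm_num)
  have hqp : ¬ q ∣ p := fun hd => by
    rcases (Nat.dvd_prime hp).mp hd with h1 | h1
    · omega
    · omega
  have hqR : (3 : ℝ) ≤ q := by exact_mod_cast hq3
  have hq0 : (q : ℝ) ≠ 0 := by positivity
  set A : ℝ := (a : ℝ) ^ q with hA
  have hAle : (q : ℝ) ^ (p - 1) ≤ |A| := by
    rw [hA, abs_pow]
    exact_mod_cast ha
  have h81 : (81 : ℝ) ≤ (q : ℝ) ^ (p - 1) := by
    calc (81 : ℝ) = 3 ^ 4 := by norm_num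
      _ ≤ (q : ℝ) ^ 4 := by gcongr
      _ ≤ (q : ℝ) ^ (p - 1) := pow_le_pow_right₀ (by linarith) (by omega)
  have hA0 : A ≠ 0 := by
    intro h0
    rw [h0, abs_zero] at hAle
    linarith
  have ha0 : (a : ℝ) ≠ 0 := by
    intro h0
    rw [hA, h0, zero_pow hq.ne_zero] at hA0
    exact hA0 rfl
  set t : ℝ := A⁻¹ with ht
  have ht0 : 0 < |t| := abs_pos.mpr (inv_ne_zero hA0)
  have hT : |t| ≤ 1 / (q : ℝ) ^ (p - 1) := by
    rw [ht, abs_inv, one_div]
    gcongr
  have hT81 : |t| ≤ 1 / 81 := hT.trans (by gcongr)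
  have ht1 : |t| < 1 := by linarith
  have hpt : (p : ℝ) * |t| ≤ 1 / 2 := by
    have h2 : 2 * p ≤ q ^ (p - 1) := by
      calc 2 * p ≤ 2 ^ p := by
            have : ∀ n : ℕ, 5 ≤ n → 2 * n ≤ 2 ^ n := by
              intro n hn
              induction n, hn using Nat.le_induction with
              | base => norm_num
              | succ n hn ih =>
                rw [pow_succ]
                omega
            exact this p hp5
        _ ≤ 3 ^ (p - 1) := by
            obtain ⟨r, rfl⟩ : ∃ r, p = r + 5 := ⟨p - 5, by omega⟩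
            have : r + 5 - 1 = r + 4 := by omega
            rw [this, pow_add, pow_add]
            exact Nat.mul_le_mul (Nat.pow_le_pow_left (by norm_num) r) (by norm_num)
        _ ≤ q ^ (p - 1) := Nat.pow_le_pow_left hq3 _
    have h3 : 2 * (p : ℝ) ≤ (q : ℝ) ^ (p - 1) := by exact_mod_cast h2
    have h4 : (p : ℝ) * |t| ≤ p * (1 / (q : ℝ) ^ (p - 1)) :=
      mul_le_mul_of_nonneg_left hT (by positivity)
    refine h4.trans ?_
    rw [mul_one_div, div_le_div_iff₀ (by positivity) (by norm_num)]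
    linarith
  set F : ℝ := (y : ℝ) / (a : ℝ) ^ p with hFdef
  have hy : (y : ℝ) ^ q = (1 + A) ^ p - 1 := by
    have h2 : (1 + (a : ℝ) ^ q) ^ p - (y : ℝ) ^ q = 1 := by exact_mod_cast h
    rw [hA]
    linarith
  have hF : F ^ q = (1 + t) ^ p - t ^ p := by
    have h2 : (1 : ℝ) + t = (1 + A) / A := by
      rw [ht]
      field_simp
      ring
    rw [h2, hFdef, div_pow, hy, ← pow_mul, mul_comm p q, pow_mul, ← hA, ht, div_pow, inv_pow,
      sub_div, one_div]
  have hF0 : 0 ≤ F := by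
    rw [← hqodd.pow_nonneg_iff, hF, sub_nonneg]
    have h2 : -|t| ≤ t := neg_abs_le t
    calc t ^ p ≤ |t ^ p| := le_abs_self _
      _ = |t| ^ p := abs_pow _ _
      _ ≤ (1 + t) ^ p := pow_le_pow_left₀ (abs_nonneg _) (by linarith) _
  set m : ℕ := p / q + 1 with hm
  have hm1 : (m : ℝ) - 1 ≤ (p : ℝ) / q := by
    rw [hm]
    push_cast
    rw [add_sub_cancel_right]
    exact Nat.cast_div_le
  have hm2n : p < q * m := Nat.lt_mul_div_succ _ hq.pos
  have hm2 : (p : ℝ) / q ≤ m := by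
    rw [div_le_iff₀ (by positivity)]
    have : (p : ℝ) < q * m := by exact_mod_cast hm2n
    linarith
  have hpm : m + 2 ≤ p := by
    have h3 : p / q ≤ p / 3 := Nat.div_le_div_left hq3 (by norm_num)
    omega
  obtain ⟨b, hb, hb1, hb2⟩ := exists_coeffs hq hqp m
  have hE := exq_le hq hq3 hp5
  rw [← hm] at hE
  have hE1 : 1 ≤ exq q m := by
    have : 1 ≤ m := Nat.succ_pos _
    unfold exq
    omega
  set E := exq q m with hEdef
  set z : ℤ := (q : ℤ) ^ E * a ^ (q * m - p) * y - ∑ k ∈ range (m + 1), b k * a ^ (q * (m - k))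
    with hz
  have hzR : (z : ℝ) = (q : ℝ) ^ E * A ^ m * (F - ∑ k ∈ range (m + 1), bin p q k * t ^ k) := by
    rw [hz]
    push_cast
    rw [mul_sub, mul_sum]
    congr 1
    · rw [hFdef, hA, ← pow_mul, pow_sub₀ _ ha0 hm2n.le]
      field_simp
    · refine sum_congr rfl fun k hk => ?_
      rw [mem_range] at hk
      rw [hb k (by omega), hA, ht, hA, inv_pow, ← pow_mul, ← pow_mul, Nat.mul_sub,
        pow_sub₀ _ ha0 (Nat.mul_le_mul_left q (by omega))]
      ring
  have hz0 : z ≠ 0 := by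
    intro h0
    apply hb2
    rw [hz, sum_range_succ, Nat.sub_self, mul_zero, pow_zero, mul_one] at h0
    have h1 : b m = (q : ℤ) ^ E * a ^ (q * m - p) * y - ∑ k ∈ range m, b k * a ^ (q * (m - k)) := by
      linarith
    rw [h1]
    refine dvd_sub ?_ (dvd_sum fun k hk => (hb1 k (mem_range.mp hk)).mul_right _)
    exact ((dvd_pow_self _ (by omega)).mul_right _).mul_right _
  have hz1 : (1 : ℝ) ≤ |(z : ℝ)| := by exact_mod_cast Int.one_le_abs hz0
  have hrem := abs_rpow_sub_le hq.ne_zero hm1 hm2 ht1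
  have hroot := abs_sub_rpow_le hq ht1 hpt hF hF0
  have hsum : |F - ∑ k ∈ range (m + 1), bin p q k * t ^ k| ≤
      2 * |t| ^ p + |t| ^ (m + 1) / (1 - |t|) := by
    refine (abs_sub_le _ ((1 + t) ^ ((p : ℝ) / q)) _).trans (add_le_add hroot hrem)
  have hAt : |A| ^ m * |t| ^ m = 1 := by
    rw [← mul_pow, ht, abs_inv, mul_inv_cancel₀ (abs_ne_zero.mpr hA0), one_pow]
  have hfin : |(z : ℝ)| ≤ (q : ℝ) ^ E * (|t| * (3 / 2)) := by
    rw [hzR, abs_mul, abs_mul, abs_pow, abs_pow, abs_of_pos (show (0 : ℝ) < q by positivity),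
      mul_assoc]
    refine mul_le_mul_of_nonneg_left ?_ (by positivity)
    calc |A| ^ m * |F - ∑ k ∈ range (m + 1), bin p q k * t ^ k| ≤
        |A| ^ m * (2 * |t| ^ p + |t| ^ (m + 1) / (1 - |t|)) :=
          mul_le_mul_of_nonneg_left hsum (by positivity)
      _ = |A| ^ m * |t| ^ m * (2 * |t| ^ (p - m) + |t| / (1 - |t|)) := by
          have h2 : |t| ^ p = |t| ^ m * |t| ^ (p - m) := by
            rw [← pow_add]
            congr 1
            omega
          rw [h2]
          ring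
      _ = 2 * |t| ^ (p - m) + |t| / (1 - |t|) := by rw [hAt, one_mul]
      _ ≤ 2 * |t| ^ 2 + |t| / (1 - 1 / 81) := by
          have h2 : |t| ^ (p - m) ≤ |t| ^ 2 := pow_le_pow_of_le_one ht0.le ht1.le (by omega)
          have h3 : |t| / (1 - |t|) ≤ |t| / (1 - 1 / 81) :=
            div_le_div_of_nonneg_left ht0.le (by norm_num) (by linarith)
          linarith
      _ ≤ |t| * (3 / 2) := by
          have h2 : |t| / (1 - 1 / 81) = |t| * (81 / 80) := by
            rw [div_eq_mul_inv]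
            norm_num
          rw [h2]
          nlinarith
  have hfin2 : (q : ℝ) ^ E * (|t| * (3 / 2)) ≤ 1 / 2 := by
    have h2 : (q : ℝ) ^ E ≤ (q : ℝ) ^ (p - 2) := pow_le_pow_right₀ (by linarith) hE
    have h3 : (q : ℝ) ^ (p - 2) * |t| ≤ 1 / q := by
      calc (q : ℝ) ^ (p - 2) * |t| ≤ (q : ℝ) ^ (p - 2) * (1 / (q : ℝ) ^ (p - 1)) :=
            mul_le_mul_of_nonneg_left hT (by positivity)
        _ = 1 / q := by
            have h4 : p - 1 = (p - 2) + 1 := by omega
            rw [h4, pow_succ]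
            field_simp
    have h4 : (1 : ℝ) / q ≤ 1 / 3 := by gcongr
    have h5 : (q : ℝ) ^ E * |t| ≤ (q : ℝ) ^ (p - 2) * |t| := mul_le_mul_of_nonneg_right h2 ht0.le
    nlinarith
  linarith

end Fermat.Agent.Cor.Cat
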