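import Fermat.Agent.Corollaries.Cat.Rel
import Fermat.Agent.Corollaries.Cat.Approx

/-!
# Cassels' theorem (1960)

If `p`, `q` are odd primes and `x ^ p - y ^ q = 1` with nonzero integers `x`, `y`, then `q ∣ x` and
`p ∣ y`.  Consequences: the relations `x - 1 = p ^ (q - 1) a ^ q`,
`1 + x + … + x ^ (p - 1) = p u ^ q`, and the bound `q ^ (p - 1) ≤ |x|`.
-/

namespace Fermat.Agent.Cor.Cat

open Finset

/-- the symmetry of Catalan's equation -/
theorem symm_eq {p q : ℕ} (hp : p.Prime) (hp2 : p ≠ 2) (hq : q.Prime) (hq2 : q ≠ 2) {x y : ℤ}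
    (h : x ^ p - y ^ q = 1) : (-y) ^ q - (-x) ^ p = 1 := by
  rw [(hq.odd_of_ne_two hq2).neg_pow, (hp.odd_of_ne_two hp2).neg_pow]
  linarith

/-- **Cassels' theorem**, one half -/
theorem cassels_right {p q : ℕ} (hp : p.Prime) (hp2 : p ≠ 2) (hq : q.Prime) (hq2 : q ≠ 2)
    (hpq : p ≠ q) {x y : ℤ} (hx : x ≠ 0) (hy : y ≠ 0) (h : x ^ p - y ^ q = 1) : (p : ℤ) ∣ y := by
  rcases Nat.lt_or_gt_of_ne hpq with hlt | hlt
  · exact dvd_of_lt hp hp2 hq hq2 hx hy h hlt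
  · by_contra hpy
    have hqx : (q : ℤ) ∣ x := by
      have := dvd_of_lt hq hq2 hp hp2 (neg_ne_zero.2 hy) (neg_ne_zero.2 hx)
        (symm_eq hp hp2 hq hq2 h) hlt
      exact (dvd_neg).1 this
    obtain ⟨a, ha⟩ := relations' hp hq hq2 h hpy
    have hle := le_abs hp hp2 hq hq2 hx h hlt hqx
    have hq0 : (1 : ℤ) ≤ q := by exact_mod_cast hq.one_le
    have h1 : (q : ℤ) ^ (p - 1) ≤ |a| ^ q := by
      rw [← abs_pow, ← ha]
      have h2 : |x| ≤ |x - 1| + |1| := by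
        have := abs_add_le (x - 1) 1
        rwa [sub_add_cancel] at this
      rw [abs_one] at h2
      linarith
    refine ne_one_of_le hp hq hq2 hlt h1 (y := y) ?_
    rw [← ha, add_sub_cancel, h]

/-- **Cassels' theorem (1960).** -/
theorem cassels {p q : ℕ} (hp : p.Prime) (hp2 : p ≠ 2) (hq : q.Prime) (hq2 : q ≠ 2)
    (hpq : p ≠ q) {x y : ℤ} (hx : x ≠ 0) (hy : y ≠ 0) (h : x ^ p - y ^ q = 1) :
    (q : ℤ) ∣ x ∧ (p : ℤ) ∣ y :=
  ⟨(dvd_neg).1 (cassels_right hq hq2 hp hp2 hpq.symm (neg_ne_zero.2 hy) (neg_ne_zero.2 hx)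
    (symm_eq hp hp2 hq hq2 h)), cassels_right hp hp2 hq hq2 hpq hx hy h⟩

/-- Cassels' relations: `y + 1 = q ^ (p - 1) b ^ p` -/
theorem exists_add_one {p q : ℕ} (hp : p.Prime) (hp2 : p ≠ 2) (hq : q.Prime) (hq2 : q ≠ 2)
    (hpq : p ≠ q) {x y : ℤ} (hx : x ≠ 0) (hy : y ≠ 0) (h : x ^ p - y ^ q = 1) :
    ∃ b : ℤ, y + 1 = q ^ (p - 1) * b ^ p := by
  obtain ⟨b, -, hb, -⟩ := relations hq hq2 hp hp2 (symm_eq hp hp2 hq hq2 h)
    ((dvd_neg).2 (cassels hp hp2 hq hq2 hpq hx hy h).1)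
  refine ⟨-b, ?_⟩
  rw [(hp.odd_of_ne_two hp2).neg_pow, mul_neg, ← hb]
  ring

/-- the lower bound for `x` -/
theorem pow_le_abs {p q : ℕ} (hp : p.Prime) (hp2 : p ≠ 2) (hq : q.Prime) (hq2 : q ≠ 2)
    (hpq : p ≠ q) {x y : ℤ} (hx : x ≠ 0) (hy : y ≠ 0) (h : x ^ p - y ^ q = 1) :
    (q : ℤ) ^ (p - 1) ≤ |x| := by
  have hq3 : (3 : ℤ) ≤ q := by
    have := hq.two_le
    have : 3 ≤ q := by omega
    exact_mod_cast this
  have hp3 : 3 ≤ p := by
    have := hp.two_le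
    omega
  rcases Nat.lt_or_gt_of_ne hpq with hlt | hlt
  · by_contra hle
    obtain ⟨b, hb⟩ := exists_add_one hp hp2 hq hq2 hpq hx hy h
    set Q : ℤ := (q : ℤ) ^ (p - 1) with hQ
    have hQ9 : 9 ≤ Q := by
      calc (9 : ℤ) = 3 ^ 2 := by norm_num
        _ ≤ 3 ^ (p - 1) := pow_le_pow_right₀ (by norm_num) (by omega)
        _ ≤ Q := pow_le_pow_left₀ (by norm_num) hq3 _
    have hb0 : b ≠ 0 := by
      rintro rfl
      rw [zero_pow hp.ne_zero, mul_zero] at hb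
      have : y = -1 := by linarith
      rw [this, (hq.odd_of_ne_two hq2).neg_one_pow] at h
      have h1 : x ^ p = 0 := by linarith
      exact hx (pow_eq_zero_iff hp.ne_zero |>.1 h1)
    have hbp : 1 ≤ |b ^ p| := Int.one_le_abs (pow_ne_zero _ hb0)
    have hyQ : Q - 1 ≤ |y| := by
      have h1 : Q ≤ |y + 1| := by
        rw [hb, abs_mul, abs_of_nonneg (by linarith : (0 : ℤ) ≤ Q)]
        nlinarith
      have h2 := abs_add_le y 1
      rw [abs_one] at h2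
      linarith
    have hxQ : |x| ≤ Q - 1 := by
      have := not_le.1 hle
      omega
    have h1 : |x| ^ p ≤ (Q - 1) ^ p := pow_le_pow_left₀ (abs_nonneg _) hxQ p
    have h2 : (Q - 1) ^ q ≤ |y| ^ q := pow_le_pow_left₀ (by linarith) hyQ q
    have h3 : |y| ^ q ≤ |x| ^ p + 1 := by
      rw [← abs_pow, ← abs_pow]
      have h4 : y ^ q = x ^ p + -1 := by linarith
      rw [h4]
      have := abs_add_le (x ^ p) (-1)
      rwa [abs_neg, abs_one] at this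
    have h5 : (Q - 1) ^ p * (Q - 1) ≤ (Q - 1) ^ q := by
      rw [← pow_succ]
      exact pow_le_pow_right₀ (by linarith) hlt
    have h6 : (1 : ℤ) ≤ (Q - 1) ^ p := one_le_pow₀ (by linarith)
    nlinarith
  · have := le_abs hp hp2 hq hq2 hx h hlt (cassels hp hp2 hq hq2 hpq hx hy h).1
    linarith

end Fermat.Agent.Cor.Cat
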