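import Mathlib

/-!
# A relation between the conjugates of a prime ideal of `ℚ(ζ_p)`

There is one half system `T` of the Galois group of `ℚ(ζ_p) / ℚ` such that for every prime ideal
`P` of degree one, not dividing `p`, the product of the `σ P`, `σ ∈ T`, is principal: it is
generated by a Jacobi sum.
-/

set_option autoImplicit false

noncomputable section

namespace Fermat.Agent.Cor.Cat

open NumberField Finset

section FF

variable {F : Type*} [Field F] [Fintype F]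

theorem sum_mul_pow_eq_zero {m : ℕ} (hm : 2 * m < Fintype.card F - 1) :
    ∑ x : F, x ^ m * (1 - x) ^ m = 0 := by
  have h : ∀ x : F, x ^ m * (1 - x) ^ m =
      ∑ i ∈ range (m + 1), ((-1) ^ i * (m.choose i : F)) * x ^ (m + i) := by
    intro x
    rw [show (1 - x) = (-x) + 1 by ring, add_pow, mul_sum]
    refine sum_congr rfl fun i _ => ?_
    rw [one_pow, mul_one, neg_pow, pow_add]
    ring
  simp_rw [h]
  rw [sum_comm]
  refine sum_eq_zero fun i hi => ?_
  rw [mem_range] at hi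
  rw [← mul_sum, FiniteField.sum_pow_lt_card_sub_one _ _ (by omega), mul_zero]

variable {O : Type*} [CommRing O]

theorem apply_jacobiSum_eq_zero {r : O →+* F} {ψ : MulChar F O} {m a m' : ℕ}
    (hψ : ∀ x, r (ψ x) = x ^ m) {s : O →+* O} (hs : ∀ x, s (ψ x) = ψ x ^ a)
    (hm' : ∀ x : F, x ^ (m * a) = x ^ m') (hlt : 2 * m' < Fintype.card F - 1) :
    r (s (jacobiSum ψ ψ)) = 0 := by
  rw [jacobiSum, map_sum, map_sum, ← sum_mul_pow_eq_zero hlt]
  refine sum_congr rfl fun x _ => ?_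
  rw [map_mul, map_mul, hs, hs, map_pow, map_pow, hψ, hψ, ← pow_mul, ← pow_mul, hm', hm']

theorem exists_mulChar {p k : ℕ} (hk : 0 < k) (hcard : Fintype.card F - 1 = p * k) (hp : 0 < p)
    {z : O} (hz : z ^ p = 1) {r : O →+* F} (hr : IsPrimitiveRoot (r z) p) :
    ∃ χ : MulChar F O, (∀ x, x ≠ 0 → ∃ j : ℕ, χ x = z ^ j) ∧ ∀ x : F, r (χ x) = x ^ k := by
  classical
  obtain ⟨g, hg⟩ := IsCyclic.exists_generator (α := Fˣ)
  have hgk : ((g : F) ^ k) ^ p = 1 := by
    rw [← pow_mul, mul_comm, ← hcard, FiniteField.pow_card_sub_one_eq_one _ g.ne_zero]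
  have : NeZero p := ⟨hp.ne'⟩
  obtain ⟨j, -, hj⟩ := hr.eq_pow_of_pow_eq_one hgk
  have hu : IsUnit z := IsUnit.of_pow_eq_one hz hp.ne'
  obtain ⟨u, rfl⟩ := hu
  have hmem : u ^ j ∈ rootsOfUnity (Fintype.card Fˣ) O := by
    rw [mem_rootsOfUnity, Fintype.card_units, hcard, ← pow_mul, mul_comm j, mul_assoc, pow_mul]
    have : u ^ p = 1 := Units.ext (by push_cast; exact hz)
    rw [this, one_pow]
  have hspec : (MulChar.ofRootOfUnity hmem hg) (g : F) = ((u ^ j : Oˣ) : O) :=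
    MulChar.ofRootOfUnity_spec hmem hg
  have hall : ∀ x : F, x ≠ 0 → ∃ i : ℕ, x = (g : F) ^ i := by
    intro x hx
    obtain ⟨i, hi⟩ := (mem_powers_iff_mem_zpowers (x := g)).mpr (hg (Units.mk0 x hx))
    refine ⟨i, ?_⟩
    have := congrArg (fun u : Fˣ => (u : F)) hi
    simpa using this.symm
  refine ⟨MulChar.ofRootOfUnity hmem hg, ?_, ?_⟩
  · intro x hx
    obtain ⟨i, rfl⟩ := hall x hx
    refine ⟨j * i, ?_⟩
    rw [map_pow, hspec]
    push_cast
    rw [pow_mul]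
  · intro x
    rcases eq_or_ne x 0 with rfl | hx
    · rw [MulChar.map_zero, map_zero, zero_pow hk.ne']
    · obtain ⟨i, rfl⟩ := hall x hx
      rw [map_pow, map_pow, hspec, Units.val_pow_eq_pow_val, map_pow, hj, ← pow_mul, ← pow_mul,
        mul_comm]

end FF

section NF

variable {K : Type*} [Field K] [NumberField K]

/-- The endomorphism of the ring of integers given by an automorphism. -/
abbrev act (σ : K ≃ₐ[ℚ] K) : 𝓞 K →+* 𝓞 K :=
  (RingOfIntegers.mapRingEquiv σ.toRingEquiv : 𝓞 K →+* 𝓞 K)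

theorem coe_act (σ : K ≃ₐ[ℚ] K) (x : 𝓞 K) : ((act σ x : 𝓞 K) : K) = σ (x : K) := rfl

theorem act_act (σ τ : K ≃ₐ[ℚ] K) (x : 𝓞 K) : act σ (act τ x) = act (σ * τ) x := rfl

theorem act_one (x : 𝓞 K) : act (1 : K ≃ₐ[ℚ] K) x = x := rfl

theorem isPrime_map_act (σ : K ≃ₐ[ℚ] K) {P : Ideal (𝓞 K)} (hP : P.IsPrime) :
    (P.map (act σ)).IsPrime :=
  Ideal.map_isPrime_of_equiv (RingOfIntegers.mapRingEquiv σ.toRingEquiv)

theorem absNorm_map_act (σ : K ≃ₐ[ℚ] K) (I : Ideal (𝓞 K)) :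
    Ideal.absNorm (I.map (act σ)) = Ideal.absNorm I := by
  rw [Ideal.absNorm_apply, Ideal.absNorm_apply, Submodule.cardQuot_apply, Submodule.cardQuot_apply]
  exact Nat.card_congr (Ideal.quotientEquiv I (I.map (act σ))
    (RingOfIntegers.mapRingEquiv σ.toRingEquiv) rfl).toEquiv.symm

theorem mem_map_act {σ : K ≃ₐ[ℚ] K} {P : Ideal (𝓞 K)} {x : 𝓞 K} (h : act σ⁻¹ x ∈ P) :
    x ∈ P.map (act σ) := by
  have := Ideal.mem_map_of_mem (act σ) h
  rwa [act_act, mul_inv_cancel, act_one] at this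

theorem act_mem_of_map_eq {σ τ : K ≃ₐ[ℚ] K} {P : Ideal (𝓞 K)}
    (h : P.map (act σ) = P.map (act τ)) {x : 𝓞 K} (hx : x ∈ P) : act (τ⁻¹ * σ) x ∈ P := by
  have h1 : act σ x ∈ P.map (act τ) := h ▸ Ideal.mem_map_of_mem (act σ) hx
  obtain ⟨y, hy, hyx⟩ := (Ideal.mem_map_of_equiv
    (RingOfIntegers.mapRingEquiv τ.toRingEquiv) (I := P) (act σ x)).mp h1
  have h2 : act τ y = act σ x := hyx
  rw [← act_act, ← h2, act_act, inv_mul_cancel, act_one]
  exact hy

/-- In a quotient with a prime number of elements every element is a natural number. -/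
theorem exists_nat_sub_mem {P : Ideal (𝓞 K)} (hP : (Ideal.absNorm P).Prime) (y : 𝓞 K) :
    ∃ n : ℕ, y - n ∈ P := by
  have hcard : Nat.card (𝓞 K ⧸ P) = Ideal.absNorm P := by
    rw [Ideal.absNorm_apply, Submodule.cardQuot_apply]
  have : Finite (𝓞 K ⧸ P) := Nat.finite_of_card_ne_zero (hcard ▸ hP.ne_zero)
  let _ : Fintype (𝓞 K ⧸ P) := Fintype.ofFinite _
  have e := ZMod.ringEquivOfPrime (𝓞 K ⧸ P) hP (by rw [← hcard, Nat.card_eq_fintype_card])
  refine ⟨(e.symm (Ideal.Quotient.mk P y)).val, ?_⟩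
  rw [← Ideal.Quotient.mk_eq_mk_iff_sub_mem]
  have : NeZero (Ideal.absNorm P) := ⟨hP.ne_zero⟩
  have h1 := congrArg e (ZMod.natCast_zmod_val (e.symm (Ideal.Quotient.mk P y)))
  rw [map_natCast, e.apply_symm_apply] at h1
  rw [map_natCast, h1]

end NF

section Cyclo

variable {p : ℕ} [hp : Fact p.Prime] {K : Type*} [Field K] [NumberField K]
  [IsCyclotomicExtension {p} ℚ K] {ζ : K}

/-- The exponent of an automorphism: `σ ζ = ζ ^ expo σ`, `0 < expo σ < p`. -/
def expo (hζ : IsPrimitiveRoot ζ p) (σ : K ≃ₐ[ℚ] K) : ℕ := (hζ.autToPow ℚ σ : ZMod p).val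

omit [IsCyclotomicExtension {p} ℚ K] in
theorem pow_expo (hζ : IsPrimitiveRoot ζ p) (σ : K ≃ₐ[ℚ] K) : ζ ^ expo hζ σ = σ ζ :=
  hζ.autToPow_spec ℚ σ

omit [IsCyclotomicExtension {p} ℚ K] in
theorem expo_lt (hζ : IsPrimitiveRoot ζ p) (σ : K ≃ₐ[ℚ] K) : expo hζ σ < p := ZMod.val_lt _

omit [IsCyclotomicExtension {p} ℚ K] in
theorem expo_pos (hζ : IsPrimitiveRoot ζ p) (σ : K ≃ₐ[ℚ] K) : 0 < expo hζ σ := by
  rw [expo, Nat.pos_iff_ne_zero, ne_eq, ZMod.val_eq_zero]
  exact (hζ.autToPow ℚ σ).ne_zero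

/-- One half of the Galois group. -/
def half (hζ : IsPrimitiveRoot ζ p) : Finset (K ≃ₐ[ℚ] K) :=
  univ.filter fun σ => p < 2 * expo hζ σ⁻¹

omit [IsCyclotomicExtension {p} ℚ K] in
theorem mem_half {hζ : IsPrimitiveRoot ζ p} {σ : K ≃ₐ[ℚ] K} :
    σ ∈ half hζ ↔ p < 2 * expo hζ σ⁻¹ := by simp [half]

omit [IsCyclotomicExtension {p} ℚ K] in
theorem mem_half_iff (hp2 : p ≠ 2) (hζ : IsPrimitiveRoot ζ p) {σ τ : K ≃ₐ[ℚ] K}
    (h : τ ζ = (σ ζ)⁻¹) : σ ∈ half hζ ↔ τ ∉ half hζ := by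
  rw [mem_half, mem_half]
  have hneg : (hζ.autToPow ℚ τ : ZMod p) = -(hζ.autToPow ℚ σ : ZMod p) := by
    rw [eq_neg_iff_add_eq_zero]
    have h1 : ζ ^ (expo hζ τ + expo hζ σ) = 1 := by
      rw [pow_add, pow_expo, pow_expo, h, inv_mul_cancel₀]
      exact (map_ne_zero σ).mpr (hζ.ne_zero hp.out.ne_zero)
    have h2 := (ZMod.natCast_eq_zero_iff _ _).mpr (hζ.dvd_of_pow_eq_one _ h1)
    rwa [Nat.cast_add, expo, expo, ZMod.natCast_zmod_val, ZMod.natCast_zmod_val] at h2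
  have hneg' : (hζ.autToPow ℚ τ⁻¹ : ZMod p) = -(hζ.autToPow ℚ σ⁻¹ : ZMod p) := by
    have h1 : hζ.autToPow ℚ τ = -hζ.autToPow ℚ σ := Units.ext (by rw [hneg, Units.val_neg])
    rw [map_inv, map_inv, h1, inv_neg, Units.val_neg]
  have hval : expo hζ τ⁻¹ = p - expo hζ σ⁻¹ := by
    rw [expo, expo, hneg', ZMod.neg_val, if_neg (hζ.autToPow ℚ σ⁻¹).ne_zero]
  have h1 := expo_lt hζ σ⁻¹
  have h2 := expo_pos hζ σ⁻¹
  have h3 : p % 2 = 1 := (hp.out.eq_two_or_odd).resolve_left hp2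
  omega

omit [IsCyclotomicExtension {p} ℚ K] in
theorem act_toInteger (hζ : IsPrimitiveRoot ζ p) (σ : K ≃ₐ[ℚ] K) :
    act σ hζ.toInteger = hζ.toInteger ^ expo hζ σ := by
  apply RingOfIntegers.ext
  change σ ζ = algebraMap (𝓞 K) K (hζ.toInteger ^ expo hζ σ)
  rw [map_pow]
  exact (pow_expo hζ σ).symm

section Prime

variable {P : Ideal (𝓞 K)} {F : Type*} [Field F] [Fintype F] {r : 𝓞 K →+* F}

omit [NumberField K] [IsCyclotomicExtension {p} ℚ K] in
theorem isPrimitiveRoot_apply (hζ : IsPrimitiveRoot ζ p) (hN : (Fintype.card F).Prime)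
    (hNp : Fintype.card F ≠ p) : IsPrimitiveRoot (r hζ.toInteger) p := by
  have hz := hζ.toInteger_isPrimitiveRoot
  have h1 : r hζ.toInteger ^ p = 1 := by rw [← map_pow, hz.pow_eq_one, map_one]
  have h2 : r hζ.toInteger ≠ 1 := by
    intro h
    have h3 := congrArg r (hz.geom_sum_eq_zero hp.out.one_lt)
    rw [map_sum, map_zero] at h3
    simp only [map_pow, h, one_pow, sum_const, card_range, nsmul_eq_mul, mul_one] at h3
    have h4 : ((Fintype.card F : ℕ) : F) = 0 := Nat.cast_card_eq_zero F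
    obtain ⟨u, v, huv⟩ := Nat.isCoprime_iff_coprime.mpr
      ((Nat.coprime_primes hN hp.out).mpr hNp)
    have h5 := congrArg (Int.cast : ℤ → F) huv
    push_cast at h5
    rw [h3, h4] at h5
    simp at h5
  have h := IsPrimitiveRoot.orderOf (r hζ.toInteger)
  rwa [orderOf_eq_prime h1 h2] at h

omit [Fintype F] in
theorem map_act_injective (hζ : IsPrimitiveRoot ζ p) (hN : (Ideal.absNorm P).Prime)
    (hr : IsPrimitiveRoot (r hζ.toInteger) p) (hker : ∀ x, r x = 0 ↔ x ∈ P)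
    {σ τ : K ≃ₐ[ℚ] K} (h : P.map (act σ) = P.map (act τ)) : σ = τ := by
  obtain ⟨n, hn⟩ := exists_nat_sub_mem hN hζ.toInteger
  have h1 := act_mem_of_map_eq h hn
  rw [map_sub, map_natCast, act_toInteger] at h1
  have h2 := (hker _).mpr (P.sub_mem h1 hn)
  rw [sub_sub_sub_cancel_right, map_sub, sub_eq_zero, map_pow] at h2
  have h3 : expo hζ (τ⁻¹ * σ) = 1 :=
    hr.pow_inj (expo_lt hζ _) hp.out.one_lt (by rw [h2, pow_one])
  have h4 : hζ.autToPow ℚ (τ⁻¹ * σ) = hζ.autToPow ℚ 1 := by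
    rw [map_one]
    apply Units.ext
    have := congrArg (Nat.cast : ℕ → ZMod p) h3
    rwa [expo, ZMod.natCast_zmod_val, Nat.cast_one] at this
  have h5 := IsPrimitiveRoot.autToPow_injective ℚ hζ h4
  rw [inv_mul_eq_one] at h5
  exact h5.symm

theorem exists_span (hp2 : p ≠ 2) (hζ : IsPrimitiveRoot ζ p) (hP : P.IsPrime)
    (hN : (Ideal.absNorm P).Prime) (hNp : Ideal.absNorm P ≠ p)
    (hker : ∀ x, r x = 0 ↔ x ∈ P) (hcard : Fintype.card F = Ideal.absNorm P) :
    ∃ α : 𝓞 K, ∏ σ ∈ half hζ, P.map (act σ) = Ideal.span {α} := by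
  classical
  have hr : IsPrimitiveRoot (r hζ.toInteger) p :=
    isPrimitiveRoot_apply hζ (hcard ▸ hN) (hcard ▸ hNp)
  have hz := hζ.toInteger_isPrimitiveRoot
  have hq : 1 < Fintype.card F := Fintype.one_lt_card
  obtain ⟨k, hk⟩ : p ∣ Fintype.card F - 1 := by
    refine hr.dvd_of_pow_eq_one _ (FiniteField.pow_card_sub_one_eq_one _ ?_)
    exact hr.ne_zero hp.out.ne_zero
  have hk0 : 0 < k := by
    rcases Nat.eq_zero_or_pos k with h | h
    · rw [h, mul_zero] at hk; omega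
    · exact h
  obtain ⟨χ, hχ, hrχ⟩ := exists_mulChar hk0 hk hp.out.pos hz.pow_eq_one hr
  have hp1 : 1 < p := hp.out.one_lt
  have hp3 : p % 2 = 1 := (hp.out.eq_two_or_odd).resolve_left hp2
  -- the values under the automorphisms
  have hactχ : ∀ (σ : K ≃ₐ[ℚ] K) (x : F), act σ (χ x) = χ x ^ expo hζ σ := by
    intro σ x
    rcases eq_or_ne x 0 with rfl | hx
    · rw [MulChar.map_zero, map_zero, zero_pow (expo_pos hζ σ).ne']
    · obtain ⟨j, hj⟩ := hχ x hx
      rw [hj, map_pow, act_toInteger, ← pow_mul, ← pow_mul, mul_comm]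
  have hactψ : ∀ (σ : K ≃ₐ[ℚ] K) (x : F), act σ (χ⁻¹ x) = χ⁻¹ x ^ expo hζ σ := by
    intro σ x
    rw [MulChar.inv_apply', hactχ]
  have hfer : ∀ x : F, x ≠ 0 → x ^ (k * p) = 1 := fun x hx => by
    rw [mul_comm, ← hk, FiniteField.pow_card_sub_one_eq_one _ hx]
  have hrψ : ∀ x : F, r (χ⁻¹ x) = x ^ (k * (p - 1)) := by
    intro x
    rw [MulChar.inv_apply', hrχ]
    rcases eq_or_ne x 0 with rfl | hx
    · rw [inv_zero, zero_pow hk0.ne', zero_pow]
      exact (Nat.mul_pos hk0 (by omega)).ne'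
    · rw [inv_pow, inv_eq_iff_eq_inv, eq_comm, inv_eq_iff_eq_inv, eq_comm]
      apply inv_eq_of_mul_eq_one_left
      rw [← pow_add, show k * (p - 1) + k = k * p by
        obtain ⟨p', rfl⟩ : ∃ p', p = p' + 1 := ⟨p - 1, by omega⟩
        rw [Nat.add_sub_cancel]; ring]
      exact hfer x hx
  -- the product of the two Jacobi sums
  set α : 𝓞 K := jacobiSum χ⁻¹ χ⁻¹ with hα
  set β : 𝓞 K := jacobiSum χ χ with hβ
  have hone : ∀ m : ℕ, (∀ x : F, x ≠ 0 → χ x ^ m = 1) → p ∣ m := by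
    intro m hm
    have h1 : ∀ x : Fˣ, x ^ (k * m) = 1 := by
      intro x
      have := congrArg r (hm x x.ne_zero)
      rw [map_pow, hrχ, map_one, ← pow_mul] at this
      exact Units.ext (by push_cast; exact this)
    have h2 := (FiniteField.forall_pow_eq_one_iff F (k * m)).mp h1
    rw [hk, mul_comm] at h2
    exact Nat.dvd_of_mul_dvd_mul_left hk0 h2
  have hprod : α * β = (Ideal.absNorm P : ℕ) := by
    apply FaithfulSMul.algebraMap_injective (𝓞 K) K
    have hinj := FaithfulSMul.algebraMap_injective (𝓞 K) K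
    rw [map_mul, hα, hβ, ← jacobiSum_ringHomComp, ← jacobiSum_ringHomComp,
      ← MulChar.ringHomComp_inv, mul_comm, map_natCast, ← hcard]
    refine jacobiSum_mul_jacobiSum_inv ?_ ?_ ?_ ?_
    · rw [ringChar.eq_zero]
      exact (CharP.ringChar_ne_zero_of_finite F).symm
    · intro h
      have h1 := hone 1 fun x hx => by
        have := DFunLike.congr_fun h x
        rw [MulChar.ringHomComp_apply, MulChar.one_apply (isUnit_iff_ne_zero.mpr hx)] at this
        rw [pow_one]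
        exact hinj (by rw [this, map_one])
      exact hp.out.one_lt.ne' (Nat.dvd_one.mp h1)
    · intro h
      have h1 := hone 1 fun x hx => by
        have := DFunLike.congr_fun h x
        rw [MulChar.ringHomComp_apply, MulChar.one_apply (isUnit_iff_ne_zero.mpr hx)] at this
        rw [pow_one]
        exact hinj (by rw [this, map_one])
      exact hp.out.one_lt.ne' (Nat.dvd_one.mp h1)
    · intro h
      have h1 := hone 2 fun x hx => by
        have := DFunLike.congr_fun h x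
        rw [MulChar.mul_apply, MulChar.ringHomComp_apply,
          MulChar.one_apply (isUnit_iff_ne_zero.mpr hx), ← map_mul, ← pow_two] at this
        exact hinj (by rw [this, map_one])
      exact hp2 ((Nat.prime_dvd_prime_iff_eq hp.out Nat.prime_two).mp h1)
  -- the conjugates lie in `P`
  have hmemα : ∀ σ ∈ half hζ, act σ⁻¹ α ∈ P := by
    intro σ hσ
    rw [mem_half] at hσ
    have hlt := expo_lt hζ σ⁻¹
    have hpos := expo_pos hζ σ⁻¹
    have hact := hactψ σ⁻¹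
    generalize expo hζ σ⁻¹ = a at hσ hlt hpos hact
    rw [← hker]
    refine apply_jacobiSum_eq_zero hrψ hact (m' := k * (p - a)) (fun x => ?_) ?_
    · rcases eq_or_ne x 0 with rfl | hx
      · rw [zero_pow, zero_pow]
        · exact (Nat.mul_pos hk0 (by omega)).ne'
        · exact (Nat.mul_pos (Nat.mul_pos hk0 (by omega)) hpos).ne'
      · have h1 : k * (p - 1) * a = k * (p - a) + k * p * (a - 1) := by
          obtain ⟨a', rfl⟩ : ∃ a', a = a' + 1 := ⟨a - 1, by omega⟩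
          obtain ⟨b, rfl⟩ : ∃ b, p = a' + 1 + b := ⟨p - (a' + 1), by omega⟩
          rw [show a' + 1 + b - 1 = a' + b by omega, Nat.add_sub_cancel_left, Nat.add_sub_cancel]
          ring
        rw [h1, pow_add, pow_mul x (k * p), hfer x hx, one_pow, mul_one]
    · rw [hk]
      calc 2 * (k * (p - a)) = k * (2 * (p - a)) := by ring
        _ < k * p := Nat.mul_lt_mul_of_pos_left (by omega) hk0
        _ = p * k := mul_comm _ _
  have hmemβ : ∀ σ ∉ half hζ, act σ⁻¹ β ∈ P := by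
    intro σ hσ
    rw [mem_half] at hσ
    have hlt := expo_lt hζ σ⁻¹
    have hact := hactχ σ⁻¹
    generalize expo hζ σ⁻¹ = a at hσ hlt hact
    rw [← hker]
    refine apply_jacobiSum_eq_zero hrχ hact (m' := k * a) (fun x => rfl) ?_
    rw [hk]
    calc 2 * (k * a) = k * (2 * a) := by ring
      _ < k * p := Nat.mul_lt_mul_of_pos_left (by omega) hk0
      _ = p * k := mul_comm _ _
  -- divisibility
  have hne : P ≠ ⊥ := by
    rintro rfl
    rw [Ideal.absNorm_bot] at hN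
    exact Nat.not_prime_zero hN
  have hcop : ∀ σ τ : K ≃ₐ[ℚ] K, σ ≠ τ → IsCoprime (P.map (act σ)) (P.map (act τ)) := by
    intro σ τ hστ
    have hmax : ∀ σ : K ≃ₐ[ℚ] K, (P.map (act σ)).IsMaximal := fun σ => by
      refine (isPrime_map_act σ hP).isMaximal fun h => hN.ne_zero ?_
      rw [← absNorm_map_act σ P, h, Ideal.absNorm_bot]
    have := hmax σ
    have := hmax τ
    exact Ideal.isCoprime_of_isMaximal fun h => hστ (map_act_injective hζ hN hr hker h)
  have hA : ∏ σ ∈ half hζ, P.map (act σ) ∣ Ideal.span {α} := by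
    refine Finset.prod_dvd_of_coprime (fun σ _ τ _ h => hcop σ τ h) fun σ hσ => ?_
    rw [Ideal.dvd_span_singleton]
    exact mem_map_act (hmemα σ hσ)
  have hB : ∏ σ ∈ univ.filter (fun σ => σ ∉ half hζ), P.map (act σ) ∣ Ideal.span {β} := by
    refine Finset.prod_dvd_of_coprime (fun σ _ τ _ h => hcop σ τ h) fun σ hσ => ?_
    rw [Ideal.dvd_span_singleton]
    exact mem_map_act (hmemβ σ (by simpa using hσ))
  obtain ⟨I, hI⟩ := hA
  obtain ⟨J, hJ⟩ := hB
  have hnorm : Ideal.absNorm (∏ σ ∈ half hζ, P.map (act σ)) *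
      Ideal.absNorm (∏ σ ∈ univ.filter (fun σ => σ ∉ half hζ), P.map (act σ)) =
      Ideal.absNorm P ^ Module.finrank ℚ K := by
    have : IsGalois ℚ K := IsCyclotomicExtension.isGalois {p} ℚ K
    rw [map_prod, map_prod]
    simp only [absNorm_map_act, prod_const]
    rw [← pow_add, ← IsGalois.card_aut_eq_finrank, Nat.card_eq_fintype_card]
    congr 1
    rw [← Finset.card_univ, ← Finset.card_filter_add_card_filter_not (s := univ)
      (fun σ => σ ∈ half hζ)]
    congr 2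
    ext σ
    simp
  have hnorm2 : Ideal.absNorm (Ideal.span {α}) * Ideal.absNorm (Ideal.span {β}) =
      Ideal.absNorm P ^ Module.finrank ℚ K := by
    rw [← map_mul, Ideal.span_singleton_mul_span_singleton, hprod, Ideal.absNorm_span_natCast,
      RingOfIntegers.rank]
  rw [hI, hJ, map_mul, map_mul, mul_mul_mul_comm, hnorm] at hnorm2
  have h1 : Ideal.absNorm I * Ideal.absNorm J = 1 :=
    Nat.eq_of_mul_eq_mul_left (pow_pos hN.pos _) (by rw [hnorm2, mul_one])
  have h2 : I = ⊤ := Ideal.absNorm_eq_one_iff.mp (Nat.eq_one_of_mul_eq_one_right h1)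
  exact ⟨α, by rw [hI, h2, Ideal.mul_top]⟩

end Prime

theorem exists_half (hp2 : p ≠ 2) (hζ : IsPrimitiveRoot ζ p) :
    ∃ T : Finset (K ≃ₐ[ℚ] K),
      (∀ σ τ : K ≃ₐ[ℚ] K, τ ζ = (σ ζ)⁻¹ → (σ ∈ T ↔ τ ∉ T)) ∧
      ∀ P : Ideal (𝓞 K), P.IsPrime → (Ideal.absNorm P).Prime → Ideal.absNorm P ≠ p →
        ∃ α : 𝓞 K, ∏ σ ∈ T,
          P.map (NumberField.RingOfIntegers.mapRingEquiv σ.toRingEquiv : 𝓞 K →+* 𝓞 K) =
            Ideal.span {α} := by
  refine ⟨half hζ, fun σ τ h => mem_half_iff hp2 hζ h, fun P hP hN hNp => ?_⟩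
  have hcard : Nat.card (𝓞 K ⧸ P) = Ideal.absNorm P := by
    rw [Ideal.absNorm_apply, Submodule.cardQuot_apply]
  have : Finite (𝓞 K ⧸ P) := Nat.finite_of_card_ne_zero (hcard ▸ hN.ne_zero)
  have hmax : P.IsMaximal := hP.isMaximal fun h => hN.ne_zero (by rw [h, Ideal.absNorm_bot])
  let _ : Fintype (𝓞 K ⧸ P) := Fintype.ofFinite _
  let _ : Field (𝓞 K ⧸ P) := Ideal.Quotient.field P
  exact exists_span (r := Ideal.Quotient.mk P) hp2 hζ hP hN hNp
    (fun x => Ideal.Quotient.eq_zero_iff_mem) (by rw [← hcard, Nat.card_eq_fintype_card])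

end Cyclo

end Fermat.Agent.Cor.Cat
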