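import Mathlib.NumberTheory.Zsqrtd.GaussianInt
import Mathlib.RingTheory.Int.Basic
import Mathlib.RingTheory.PrincipalIdealDomain
import Mathlib.Tactic

/-!
# Lebesgue's theorem (1850): `x ^ 2 + 1 = y ^ n` with `2 ≤ n` has only the solutions with `x = 0`

Proof in the Gaussian integers: `x + i = (a + b i) ^ n` with `n` odd, so `b = 1` or `b = -1`,
`a` is even, and `(1 - i a b) ^ n = ε (1 - i x)`, `ε` a sign.  But the real part of
`(1 - 2 i d) ^ n` is `1 + 2 ^ (j + 2) d ^ 2 w` with `w` odd, `2 ^ (j + 1)` the power of `2` in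
`n - 1`.
-/

namespace Fermat.Agent.Cor.Cat

/-- powers of `2` -/
theorem two_pow_pow (d : ℤ) (j : ℕ) : ∃ w u : ℤ, Odd w ∧ Odd u ∧
    (⟨1, -2 * d⟩ : GaussianInt) ^ (2 ^ (j + 1)) =
      ⟨1 + 2 ^ (j + 2) * d ^ 2 * w, 2 ^ (j + 2) * d * u⟩ := by
  induction j with
  | zero =>
    refine ⟨-1, -1, by decide, by decide, ?_⟩
    rw [Zsqrtd.ext_iff]
    constructor <;> simp [pow_two] <;> ring
  | succ j ih =>
    obtain ⟨w, u, hw, hu, h⟩ := ih
    refine ⟨w + 2 ^ (j + 1) * d ^ 2 * w ^ 2 - 2 ^ (j + 1) * u ^ 2,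
      u * (1 + 2 ^ (j + 2) * d ^ 2 * w), ?_, ?_, ?_⟩
    · have h2 : w + 2 ^ (j + 1) * d ^ 2 * w ^ 2 - 2 ^ (j + 1) * u ^ 2
          = w + 2 * (2 ^ j * (d ^ 2 * w ^ 2 - u ^ 2)) := by ring
      rw [h2]
      exact hw.add_even (even_two_mul _)
    · refine hu.mul ?_
      have h2 : (1 : ℤ) + 2 ^ (j + 2) * d ^ 2 * w = 1 + 2 * (2 ^ (j + 1) * d ^ 2 * w) := by ring
      rw [h2]
      exact odd_one.add_even (even_two_mul _)
    · rw [pow_succ 2 (j + 1), pow_mul, h, Zsqrtd.ext_iff]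
      constructor <;> simp [pow_two] <;> ring

/-- powers -/
theorem pow_form {d w u : ℤ} {j : ℕ} (A : GaussianInt)
    (hA : A = ⟨1 + 2 ^ (j + 2) * d ^ 2 * w, 2 ^ (j + 2) * d * u⟩) (hw : Odd w) (hu : Odd u)
    (t : ℕ) : ∃ w' u' : ℤ, Even (w' - t) ∧ Even (u' - t) ∧
    A ^ t = ⟨1 + 2 ^ (j + 2) * d ^ 2 * w', 2 ^ (j + 2) * d * u'⟩ := by
  induction t with
  | zero =>
    refine ⟨0, 0, by simp, by simp, ?_⟩
    rw [pow_zero, Zsqrtd.ext_iff]
    simp
  | succ t ih =>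
    obtain ⟨w', u', hw', hu', h⟩ := ih
    refine ⟨w + w' + 2 ^ (j + 2) * d ^ 2 * w * w' - 2 ^ (j + 2) * u * u',
      u + u' + 2 ^ (j + 2) * d ^ 2 * (w * u' + w' * u), ?_, ?_, ?_⟩
    · obtain ⟨k, hk⟩ := hw'
      obtain ⟨l, hl⟩ := hw
      refine ⟨l + k + 2 ^ (j + 1) * (d ^ 2 * w * w' - u * u'), ?_⟩
      have e : w' = k + k + t := by linarith
      push_cast
      rw [show w + w' + 2 ^ (j + 2) * d ^ 2 * w * w' - 2 ^ (j + 2) * u * u' - (t + 1 : ℤ)
        = (w - 1) + (w' - t) + 2 * (2 ^ (j + 1) * (d ^ 2 * w * w' - u * u')) by ring, hk]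
      have e2 : w - 1 = 2 * l := by linarith
      rw [e2]; ring
    · obtain ⟨k, hk⟩ := hu'
      obtain ⟨l, hl⟩ := hu
      refine ⟨l + k + 2 ^ (j + 1) * (d ^ 2 * (w * u' + w' * u)), ?_⟩
      push_cast
      rw [show u + u' + 2 ^ (j + 2) * d ^ 2 * (w * u' + w' * u) - (t + 1 : ℤ)
        = (u - 1) + (u' - t) + 2 * (2 ^ (j + 1) * (d ^ 2 * (w * u' + w' * u))) by ring, hk]
      have e2 : u - 1 = 2 * l := by linarith
      rw [e2]; ring
    · rw [pow_succ, h, hA, Zsqrtd.ext_iff]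
      constructor <;> simp <;> ring

/-- the real part of `(1 - 2 i d) ^ n`, `n` odd -/
theorem re_pow {d : ℤ} {n : ℕ} (hn : Odd n) (h1 : n ≠ 1) : ∃ (j : ℕ) (w : ℤ), Odd w ∧
    ((⟨1, -2 * d⟩ : GaussianInt) ^ n).re = 1 + 2 ^ (j + 2) * d ^ 2 * w := by
  obtain ⟨m, hm⟩ : ∃ m, n = m + 1 := ⟨n - 1, by have := hn.pos; omega⟩
  have hm0 : m ≠ 0 := by omega
  obtain ⟨k, t, ht, hkt⟩ := Nat.exists_eq_two_pow_mul_odd hm0
  have hk : k ≠ 0 := by
    rintro rfl
    rw [pow_zero, one_mul] at hkt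
    rw [hm, hkt] at hn
    exact (Nat.not_odd_iff_even.2 (ht.add_odd odd_one)) hn
  obtain ⟨j, rfl⟩ := Nat.exists_eq_succ_of_ne_zero hk
  obtain ⟨w, u, hw, hu, h⟩ := two_pow_pow d j
  obtain ⟨w', u', hw', hu', h'⟩ := pow_form _ h hw hu t
  refine ⟨j, w' + 2 * u', ?_, ?_⟩
  · have : Odd (t : ℤ) := by exact_mod_cast ht
    have h3 : Odd w' := by
      have := hw'.add_odd this
      simpa using this
    exact h3.add_even (even_two_mul _)
  · rw [hm, hkt, pow_succ, pow_mul, h']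
    simp
    ring

/-- units of `ℤ[i]` are `n`-th powers for `n` odd -/
theorem unit_eq_pow {n : ℕ} (hn : Odd n) (u : GaussianIntˣ) : ∃ v : GaussianIntˣ, u = v ^ n := by
  have h4 : u ^ 4 = 1 := by
    have h := Zsqrtd.norm_eq_one_iff.2 u.isUnit
    rw [Int.natAbs_eq_iff] at h
    have h5 : (u : GaussianInt).re * (u : GaussianInt).re
        + (u : GaussianInt).im * (u : GaussianInt).im = 1 := by
      have h6 := GaussianInt.norm_nonneg (u : GaussianInt)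
      have h7 : Zsqrtd.norm (u : GaussianInt) = (u : GaussianInt).re * (u : GaussianInt).re
        + (u : GaussianInt).im * (u : GaussianInt).im := by
        rw [Zsqrtd.norm_def]; ring
      rcases h with h | h
      · rw [← h7, h]; rfl
      · rw [h] at h6; norm_num at h6
    set a := (u : GaussianInt).re with ha
    set b := (u : GaussianInt).im with hb
    have hu : (u : GaussianInt) = ⟨a, b⟩ := rfl
    apply Units.ext
    rw [Units.val_pow_eq_pow_val, hu, Units.val_one]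
    have ha2 : a ^ 2 ≤ 1 := by nlinarith [sq_nonneg b]
    have hb2 : b ^ 2 ≤ 1 := by nlinarith [sq_nonneg a]
    have ha3 : -1 ≤ a ∧ a ≤ 1 := by constructor <;> nlinarith
    have hb3 : -1 ≤ b ∧ b ≤ 1 := by constructor <;> nlinarith
    obtain ⟨h1, h2⟩ := ha3
    obtain ⟨h3, h4⟩ := hb3
    clear_value a b
    interval_cases a <;> interval_cases b <;> first | (exfalso; revert h5; decide) | decide
  refine ⟨u ^ n, ?_⟩
  rw [← pow_mul]
  obtain ⟨k, rfl⟩ := hn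
  have e : (2 * k + 1) * (2 * k + 1) = 4 * (k * k + k) + 1 := by ring
  rw [e, pow_succ, pow_mul, h4, one_pow, one_mul]

/-- Lebesgue's theorem, odd exponent -/
theorem sq_add_one_ne_pow_of_odd {x y : ℤ} {n : ℕ} (hn : Odd n) (h1 : n ≠ 1) (hx : x ≠ 0) :
    x ^ 2 + 1 ≠ y ^ n := by
  intro h
  have hn0 : n ≠ 0 := by rintro rfl; exact absurd hn (by decide)
  -- `y` is odd
  have hy : Odd y := by
    by_contra hy
    rw [Int.not_odd_iff_even] at hy
    obtain ⟨z, rfl⟩ := hy.two_dvd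
    have h2 : 2 ≤ n := by omega
    have h4 : (4 : ℤ) ∣ x ^ 2 + 1 := by
      rw [h, mul_pow]
      obtain ⟨k, rfl⟩ := Nat.exists_eq_add_of_le h2
      exact Dvd.dvd.mul_right (by rw [pow_add]; exact Dvd.dvd.mul_right (by norm_num) _) _
    obtain ⟨k, hk⟩ := h4
    rcases Int.even_or_odd x with ⟨t, ht⟩ | ⟨t, ht⟩
    · subst ht
      have : (4 : ℤ) ∣ 1 := ⟨k - t ^ 2, by linarith [hk, show (t + t) ^ 2 = 4 * t ^ 2 by ring]⟩
      norm_num at this
    · subst ht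
      have : (4 : ℤ) ∣ 2 := ⟨k - t ^ 2 - t, by nlinarith [hk]⟩
      norm_num at this
  -- coprimality
  have hcop : IsCoprime (⟨x, 1⟩ : GaussianInt) (⟨x, -1⟩ : GaussianInt) := by
    have h2 : IsCoprime (2 : ℤ) (y ^ n) := by
      apply IsCoprime.pow_right
      rw [Int.isCoprime_iff_gcd_eq_one, Int.gcd_comm]
      exact Int.isCoprime_iff_gcd_eq_one.1 (by
        obtain ⟨k, rfl⟩ := hy
        exact ⟨1, -k, by ring⟩)
    obtain ⟨u, v, huv⟩ := h2
    refine ⟨⟨0, -u⟩ + ⟨v, 0⟩ * ⟨x, -1⟩, ⟨0, u⟩, ?_⟩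
    rw [← h] at huv
    rw [Zsqrtd.ext_iff]
    constructor
    · simp; linarith [huv, show x * x = x ^ 2 by ring,
        show v * x * x = v * x ^ 2 by ring]
    · simp; ring
  have hprod : (⟨x, 1⟩ : GaussianInt) * ⟨x, -1⟩ = (y : GaussianInt) ^ n := by
    rw [← Int.cast_pow, ← h, Zsqrtd.ext_iff]
    constructor
    · rw [Zsqrtd.re_intCast]; simp; ring
    · rw [Zsqrtd.im_intCast]; simp
  obtain ⟨α, w, hw⟩ := exists_associated_pow_of_mul_eq_pow' hcop hprod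
  obtain ⟨v, rfl⟩ := unit_eq_pow hn w
  set β : GaussianInt := α * v with hβ
  have hβn : β ^ n = ⟨x, 1⟩ := by rw [hβ, mul_pow, ← hw, Units.val_pow_eq_pow_val]
  set a := β.re with ha
  set b := β.im with hb
  have hβe : β = ⟨a, b⟩ := rfl
  -- `b = ± 1`
  have hb1 : b ∣ 1 := by
    have h2 : β - star β ∣ β ^ n - (star β) ^ n := sub_dvd_pow_sub_pow _ _ _
    rw [← star_pow, hβn] at h2
    obtain ⟨c, hc⟩ := h2
    have h3 := congrArg Zsqrtd.im hc
    have h4 : (⟨x, 1⟩ - star (⟨x, 1⟩ : GaussianInt) : GaussianInt).im = 2 := by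
      simp
    rw [h4] at h3
    have h5 : ((β - star β) * c).im = 2 * (b * c.re) := by
      simp [hβe]
      ring
    rw [h5] at h3
    exact ⟨c.re, by linarith⟩
  have hb2 : b = 1 ∨ b = -1 := Int.isUnit_iff.1 (isUnit_of_dvd_one hb1)
  have hbb : b * b = 1 := by rcases hb2 with h | h <;> rw [h] <;> norm_num
  -- `a` is even
  have hae : Even a := by
    by_contra hae
    rw [Int.not_even_iff_odd] at hae
    have h2 : Zsqrtd.norm (β ^ n) = (Zsqrtd.norm β) ^ n := map_pow (Zsqrtd.normMonoidHom) β n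
    have h3 : Zsqrtd.norm (β ^ n) = y ^ n := by
      rw [hβn, Zsqrtd.norm_def, ← h]; ring
    have h4 : Zsqrtd.norm β = a * a + b * b := by
      rw [Zsqrtd.norm_def]; ring
    rw [h2, h4, hbb] at h3
    have h5 : Even ((a * a + 1) ^ n) := ((hae.mul hae).add_odd odd_one).pow_of_ne_zero hn0
    rw [h3] at h5
    exact (Int.not_odd_iff_even.2 h5) hy.pow
  obtain ⟨c, hc⟩ := hae.two_dvd
  -- `β = i b (1 - 2 i (c b))`
  have hβ2 : β = (⟨0, b⟩ : GaussianInt) * ⟨1, -2 * (c * b)⟩ := by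
    rw [hβe, Zsqrtd.ext_iff]
    constructor
    · simp; rw [hc]; linear_combination (-2 * c) * hbb
    · simp
  obtain ⟨j, w', hw', hre⟩ := re_pow (d := c * b) hn h1
  have hi : ∃ e : ℤ, (e = 1 ∨ e = -1) ∧ (⟨0, b⟩ : GaussianInt) ^ n = ⟨0, e⟩ := by
    obtain ⟨k, hk⟩ := hn
    have e1 : (⟨0, b⟩ : GaussianInt) ^ 2 = -1 := by
      rw [pow_two, Zsqrtd.ext_iff]
      constructor
      · simp; exact hbb
      · simp
    rcases neg_one_pow_eq_or GaussianInt k with h2 | h2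
    · refine ⟨b, hb2, ?_⟩
      rw [hk, pow_succ, pow_mul, e1, h2, one_mul]
    · refine ⟨-b, by rcases hb2 with h | h <;> simp [h], ?_⟩
      rw [hk, pow_succ, pow_mul, e1, h2, Zsqrtd.ext_iff]
      constructor <;> simp
  obtain ⟨e, he, hie⟩ := hi
  have h6 : (⟨0, e⟩ : GaussianInt) * (⟨1, -2 * (c * b)⟩ : GaussianInt) ^ n = ⟨x, 1⟩ := by
    rw [← hie, ← mul_pow, ← hβ2, hβn]
  have h7 := congrArg Zsqrtd.im h6
  have h8 : e * ((⟨1, -2 * (c * b)⟩ : GaussianInt) ^ n).re = 1 := by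
    simpa using h7
  rw [hre] at h8
  by_cases hc0 : c = 0
  · -- then `x = 0`
    rw [hc0] at h6
    have h9 : (⟨1, -2 * (0 * b)⟩ : GaussianInt) = 1 := by
      rw [Zsqrtd.ext_iff]; constructor <;> simp
    rw [h9, one_pow, mul_one] at h6
    have h10 := congrArg Zsqrtd.re h6
    exact hx (by simpa using h10.symm)
  have hb0 : b ≠ 0 := by rintro h; rw [h] at hbb; norm_num at hbb
  have hne : (c * b) ^ 2 * w' ≠ 0 := by
    refine mul_ne_zero (pow_ne_zero _ (mul_ne_zero hc0 hb0)) ?_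
    rintro rfl
    exact absurd hw' (by decide)
  rcases he with rfl | rfl
  · have : (2 : ℤ) ^ (j + 2) * (c * b) ^ 2 * w' = 0 := by linarith
    rw [mul_assoc] at this
    exact (mul_ne_zero (pow_ne_zero _ (by norm_num)) hne) this
  · have h9 : (4 : ℤ) ∣ 2 := by
      refine ⟨-(2 ^ j * (c * b) ^ 2 * w'), ?_⟩
      have : (2 : ℤ) ^ (j + 2) = 4 * 2 ^ j := by ring
      rw [this] at h8
      linarith
    norm_num at h9

/-- **Lebesgue's theorem (1850)**: `x ^ 2 + 1` is not a proper power, `x ≠ 0`. -/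
theorem sq_add_one_ne_pow {x y : ℤ} {n : ℕ} (hn : 2 ≤ n) (hx : x ≠ 0) : x ^ 2 + 1 ≠ y ^ n := by
  rcases Nat.even_or_odd n with he | ho
  · intro h
    obtain ⟨k, rfl⟩ := he
    have h1 : (y ^ k - x) * (y ^ k + x) = 1 := by
      rw [pow_add] at h; linear_combination -h
    rcases Int.mul_eq_one_iff_eq_one_or_neg_one.1 h1 with ⟨h2, h3⟩ | ⟨h2, h3⟩ <;>
    exact hx (by linarith)
  · exact sq_add_one_ne_pow_of_odd ho (by omega) hx

end Fermat.Agent.Cor.Cat
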