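import Mathlib

/-!
# Catalan's equation: Mihailescu's divisibility `q² ∣ x`

Let `p ≠ q` be odd primes and `K = ℚ(ζ)`, `ζ` a primitive `p`-th root of unity. If
`x - 1 = p^(q-1) a^q`, `(x^p - 1) / (x - 1) = p u^q` and `q ∣ x` (by Cassels this is what a nonzero
solution of `x^p - y^q = 1` gives), then `q² ∣ x`, provided that the element `∑_{σ ∈ T} σ` of the
group ring of `Gal(K/ℚ)`, where `T` is some set of representatives of the group modulo complex
conjugation, annihilates the class group of `K` (Stickelberger's theorem gives such a `T`).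

The proof (P. Mihailescu, *A class number free criterion for Catalan's conjecture*, 2003):
* `l = (x - ζ) / (1 - ζ)` is an integer of `K`, its conjugates are pairwise coprime and their
  product is `u^q`, hence `(l) = I^q` (`isCoprime_conj`, `exists_ideal`);
* the hypothesis on `T` gives `∏_T σ(l) = ε α^q` with a unit `ε` (`exists_elt`), and `ε` is its
  complex conjugate times a root of unity (`exists_conj`), which is a `q`-th power
  (`exists_pow_mul_eq`); so `β^q ∏_T (1 - x σ(ζ)) = γ^q ∏_T (1 - x σ(ζ)⁻¹)` where `γ` is the complex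
  conjugate of `α` and `β` is `α` times a root of unity (`conj_eq`);
* so `β^q ≡ γ^q mod q`, `β ≡ γ mod q` (`dvd_sub_of_dvd_pow_sub`), `β^q ≡ γ^q mod q²` and
  `x ∑_T (σ(ζ) - σ(ζ)⁻¹) ≡ 0 mod q²` (`sq_dvd_prod_sub`);
* the trace of `x ∑_T (σ(ζ) - σ(ζ)⁻¹) ρ(ζ)⁻¹`, `ρ ∈ T`, is `x p` (`trace_argument`).
-/

set_option autoImplicit false
set_option linter.style.haveILetI false

open NumberField Finset

namespace Fermat.Agent.Cor.Cat.Mih

/-! ### Elementary ring theory -/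

section Ring

variable {R : Type*} [CommRing R]

/-- `∏ (1 - x f) ≡ 1 - x ∑ f mod x²`. -/
theorem sq_dvd_prod_sub {ι : Type*} (T : Finset ι) (f : ι → R) (x : R) :
    x ^ 2 ∣ ∏ i ∈ T, (1 - x * f i) - (1 - x * ∑ i ∈ T, f i) := by
  classical
  induction T using Finset.induction_on with
  | empty => simp
  | insert a s ha ih =>
    rw [prod_insert ha, sum_insert ha]
    obtain ⟨c, hc⟩ := ih
    refine ⟨c * (1 - x * f a) + f a * ∑ i ∈ s, f i, ?_⟩
    linear_combination (1 - x * f a) * hc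

/-- Frobenius modulo `q` on a ring generated by one element `z` with `z ^ (q ^ n) = z`. -/
theorem dvd_pow_sub_self {q n : ℕ} (hq : q.Prime) {z : R} (hz : z ^ q ^ n = z)
    (htop : Algebra.adjoin ℤ {z} = ⊤) (y : R) : (q : R) ∣ y ^ q ^ n - y := by
  have hy : y ∈ Algebra.adjoin ℤ {z} := by rw [htop]; trivial
  induction hy using Algebra.adjoin_induction with
  | mem x hx => rw [Set.mem_singleton_iff.mp hx, hz, sub_self]; exact dvd_zero _
  | algebraMap m =>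
    haveI := Fact.mk hq
    have h1 : (q : ℤ) ∣ m ^ q ^ n - m := by
      rw [← ZMod.intCast_zmod_eq_zero_iff_dvd]
      push_cast
      rw [ZMod.pow_card_pow, sub_self]
    obtain ⟨c, hc⟩ := h1
    refine ⟨algebraMap ℤ R c, ?_⟩
    have h2 := congrArg (algebraMap ℤ R) hc
    rw [map_sub, map_pow, map_mul] at h2
    rw [h2]
    simp
  | add a b _ _ ha hb =>
    obtain ⟨r, hr⟩ := exists_add_pow_prime_pow_eq hq a b n
    obtain ⟨s, hs⟩ := ha
    obtain ⟨t, ht⟩ := hb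
    exact ⟨s + t + a * b * r, by rw [hr]; linear_combination hs + ht⟩
  | mul a b _ _ ha hb =>
    obtain ⟨s, hs⟩ := ha
    obtain ⟨t, ht⟩ := hb
    exact ⟨s * b ^ q ^ n + a * t, by rw [mul_pow]; linear_combination b ^ q ^ n * hs + a * ht⟩

/-- `β^q ≡ γ^q mod q` implies `β ≡ γ mod q` if Frobenius is injective modulo `q`. -/
theorem dvd_sub_of_dvd_pow_sub {q n : ℕ} (hq : q.Prime) (hn : n ≠ 0)
    (hF : ∀ y : R, (q : R) ∣ y ^ q ^ n - y) {β γ : R} (h : (q : R) ∣ β ^ q - γ ^ q) :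
    (q : R) ∣ β - γ := by
  obtain ⟨r, hr⟩ := exists_add_pow_prime_eq hq (β - γ) γ
  rw [sub_add_cancel] at hr
  have h1 : (q : R) ∣ (β - γ) ^ q := by
    obtain ⟨c, hc⟩ := h
    exact ⟨c - (β - γ) * γ * r, by linear_combination hc - hr⟩
  have h2 : (q : R) ∣ (β - γ) ^ q ^ n := by
    obtain ⟨m, rfl⟩ := Nat.exists_eq_succ_of_ne_zero hn
    rw [Nat.succ_eq_add_one, pow_succ', pow_mul]
    exact dvd_pow h1 (pow_ne_zero _ hq.ne_zero)
  have h3 := dvd_sub h2 (hF (β - γ))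
  rwa [sub_sub_cancel] at h3

/-- Two conjugates of `(x - z) / (1 - z)` are coprime. -/
theorem isCoprime_conj [IsDomain R] {p : ℕ} (hp : p.Prime) {z w x l l' : R}
    (hz : IsPrimitiveRoot z p) (hw : w ^ p = 1) (hw1 : w ≠ 1) (hwz : w ≠ z)
    (h1 : (1 - z) * l = x - z) (h2 : (1 - w) * l' = x - w) : IsCoprime l l' := by
  have hm : ∀ y : R, y ^ p = 1 → y ∈ (Polynomial.nthRootsFinset p (1 : R) : Set R) :=
    fun y hy => Finset.mem_coe.mpr ((Polynomial.mem_nthRootsFinset hp.pos 1).mpr hy)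
  have ha := hz.nthRootsFinset_pairwise_associated_sub_one_sub_of_prime hp
  obtain ⟨u, hu⟩ := ha (hm w hw) (hm z hz.pow_eq_one) hwz
  obtain ⟨v, hv⟩ := ha (hm w hw) (hm 1 (one_pow p)) hw1
  have hne : z - 1 ≠ 0 := sub_ne_zero.mpr (hz.ne_one hp.one_lt)
  have h3 : l - v * l' = -u := by
    apply mul_left_cancel₀ hne
    linear_combination (-1 : R) * h1 + h2 + hu - l' * hv
  refine ⟨-((u⁻¹ : Rˣ) : R), ((u⁻¹ : Rˣ) : R) * v, ?_⟩
  have h4 : ((u⁻¹ : Rˣ) : R) * u = 1 := u.inv_mul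
  linear_combination h4 - ((u⁻¹ : Rˣ) : R) * h3

/-- The functional equation of the conjugates of `(x - z) / (1 - z)`. -/
theorem conj_eq [IsDomain R] {w w' x l l' : R} (hw : w * w' = 1) (hw1 : w ≠ 1)
    (h1 : (1 - w) * l = x - w) (h2 : (1 - w') * l' = x - w') :
    l * (1 - x * w) = (-w) * (1 - x * w') * l' := by
  have hne : 1 - w ≠ 0 := sub_ne_zero.mpr (Ne.symm hw1)
  apply mul_left_cancel₀ hne
  linear_combination (1 - x * w) * h1 - w ^ 2 * (1 - x * w') * h2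
    + (w - x + x * (x * w - 1) - x * (w * w' - 1) - w * (1 - x * w') * l') * hw

end Ring

/-- Divisibility of integers in the ring of integers. -/
theorem intCast_dvd_iff {K : Type*} [Field K] [NumberField K] {n m : ℤ}
    (h : (n : 𝓞 K) ∣ (m : 𝓞 K)) : n ∣ m := by
  by_cases hn : n = 0
  · subst hn
    rw [Int.cast_zero, zero_dvd_iff] at h
    have h1 : m = 0 := by exact_mod_cast h
    rw [h1]
  obtain ⟨y, hy⟩ := h
  have h1 : (m : K) = n * (y : K) := by
    have := congrArg (algebraMap (𝓞 K) K) hy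
    simpa using this
  have hn' : (n : ℚ) ≠ 0 := by exact_mod_cast hn
  have hn'' : (n : K) ≠ 0 := by exact_mod_cast hn
  have h2 : algebraMap ℚ K ((m : ℚ) / n) = (y : K) := by
    rw [map_div₀, map_intCast, map_intCast, h1]
    field_simp
  have h3 : IsIntegral ℤ ((m : ℚ) / n) := by
    rw [← isIntegral_algebraMap_iff (algebraMap ℚ K).injective, h2]
    exact y.isIntegral_coe
  obtain ⟨t, ht⟩ := IsIntegrallyClosed.isIntegral_iff.mp h3
  refine ⟨t, ?_⟩
  have h4 : (m : ℚ) = n * t := by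
    have h5 : ((t : ℤ) : ℚ) = (m : ℚ) / n := by simpa using ht
    rw [h5]
    field_simp
  exact_mod_cast h4

/-! ### The Galois group of the cyclotomic field -/

section Gal

variable {p : ℕ} [hp : Fact p.Prime] {K : Type*} [Field K] [NumberField K]
  [hcyc : IsCyclotomicExtension {p} ℚ K] {ζ : K} (hζ : IsPrimitiveRoot ζ p)

include hcyc in
theorem gal_injective (hζ : IsPrimitiveRoot ζ p) :
    Function.Injective (fun σ : K ≃ₐ[ℚ] K => σ ζ) := by
  intro σ τ h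
  have h1 : (σ : K →ₐ[ℚ] K) = τ := by
    refine (hζ.powerBasis ℚ).algHom_ext ?_
    rw [IsPrimitiveRoot.powerBasis_gen]
    exact h
  ext x
  exact DFunLike.congr_fun h1 x

include hcyc in
theorem card_gal : Fintype.card (K ≃ₐ[ℚ] K) = p - 1 := by
  haveI : IsGalois ℚ K := IsCyclotomicExtension.isGalois {p} ℚ K
  have h1 := IsGalois.card_aut_eq_finrank ℚ K
  rw [Nat.card_eq_fintype_card] at h1
  rw [h1, IsCyclotomicExtension.finrank K (Polynomial.cyclotomic.irreducible_rat hp.out.pos),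
    Nat.totient_prime hp.out]

include hcyc in
theorem image_gal [DecidableEq K] (hζ : IsPrimitiveRoot ζ p) :
    (univ : Finset (K ≃ₐ[ℚ] K)).image (fun σ => σ ζ) = primitiveRoots p K := by
  refine Finset.eq_of_subset_of_card_le ?_ ?_
  · intro x hx
    obtain ⟨σ, -, rfl⟩ := mem_image.mp hx
    exact (mem_primitiveRoots hp.out.pos).mpr (hζ.map_of_injective σ.injective)
  · rw [card_image_of_injective _ (gal_injective hζ), card_univ, card_gal (p := p),
      hζ.card_primitiveRoots, Nat.totient_prime hp.out]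

include hcyc in
/-- `∏ (x - σ ζ) = 1 + x + ⋯ + x^(p-1)`. -/
theorem prod_gal (hζ : IsPrimitiveRoot ζ p) (x : K) :
    ∏ σ : K ≃ₐ[ℚ] K, (x - σ ζ) = ∑ i ∈ range p, x ^ i := by
  classical
  have h1 := congrArg (Polynomial.eval x) (Polynomial.cyclotomic_eq_prod_X_sub_primitiveRoots hζ)
  rw [Polynomial.cyclotomic_prime, Polynomial.eval_finsetSum, Polynomial.eval_prod,
    ← image_gal hζ, prod_image fun a _ b _ h => gal_injective hζ h] at h1
  simpa using h1.symm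

omit [NumberField K] hcyc in
theorem sum_primitiveRoots (hζ : IsPrimitiveRoot ζ p) : ∑ μ ∈ primitiveRoots p K, μ = -1 := by
  classical
  have h1 : (Ico 1 p).image (fun j => ζ ^ j) = primitiveRoots p K := by
    refine Finset.eq_of_subset_of_card_le ?_ ?_
    · intro x hx
      obtain ⟨j, hj, rfl⟩ := mem_image.mp hx
      rw [mem_Ico] at hj
      refine (mem_primitiveRoots hp.out.pos).mpr (hζ.pow_of_coprime j ?_)
      exact (Nat.coprime_of_lt_prime (by omega) hj.2 hp.out).symm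
    · rw [card_image_of_injOn, Nat.card_Ico, hζ.card_primitiveRoots, Nat.totient_prime hp.out]
      intro a ha b hb h
      rw [coe_Ico, Set.mem_Ico] at ha hb
      exact hζ.pow_inj ha.2 hb.2 h
  rw [← h1, sum_image]
  · have h2 := hζ.geom_sum_eq_zero hp.out.one_lt
    rw [range_eq_Ico, sum_eq_sum_Ico_succ_bot hp.out.pos, pow_zero] at h2
    linear_combination h2
  · intro a ha b hb h
    rw [coe_Ico, Set.mem_Ico] at ha hb
    exact hζ.pow_inj ha.2 hb.2 h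

include hcyc in
/-- The trace of a primitive root of unity. -/
theorem sum_gal (hζ : IsPrimitiveRoot ζ p) : ∑ σ : K ≃ₐ[ℚ] K, σ ζ = -1 := by
  classical
  rw [← sum_primitiveRoots hζ, ← image_gal hζ, sum_image fun a _ b _ h => gal_injective hζ h]

/-! ### The action on the ring of integers -/

/-- The action of the Galois group on the ring of integers. -/
abbrev act (σ : K ≃ₐ[ℚ] K) : 𝓞 K ≃+* 𝓞 K := RingOfIntegers.mapRingEquiv σ.toRingEquiv

theorem coe_act (σ : K ≃ₐ[ℚ] K) (y : 𝓞 K) : ((act σ y : 𝓞 K) : K) = σ (y : K) := rfl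

include hcyc in
/-- The products of the conjugates of `x - z`. -/
theorem prod_act {z : 𝓞 K} (hz : IsPrimitiveRoot z p) (x : ℤ) :
    ∏ σ : K ≃ₐ[ℚ] K, ((x : 𝓞 K) - act σ z) = ((∑ i ∈ range p, x ^ i : ℤ) : 𝓞 K) := by
  apply RingOfIntegers.ext
  have h1 := prod_gal (hz.map_of_injective (RingOfIntegers.coe_injective (K := K))) (x : K)
  change algebraMap (𝓞 K) K _ = algebraMap (𝓞 K) K _
  rw [map_intCast, map_prod, Int.cast_sum]
  simp only [Int.cast_pow]
  rw [← h1]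
  refine prod_congr rfl fun σ _ => ?_
  rw [map_sub, map_intCast]
  rfl

include hcyc in
/-- The sum of the conjugates of a primitive root of unity. -/
theorem sum_act {y : 𝓞 K} (hy : IsPrimitiveRoot y p) : ∑ σ : K ≃ₐ[ℚ] K, act σ y = -1 := by
  apply RingOfIntegers.ext
  have h1 := sum_gal (hy.map_of_injective (RingOfIntegers.coe_injective (K := K)))
  change algebraMap (𝓞 K) K _ = algebraMap (𝓞 K) K _
  rw [map_neg, map_one, map_sum, ← h1]
  rfl

include hcyc in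
/-- Complex conjugation, and Kronecker's theorem on the quotients `ε / conj ε`. -/
theorem exists_conj (hp2 : p ≠ 2) (hζ : IsPrimitiveRoot ζ p) :
    ∃ c : K ≃ₐ[ℚ] K, c ζ = ζ⁻¹ ∧ ∀ ε : (𝓞 K)ˣ, ∃ θ : 𝓞 K, θ ^ (2 * p) = 1 ∧
      (ε : 𝓞 K) = θ * act c (ε : 𝓞 K) := by
  haveI : IsCMField K := IsCyclotomicExtension.Rat.isCMField K (S := {p})
    ⟨p, Set.mem_singleton p, lt_of_le_of_ne hp.out.two_le (Ne.symm hp2)⟩
  refine ⟨(IsCMField.complexConj K).restrictScalars ℚ, ?_, ?_⟩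
  · let φ : K →+* ℂ := Classical.choice (inferInstance : Nonempty _)
    apply φ.injective
    change φ (IsCMField.complexConj K ζ) = _
    rw [IsCMField.complexEmbedding_complexConj, map_inv₀, Complex.inv_eq_conj]
    refine (hζ.map_of_injective φ.injective).norm'_eq_one hp.out.ne_zero
  · intro ε
    refine ⟨((IsCMField.unitsMulComplexConjInv K ε : (𝓞 K)ˣ) : 𝓞 K), ?_, ?_⟩
    · have h := IsCyclotomicExtension.Rat.torsionOrder_eq (n := p) (K := K)
      rw [if_neg (by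
        intro he
        exact hp2 ((Nat.Prime.even_iff hp.out).mp he))] at h
      rw [← h, ← Units.val_pow_eq_pow_val, ← Subgroup.coe_pow]
      have h2 : (IsCMField.unitsMulComplexConjInv K ε) ^ Units.torsionOrder K = 1 :=
        pow_card_eq_one'
      rw [h2]
      rfl
    · rw [IsCMField.unitsMulComplexConjInv_apply, Units.val_mul]
      have h3 : ((IsCMField.unitsComplexConj K ε : (𝓞 K)ˣ) : 𝓞 K) =
        act ((IsCMField.complexConj K).restrictScalars ℚ) (ε : 𝓞 K) := rfl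
      rw [← h3, mul_assoc, Units.inv_mul, mul_one]

include hcyc in
/-- `(1 - z)^(p-1)` divides `p`. -/
theorem one_sub_pow_dvd {z : 𝓞 K} (hz : IsPrimitiveRoot z p) :
    (1 - z) ^ (p - 1) ∣ (p : 𝓞 K) := by
  have h1 := prod_act hz 1
  have h2 : ∏ σ : K ≃ₐ[ℚ] K, (1 - z) ∣ ∏ σ : K ≃ₐ[ℚ] K, (((1 : ℤ) : 𝓞 K) - act σ z) := by
    refine prod_dvd_prod_of_dvd _ _ fun σ _ => ?_
    have hm : ∀ y : 𝓞 K, y ^ p = 1 → y ∈ (Polynomial.nthRootsFinset p (1 : 𝓞 K)) :=
      fun y hy => (Polynomial.mem_nthRootsFinset hp.out.pos 1).mpr hy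
    have h3 := hz.sub_one_dvd_sub hp.out (hm 1 (one_pow p))
      (hm (act σ z) (by rw [← map_pow, hz.pow_eq_one, map_one]))
    rw [Int.cast_one]
    rw [← neg_sub z 1]
    exact (neg_dvd).mpr h3
  rw [prod_const, card_univ, card_gal (p := p), h1] at h2
  simpa using h2

/-- Every `p`-th root of unity different from `1` is primitive. -/
theorem primitive_of_ne_one {R : Type*} [CommRing R] {w : R} (hw : w ^ p = 1) (hw1 : w ≠ 1) :
    IsPrimitiveRoot w p :=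
  IsPrimitiveRoot.iff_orderOf.mpr (orderOf_eq_prime hw hw1)

theorem act_act (σ τ : K ≃ₐ[ℚ] K) (y : 𝓞 K) : act σ (act τ y) = act (σ * τ) y := rfl

include hcyc in
theorem act_injective {z : 𝓞 K} (hz : IsPrimitiveRoot z p) {σ τ : K ≃ₐ[ℚ] K}
    (h : act σ z = act τ z) : σ = τ := by
  refine gal_injective (hz.map_of_injective (RingOfIntegers.coe_injective (K := K))) ?_
  exact congrArg (algebraMap (𝓞 K) K) h

include hcyc in
/-- The trace argument: `q² ∣ x ∑_{σ ∈ T} (w_σ - w_σ⁻¹)` implies `q² ∣ x`. -/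
theorem trace_argument {z : 𝓞 K} (hz : IsPrimitiveRoot z p) {T : Finset (K ≃ₐ[ℚ] K)}
    (w' : (K ≃ₐ[ℚ] K) → 𝓞 K) (hw' : ∀ σ, act σ z * w' σ = 1)
    (hT1 : ∀ σ ∈ T, ∀ τ ∈ T, act τ z ≠ w' σ) {ρ : K ≃ₐ[ℚ] K} (hρ : ρ ∈ T) {n x : ℤ}
    (h : (n : 𝓞 K) ∣ x * ∑ σ ∈ T, (act σ z - w' σ)) : n ∣ x * p := by
  classical
  have hwp : ∀ σ, (act σ z) ^ p = 1 := fun σ => by rw [← map_pow, hz.pow_eq_one, map_one]
  have hw'p : ∀ σ, (w' σ) ^ p = 1 := by
    intro σ
    have h1 := congrArg (· ^ p) (hw' σ)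
    simp only [mul_pow, hwp, one_mul, one_pow] at h1
    exact h1
  have hS : ∀ y : 𝓞 K, y ^ p = 1 → y ≠ 1 → ∑ τ : K ≃ₐ[ℚ] K, act τ y = -1 :=
    fun y h1 h2 => sum_act (primitive_of_ne_one h1 h2)
  have hterm : ∀ σ ∈ T, ∑ τ : K ≃ₐ[ℚ] K, act τ ((act σ z - w' σ) * w' ρ) =
      if σ = ρ then (p : 𝓞 K) else 0 := by
    intro σ hσ
    have h2 : ∑ τ : K ≃ₐ[ℚ] K, act τ (w' σ * w' ρ) = -1 := by
      refine hS _ (by rw [mul_pow, hw'p, hw'p, one_mul]) fun h3 => ?_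
      refine hT1 σ hσ ρ hρ ?_
      linear_combination (w' σ) * hw' ρ - (act ρ z) * h3
    simp only [sub_mul, map_sub, sum_sub_distrib]
    rw [h2]
    by_cases hσρ : σ = ρ
    · subst hσρ
      rw [if_pos rfl, hw' σ]
      simp only [map_one, sum_const, card_univ, card_gal (p := p), nsmul_eq_mul, mul_one]
      rw [Nat.cast_sub hp.out.one_le]
      push_cast
      ring
    · rw [if_neg hσρ, hS _ (by rw [mul_pow, hwp, hw'p, one_mul]), sub_self]
      intro h3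
      refine hσρ (act_injective hz ?_)
      linear_combination (act ρ z) * h3 - (act σ z) * hw' ρ
  have hsum : ∑ τ : K ≃ₐ[ℚ] K, act τ ((x * ∑ σ ∈ T, (act σ z - w' σ)) * w' ρ) =
      ((x * p : ℤ) : 𝓞 K) := by
    have h3 : ∀ τ : K ≃ₐ[ℚ] K, act τ ((x * ∑ σ ∈ T, (act σ z - w' σ)) * w' ρ) =
        x * ∑ σ ∈ T, act τ ((act σ z - w' σ) * w' ρ) := by
      intro τ
      rw [mul_assoc, map_mul, map_intCast, sum_mul, map_sum]
    simp only [h3]
    rw [← mul_sum, sum_comm, sum_congr rfl hterm, sum_ite_eq' T ρ, if_pos hρ]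
    push_cast
    rfl
  apply intCast_dvd_iff (K := K)
  rw [← hsum]
  refine dvd_sum fun τ _ => ?_
  have h4 := map_dvd (act τ) (h.mul_right (w' ρ))
  rwa [map_intCast] at h4

include hcyc in
/-- The ideal generated by `(x - z) / (1 - z)` is a `q`-th power. -/
theorem exists_ideal {z : 𝓞 K} (hz : IsPrimitiveRoot z p) {q : ℕ} {x u : ℤ} {l : 𝓞 K}
    (hl : (1 - z) * l = x - z) (hprod : ∏ σ : K ≃ₐ[ℚ] K, act σ l = (u : 𝓞 K) ^ q) :
    ∃ I : Ideal (𝓞 K), Ideal.span {l} = I ^ q := by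
  classical
  have h1 : IsCoprime l (∏ σ ∈ univ.erase (1 : K ≃ₐ[ℚ] K), act σ l) := by
    refine IsCoprime.prod_right fun σ hσ => ?_
    have hσ1 : σ ≠ 1 := ne_of_mem_erase hσ
    refine isCoprime_conj hp.out hz (w := act σ z) ?_ ?_ ?_ hl ?_
    · rw [← map_pow, hz.pow_eq_one, map_one]
    · exact (hz.map_of_injective (act σ).injective).ne_one hp.out.one_lt
    · intro h
      exact hσ1 (act_injective hz (τ := 1) h)
    · have := congrArg (act σ) hl
      rwa [map_mul, map_sub, map_sub, map_one, map_intCast] at this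
  have h2 : l * ∏ σ ∈ univ.erase (1 : K ≃ₐ[ℚ] K), act σ l = (u : 𝓞 K) ^ q := by
    rw [← hprod, ← mul_prod_erase univ _ (mem_univ (1 : K ≃ₐ[ℚ] K))]
    rfl
  have h3 : Ideal.span {l} * Ideal.span {∏ σ ∈ univ.erase (1 : K ≃ₐ[ℚ] K), act σ l} =
      Ideal.span {(u : 𝓞 K)} ^ q := by
    rw [Ideal.span_singleton_mul_span_singleton, h2, Ideal.span_singleton_pow]
  exact _root_.exists_eq_pow_of_mul_eq_pow_of_coprime
    ((Ideal.isCoprime_span_singleton_iff _ _).mpr h1) h3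

omit hcyc hp in
/-- The annihilation of the class group by `∑_{σ ∈ T} σ` applied to `(l) = I^q`. -/
theorem exists_elt {l : 𝓞 K} (hl0 : l ≠ 0) {q : ℕ} (hq : q ≠ 0) {I : Ideal (𝓞 K)}
    (hI : Ideal.span {l} = I ^ q) {T : Finset (K ≃ₐ[ℚ] K)}
    (hT2 : ∀ I : Ideal (𝓞 K), I ≠ ⊥ → ∃ α : 𝓞 K, ∏ σ ∈ T,
      I.map (RingOfIntegers.mapRingEquiv σ.toRingEquiv : 𝓞 K →+* 𝓞 K) = Ideal.span {α}) :
    ∃ (α : 𝓞 K) (ε : (𝓞 K)ˣ), ∏ σ ∈ T, act σ l = α ^ q * ε := by
  have hI0 : I ≠ ⊥ := by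
    rintro rfl
    rw [← Ideal.zero_eq_bot, zero_pow hq, Ideal.zero_eq_bot, Ideal.span_singleton_eq_bot] at hI
    exact hl0 hI
  obtain ⟨α, hα⟩ := hT2 I hI0
  have h1 : Ideal.span {α ^ q} = Ideal.span {∏ σ ∈ T, act σ l} := by
    rw [← Ideal.span_singleton_pow, ← hα, ← prod_pow, ← Ideal.prod_span_singleton]
    refine prod_congr rfl fun σ _ => ?_
    rw [← Ideal.map_pow, ← hI, Ideal.map_span, Set.image_singleton]
    rfl
  obtain ⟨ε, hε⟩ := Ideal.span_singleton_eq_span_singleton.mp h1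
  exact ⟨α, ε, hε.symm⟩

/-- Absorbing a root of unity of order prime to `q` in a `q`-th power. -/
theorem exists_pow_mul_eq {R : Type*} [CommRing R] {q m : ℕ} (hqm : q.Coprime m) {θ ν : R}
    (hθ : θ ^ m = 1) (hν : ν ^ m = 1) (hm : m ≠ 0) :
    ∃ η : R, η ^ q * ν = θ := by
  have h1 : (θ * ν ^ (m - 1)) ^ m = 1 := by
    rw [mul_pow, hθ, one_mul, ← pow_mul, mul_comm, pow_mul, hν, one_pow]
  have h2 : q.Coprime (orderOf (θ * ν ^ (m - 1))) :=
    hqm.coprime_dvd_right (orderOf_dvd_of_pow_eq_one h1)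
  obtain ⟨k, hk⟩ := exists_pow_eq_self_of_coprime h2
  refine ⟨(θ * ν ^ (m - 1)) ^ k, ?_⟩
  rw [← pow_mul, mul_comm k q, pow_mul, hk, mul_assoc, ← pow_succ,
    Nat.sub_add_cancel (Nat.one_le_iff_ne_zero.mpr hm), hν, mul_one]

end Gal

end Mih

/-! ### The theorem -/

open Mih

/-- **Mihailescu**: if `x - 1 = p^(q-1) a^q`, `(x^p - 1) / (x - 1) = p u^q` and `q ∣ x` then
`q² ∣ x`, given a set `T` of representatives of `Gal(ℚ(ζ_p)/ℚ)` modulo complex conjugation such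
that `∑_{σ ∈ T} σ` annihilates the class group of `ℚ(ζ_p)`. -/
theorem mihailescu_sq_dvd {p q : ℕ} (hp : p.Prime) (hq : q.Prime) (hp2 : p ≠ 2) (hq2 : q ≠ 2)
    (hpq : p ≠ q) {K : Type*} [Field K] [NumberField K] [IsCyclotomicExtension {p} ℚ K] {ζ : K}
    (hζ : IsPrimitiveRoot ζ p) {T : Finset (K ≃ₐ[ℚ] K)}
    (hT1 : ∀ σ τ : K ≃ₐ[ℚ] K, τ ζ = (σ ζ)⁻¹ → (σ ∈ T ↔ τ ∉ T))
    (hT2 : ∀ I : Ideal (𝓞 K), I ≠ ⊥ → ∃ α : 𝓞 K, ∏ σ ∈ T,
      I.map (RingOfIntegers.mapRingEquiv σ.toRingEquiv : 𝓞 K →+* 𝓞 K) = Ideal.span {α})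
    {x u a : ℤ} (hqx : (q : ℤ) ∣ x) (h1 : x - 1 = (p : ℤ) ^ (q - 1) * a ^ q)
    (h2 : ∑ i ∈ range p, x ^ i = p * u ^ q) : (q : ℤ) ^ 2 ∣ x := by
  classical
  haveI := Fact.mk hp
  obtain ⟨c, hc, hunit⟩ := exists_conj (K := K) hp2 hζ
  obtain ⟨z, hzζ⟩ : ∃ z : 𝓞 K, (z : K) = ζ := ⟨hζ.toInteger, rfl⟩
  have hz : IsPrimitiveRoot z p := by
    rw [← hzζ] at hζ
    exact hζ.of_map_of_injective (RingOfIntegers.coe_injective (K := K))
  have hz0 : z ^ p = 1 := hz.pow_eq_one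
  have hp1 : 1 ≤ p := hp.one_le
  -- `x - z = (1 - z) l`
  have hpdvd : (p : ℤ) ∣ x - 1 := by
    rw [h1]
    have : q - 1 ≠ 0 := by have := hq.two_le; omega
    exact (dvd_pow_self _ this).mul_right _
  obtain ⟨l, hl⟩ : ∃ l : 𝓞 K, (1 - z) * l = x - z := by
    have h3 : (1 - z) ∣ ((x - 1 : ℤ) : 𝓞 K) := by
      have h4 : ((p : ℤ) : 𝓞 K) ∣ ((x - 1 : ℤ) : 𝓞 K) := Int.cast_dvd_cast _ _ hpdvd
      rw [Int.cast_natCast] at h4
      exact (dvd_trans (dvd_pow_self _ (by have := hp.two_le; omega)) (one_sub_pow_dvd hz)).trans h4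
    obtain ⟨k, hk⟩ := h3
    refine ⟨1 + k, ?_⟩
    push_cast at hk
    linear_combination -hk
  have hone : ∏ σ : K ≃ₐ[ℚ] K, act σ (1 - z) = (p : 𝓞 K) := by
    have h3 := prod_act hz 1
    simp only [Int.cast_one, one_pow, sum_const, card_range, nsmul_eq_mul, mul_one] at h3
    rw [Int.cast_natCast] at h3
    rw [← h3]
    exact prod_congr rfl fun σ _ => by rw [map_sub, map_one]
  have hpne : (p : 𝓞 K) ≠ 0 := Nat.cast_ne_zero.mpr hp.ne_zero
  have hprod : ∏ σ : K ≃ₐ[ℚ] K, act σ l = (u : 𝓞 K) ^ q := by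
    apply mul_left_cancel₀ hpne
    have h3 := prod_act hz x
    rw [h2] at h3
    push_cast at h3
    rw [← h3]
    nth_rewrite 1 [← hone]
    rw [← prod_mul_distrib]
    refine prod_congr rfl fun σ _ => ?_
    rw [← map_mul, hl, map_sub, map_intCast]
  -- `q` and `u` are coprime
  have hcop : IsCoprime (q : ℤ) u := by
    obtain ⟨x', hx'⟩ := hqx
    obtain ⟨m, rfl⟩ : ∃ m, p = m + 1 := ⟨p - 1, by omega⟩
    rw [geom_sum_succ] at h2
    refine ⟨-(x' * ∑ i ∈ range m, x ^ i), ((m + 1 : ℕ) : ℤ) * u ^ (q - 1), ?_⟩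
    rw [mul_assoc, ← pow_succ, Nat.sub_add_cancel hq.one_le, ← h2]
    nth_rewrite 2 [hx']
    ring
  have hl0 : l ≠ 0 := by
    rintro rfl
    simp only [map_zero, prod_const, card_univ, card_gal (p := p)] at hprod
    rw [zero_pow (by have := hp.two_le; omega)] at hprod
    have hu0 : (u : 𝓞 K) = 0 := pow_eq_zero_iff hq.ne_zero |>.mp hprod.symm
    have hu0' : u = 0 := by exact_mod_cast hu0
    rw [hu0', isCoprime_zero_right, Int.isUnit_iff] at hcop
    have := hq.two_le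
    omega
  obtain ⟨I, hI⟩ := exists_ideal hz hl hprod
  obtain ⟨α, ε, hα⟩ := exists_elt hl0 hq.ne_zero hI hT2
  obtain ⟨θ, hθ, hεθ⟩ := hunit ε
  -- conjugation
  have hwp : ∀ σ : K ≃ₐ[ℚ] K, (act σ z) ^ p = 1 := fun σ => by rw [← map_pow, hz0, map_one]
  have hw' : ∀ σ : K ≃ₐ[ℚ] K, act σ z * (act σ z) ^ (p - 1) = 1 := fun σ => by
    rw [← pow_succ', Nat.sub_add_cancel hp1, hwp]
  have hcz : act c z = z ^ (p - 1) := by
    apply RingOfIntegers.coe_injective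
    change c (z : K) = algebraMap (𝓞 K) K (z ^ (p - 1))
    rw [map_pow]
    change c (z : K) = (z : K) ^ (p - 1)
    rw [hzζ, hc]
    refine inv_eq_of_mul_eq_one_right ?_
    rw [← pow_succ', Nat.sub_add_cancel hp1, hζ.pow_eq_one]
  have hcw : ∀ σ : K ≃ₐ[ℚ] K, act c (act σ z) = (act σ z) ^ (p - 1) := by
    intro σ
    obtain ⟨j, -, hj⟩ := hz.eq_pow_of_pow_eq_one (hwp σ)
    rw [← hj, map_pow, hcz, ← pow_mul, ← pow_mul, mul_comm]
  have hT1' : ∀ σ ∈ T, ∀ τ ∈ T, act τ z ≠ (act σ z) ^ (p - 1) := by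
    intro σ hσ τ hτ h
    have h3 : act τ z * act σ z = 1 := by rw [h, mul_comm, hw' σ]
    have h4 := congrArg (algebraMap (𝓞 K) K) h3
    rw [map_mul, map_one] at h4
    change τ (z : K) * σ (z : K) = 1 at h4
    rw [hzζ] at h4
    exact (hT1 σ τ (eq_inv_of_mul_eq_one_left h4)).mp hσ hτ
  have hl' : ∀ σ : K ≃ₐ[ℚ] K, (1 - act σ z) * act σ l = x - act σ z := by
    intro σ
    rw [← map_one (act σ), ← map_sub, ← map_mul, hl, map_sub, map_intCast]
  have hl'' : ∀ σ : K ≃ₐ[ℚ] K, (1 - (act σ z) ^ (p - 1)) * act c (act σ l) =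
      x - (act σ z) ^ (p - 1) := by
    intro σ
    have h3 := congrArg (act c) (hl' σ)
    rwa [map_mul, map_sub, map_sub, map_one, map_intCast, hcw] at h3
  have hconj : ∀ σ : K ≃ₐ[ℚ] K, act σ l * (1 - x * act σ z) =
      (-act σ z) * (1 - x * (act σ z) ^ (p - 1)) * act c (act σ l) := fun σ =>
    conj_eq (hw' σ) ((hz.map_of_injective (act σ).injective).ne_one hp.one_lt) (hl' σ) (hl'' σ)
  have hprodT : (∏ σ ∈ T, act σ l) * ∏ σ ∈ T, (1 - x * act σ z) =
      (∏ σ ∈ T, (-act σ z)) * (∏ σ ∈ T, (1 - x * (act σ z) ^ (p - 1))) *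
        act c (∏ σ ∈ T, act σ l) := by
    rw [map_prod, ← prod_mul_distrib, ← prod_mul_distrib, ← prod_mul_distrib]
    exact prod_congr rfl fun σ _ => hconj σ
  have hν : (∏ σ ∈ T, (-act σ z)) ^ (2 * p) = 1 := by
    rw [← prod_pow]
    refine prod_eq_one fun σ _ => ?_
    rw [pow_mul, neg_sq, ← pow_mul, mul_comm, pow_mul, hwp, one_pow]
  have hsqA := sq_dvd_prod_sub T (fun σ => act σ z) (x : 𝓞 K)
  have hsqB := sq_dvd_prod_sub T (fun σ => (act σ z) ^ (p - 1)) (x : 𝓞 K)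
  set A : 𝓞 K := ∏ σ ∈ T, (1 - x * act σ z) with hA
  set B : 𝓞 K := ∏ σ ∈ T, (1 - x * (act σ z) ^ (p - 1)) with hB
  set ν : 𝓞 K := ∏ σ ∈ T, (-act σ z) with hνdef
  set Λ : 𝓞 K := ∏ σ ∈ T, act σ l with hΛ
  set γ : 𝓞 K := act c α with hγ
  have h2p : 2 * p ≠ 0 := by have := hp.pos; omega
  have hq2p : q.Coprime (2 * p) := by
    refine Nat.Coprime.mul_right ?_ ?_
    · exact (Nat.coprime_primes hq Nat.prime_two).mpr hq2
    · exact (Nat.coprime_primes hq hp).mpr (Ne.symm hpq)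
  obtain ⟨η, hη⟩ := exists_pow_mul_eq hq2p hθ hν h2p
  have hν0 : ν ≠ 0 := by
    intro h
    rw [h, zero_pow h2p] at hν
    exact zero_ne_one hν
  have hε0 : act c (ε : 𝓞 K) ≠ 0 := (ε.isUnit.map (act c)).ne_zero
  have hmain : (η * α) ^ q * A = B * γ ^ q := by
    apply mul_left_cancel₀ (mul_ne_zero hν0 hε0)
    rw [hα, map_mul, map_pow, ← hγ] at hprodT
    calc ν * act c (ε : 𝓞 K) * ((η * α) ^ q * A)
        = (α ^ q * ((η ^ q * ν) * act c (ε : 𝓞 K))) * A := by ring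
      _ = (α ^ q * ε) * A := by rw [hη, ← hεθ]
      _ = ν * B * (γ ^ q * act c (ε : 𝓞 K)) := hprodT
      _ = ν * act c (ε : 𝓞 K) * (B * γ ^ q) := by ring
  -- modulo `q`
  have hqx' : (q : 𝓞 K) ∣ (x : 𝓞 K) := by
    have h3 : ((q : ℤ) : 𝓞 K) ∣ (x : 𝓞 K) := Int.cast_dvd_cast _ _ hqx
    rwa [Int.cast_natCast] at h3
  have hA1 : (q : 𝓞 K) ∣ A - 1 := by
    have h3 := (hqx'.trans (dvd_pow_self _ two_ne_zero)).trans hsqA
    have h4 := dvd_sub h3 (hqx'.mul_right (∑ σ ∈ T, act σ z))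
    convert h4 using 1
    ring
  have hB1 : (q : 𝓞 K) ∣ B - 1 := by
    have h3 := (hqx'.trans (dvd_pow_self _ two_ne_zero)).trans hsqB
    have h4 := dvd_sub h3 (hqx'.mul_right (∑ σ ∈ T, (act σ z) ^ (p - 1)))
    convert h4 using 1
    ring
  have hq1 : (q : 𝓞 K) ∣ (η * α) ^ q - γ ^ q := by
    have h3 := dvd_sub (hB1.mul_right (γ ^ q)) (hA1.mul_right ((η * α) ^ q))
    convert h3 using 1
    linear_combination hmain
  have hzq : z ^ q ^ (p - 1) = z := by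
    have h3 : q ^ (p - 1) ≡ 1 [MOD p] := by
      have h4 := Nat.ModEq.pow_totient ((Nat.coprime_primes hq hp).mpr (Ne.symm hpq))
      rwa [Nat.totient_prime hp] at h4
    have h5 : p ∣ q ^ (p - 1) - 1 := (Nat.modEq_iff_dvd' (Nat.one_le_pow _ _ hq.pos)).mp h3.symm
    obtain ⟨k, hk⟩ := h5
    have h6 : q ^ (p - 1) = p * k + 1 := by
      have := Nat.one_le_pow (p - 1) q hq.pos
      omega
    rw [h6, pow_succ, pow_mul, hz0, one_pow, one_mul]
  have htop : Algebra.adjoin ℤ {z} = ⊤ := by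
    haveI : NeZero p := ⟨hp.ne_zero⟩
    have h3 := IsCyclotomicExtension.Rat.adjoin_singleton_eq_top hζ
    have h4 : hζ.toInteger = z := by
      apply RingOfIntegers.coe_injective
      exact hzζ.symm
    rwa [h4] at h3
  have hq2' : (q : 𝓞 K) ∣ η * α - γ :=
    dvd_sub_of_dvd_pow_sub hq (by have := hp.two_le; omega)
      (dvd_pow_sub_self hq hzq htop) hq1
  have hq3 : (q : 𝓞 K) ^ 2 ∣ (η * α) ^ q - γ ^ q := by
    have h3 := dvd_sub_pow_of_dvd_sub hq2' 1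
    rwa [pow_one] at h3
  have hq4 : (q : 𝓞 K) ^ 2 ∣ (A - B) * γ ^ q := by
    have h3 := hq3.mul_left (-A)
    convert h3 using 1
    linear_combination hmain
  -- `γ^q` and `q` are coprime
  have hcop2 : IsCoprime ((q : 𝓞 K) ^ 2) (γ ^ q) := by
    have h3 : IsCoprime (q : 𝓞 K) (u : 𝓞 K) := by
      have h4 := hcop.map (Int.castRingHom (𝓞 K))
      simpa using h4
    have h5 : α ^ q ∣ (u : 𝓞 K) ^ q := by
      rw [← hprod]
      refine (Dvd.intro _ hα.symm).trans ?_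
      exact prod_dvd_prod_of_subset _ _ _ (subset_univ T)
    have h6 : γ ^ q ∣ (u : 𝓞 K) ^ q := by
      have h7 := map_dvd (act c) h5
      rwa [map_pow, map_pow, map_intCast] at h7
    exact (h3.pow).of_isCoprime_of_dvd_right h6
  have hq5 : (q : 𝓞 K) ^ 2 ∣ A - B := hcop2.dvd_of_dvd_mul_right hq4
  have hq6 : (((q : ℤ) ^ 2 : ℤ) : 𝓞 K) ∣ x * ∑ σ ∈ T, (act σ z - (act σ z) ^ (p - 1)) := by
    have h3 : (q : 𝓞 K) ^ 2 ∣ (x : 𝓞 K) ^ 2 := pow_dvd_pow_of_dvd hqx' 2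
    have h4 := dvd_sub (dvd_sub (h3.trans hsqA) (h3.trans hsqB)) hq5
    rw [sum_sub_distrib]
    push_cast
    convert h4 using 1
    ring
  -- the end
  obtain ⟨ρ, hρ⟩ : ∃ ρ, ρ ∈ T := by
    by_cases h3 : (1 : K ≃ₐ[ℚ] K) ∈ T
    · exact ⟨1, h3⟩
    · refine ⟨c, ?_⟩
      by_contra h4
      exact h3 ((hT1 1 c hc).mpr h4)
  have hfin := trace_argument hz (fun σ => (act σ z) ^ (p - 1)) hw' hT1' hρ hq6
  have hcqp : IsCoprime ((q : ℤ) ^ 2) (p : ℤ) := by
    refine IsCoprime.pow_left ?_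
    rw [Nat.isCoprime_iff_coprime]
    exact (Nat.coprime_primes hq hp).mpr (Ne.symm hpq)
  exact hcqp.dvd_of_dvd_mul_right hfin

end Fermat.Agent.Cor.Cat
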