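import Mathlib

/-!
# The relations of Cassels (Catalan's equation, piece A)

`p, q` odd primes, `x^p - y^q = 1` in integers.
-/

set_option autoImplicit false

open Finset

namespace Fermat.Agent.Cor.Cat

theorem exists_pow_eq (x : ℤ) (n : ℕ) :
    ∃ k : ℤ, x ^ n = 1 + n * (x - 1) + (x - 1) ^ 2 * k := by
  induction n with
  | zero => exact ⟨0, by simp⟩
  | succ n ih =>
    obtain ⟨k, hk⟩ := ih
    refine ⟨n + k * x, ?_⟩
    rw [pow_succ, hk]
    push_cast
    ring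

theorem exists_two_geom_sum_eq (x : ℤ) (n : ℕ) :
    ∃ k : ℤ, 2 * ∑ i ∈ range n, x ^ i = 2 * n + (x - 1) * (n * (n - 1)) + (x - 1) ^ 2 * k := by
  induction n with
  | zero => exact ⟨0, by simp⟩
  | succ n ih =>
    obtain ⟨k, hk⟩ := ih
    obtain ⟨l, hl⟩ := exists_pow_eq x n
    refine ⟨k + 2 * l, ?_⟩
    rw [sum_range_succ, mul_add, hk, hl]
    push_cast
    ring

theorem exists_geom_sum_eq (x : ℤ) (n : ℕ) :
    ∃ k : ℤ, ∑ i ∈ range n, x ^ i = n + (x - 1) * k := by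
  induction n with
  | zero => exact ⟨0, by simp⟩
  | succ n ih =>
    obtain ⟨k, hk⟩ := ih
    obtain ⟨l, hl⟩ := exists_pow_eq x n
    refine ⟨k + n + (x - 1) * l, ?_⟩
    rw [sum_range_succ, hk, hl]
    push_cast
    ring

theorem exists_geom_sum_eq_sq {p : ℕ} (hp : p.Prime) (hp2 : p ≠ 2) {x : ℤ}
    (hx : (p : ℤ) ∣ x - 1) : ∃ m : ℤ, ∑ i ∈ range p, x ^ i = p * (1 + p * m) := by
  obtain ⟨k, hk⟩ := exists_two_geom_sum_eq x p
  obtain ⟨d, hd⟩ := hx
  have h1 : ((p : ℤ) ^ 2) ∣ 2 * (∑ i ∈ range p, x ^ i - p) := by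
    refine ⟨d * (p - 1) + d ^ 2 * k, ?_⟩
    rw [mul_sub, hk, hd]
    ring
  have h2 : IsCoprime ((p : ℤ) ^ 2) 2 := by
    refine IsCoprime.pow_left ?_
    have : Nat.Coprime p 2 := (Nat.coprime_primes hp Nat.prime_two).mpr hp2
    exact_mod_cast this.isCoprime
  obtain ⟨m, hm⟩ := h2.dvd_of_dvd_mul_left h1
  refine ⟨m, ?_⟩
  linear_combination hm

theorem dvd_sub_one {p q : ℕ} (hp : p.Prime) (hq : q.Prime) {x y : ℤ} (h : x ^ p - y ^ q = 1)
    (hpy : (p : ℤ) ∣ y) : (p : ℤ) ∣ x - 1 := by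
  have : Fact p.Prime := ⟨hp⟩
  rw [← ZMod.intCast_zmod_eq_zero_iff_dvd] at hpy ⊢
  have h1 : ((x ^ p - y ^ q : ℤ) : ZMod p) = ((1 : ℤ) : ZMod p) := by rw [h]
  push_cast at h1 ⊢
  rw [ZMod.pow_card, hpy, zero_pow hq.ne_zero, sub_zero] at h1
  rw [h1, sub_self]

theorem dvd_of_dvd_sub_one {p q : ℕ} (hp : p.Prime) {x y : ℤ} (h : x ^ p - y ^ q = 1)
    (hpx : (p : ℤ) ∣ x - 1) : (p : ℤ) ∣ y := by
  have h1 : y ^ q = (x - 1) * ∑ i ∈ range p, x ^ i := by
    rw [mul_geom_sum]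
    linarith
  have h2 : (p : ℤ) ∣ y ^ q := by
    rw [h1]
    exact hpx.mul_right _
  exact (Nat.prime_iff_prime_int.mp hp).dvd_of_dvd_pow h2

/-- **Cassels' relations**, `p ∣ y` -/
theorem relations {p q : ℕ} (hp : p.Prime) (hp2 : p ≠ 2) (hq : q.Prime) (hq2 : q ≠ 2) {x y : ℤ}
    (h : x ^ p - y ^ q = 1) (hpy : (p : ℤ) ∣ y) :
    ∃ a u : ℤ, x - 1 = p ^ (q - 1) * a ^ q ∧ ∑ i ∈ range p, x ^ i = p * u ^ q ∧
      y = p * a * u ∧ ¬ (p : ℤ) ∣ u := by
  have hqodd : Odd q := hq.odd_of_ne_two hq2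
  have hp0 : (p : ℤ) ≠ 0 := Int.natCast_ne_zero.mpr hp.ne_zero
  have hpx := dvd_sub_one hp hq h hpy
  obtain ⟨m, hm⟩ := exists_geom_sum_eq_sq hp hp2 hpx
  obtain ⟨k, hk⟩ := exists_geom_sum_eq x p
  obtain ⟨y₁, rfl⟩ := hpy
  have hq1 : q = (q - 1) + 1 := by
    have := hq.pos
    omega
  have h1 : (x - 1) * (1 + p * m) = (p : ℤ) ^ (q - 1) * y₁ ^ q := by
    have h2 : (x - 1) * ∑ i ∈ range p, x ^ i = (p * y₁) ^ q := by
      rw [mul_geom_sum]
      linarith
    rw [hm, mul_pow] at h2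
    have h3 : (p : ℤ) ^ q = (p : ℤ) ^ (q - 1) * p := by
      rw [← pow_succ, ← hq1]
    rw [h3] at h2
    refine mul_left_cancel₀ hp0 ?_
    linear_combination h2
  have hc1 : IsCoprime ((p : ℤ) ^ (q - 1)) (1 + p * m) := by
    refine IsCoprime.pow_left ⟨-m, 1, ?_⟩
    ring
  obtain ⟨X, hX⟩ := hc1.dvd_of_dvd_mul_right (Dvd.intro _ h1.symm)
  have h2 : X * (1 + p * m) = y₁ ^ q := by
    refine mul_left_cancel₀ (pow_ne_zero (q - 1) hp0) ?_
    rw [← h1, hX]
    ring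
  have hc2 : IsCoprime (x - 1) (1 + p * m) := by
    refine ⟨k * m, 1 - p * m, ?_⟩
    have h3 : (p : ℤ) * (1 + p * m) = p + (x - 1) * k := by rw [← hm, hk]
    linear_combination (-m) * h3
  have hc3 : IsCoprime X (1 + p * m) := by
    rw [hX] at hc2
    exact hc2.of_mul_left_right
  obtain ⟨⟨a, ha⟩, ⟨u, hu⟩⟩ := Int.eq_pow_of_mul_eq_pow_odd hc3 hqodd h2
  refine ⟨a, u, by rw [hX, ha], by rw [hm, hu], ?_, ?_⟩
  · have h3 : y₁ ^ q = (a * u) ^ q := by
      rw [← h2, ha, hu, mul_pow]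
    have h4 : y₁ = a * u := hqodd.strictMono_pow.injective h3
    rw [h4]
    ring
  · intro hpu
    have h3 : (p : ℤ) ∣ 1 + p * m := by
      rw [hu]
      exact dvd_pow hpu hq.ne_zero
    have h4 : (p : ℤ) ∣ 1 := by
      have := dvd_sub h3 (Dvd.intro m rfl : (p : ℤ) ∣ p * m)
      simpa using this
    exact hp.one_lt.ne' (by exact_mod_cast Int.eq_one_of_dvd_one (by positivity) h4)

/-- **Cassels' relations**, `p ∤ y` -/
theorem relations' {p q : ℕ} (hp : p.Prime) (hq : q.Prime) (hq2 : q ≠ 2) {x y : ℤ}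
    (h : x ^ p - y ^ q = 1) (hpy : ¬ (p : ℤ) ∣ y) : ∃ a : ℤ, x - 1 = a ^ q := by
  have hqodd : Odd q := hq.odd_of_ne_two hq2
  obtain ⟨k, hk⟩ := exists_geom_sum_eq x p
  have h1 : (x - 1) * ∑ i ∈ range p, x ^ i = y ^ q := by
    rw [mul_geom_sum]
    linarith
  have hc1 : IsCoprime (x - 1) (p : ℤ) :=
    ((Nat.prime_iff_prime_int.mp hp).irreducible.coprime_iff_not_dvd.mpr fun h2 =>
      hpy (dvd_of_dvd_sub_one hp h h2)).symm
  have hc2 : IsCoprime (x - 1) (∑ i ∈ range p, x ^ i) := by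
    rw [hk]
    exact (IsCoprime.add_mul_left_right_iff).mpr hc1
  exact Int.eq_pow_of_mul_eq_pow_odd_left hc2 hqodd h1

theorem pow_add_one_lt {A : ℤ} (hA : 1 ≤ A) {n : ℕ} (hn : 2 ≤ n) : A ^ n + 1 < (A + 1) ^ n := by
  induction n, hn using Nat.le_induction with
  | base => nlinarith
  | succ n hn ih =>
    have h1 : 1 ≤ A ^ n := one_le_pow₀ hA
    calc A ^ (n + 1) + 1 < (A ^ n + 1) * (A + 1) := by
          rw [pow_succ]
          nlinarith
      _ ≤ (A + 1) ^ n * (A + 1) := mul_le_mul_of_nonneg_right ih.le (by linarith)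
      _ = (A + 1) ^ (n + 1) := (pow_succ _ _).symm

/-- the easy half of **Cassels' theorem** -/
theorem dvd_of_lt {p q : ℕ} (hp : p.Prime) (hp2 : p ≠ 2) (hq : q.Prime) (hq2 : q ≠ 2) {x y : ℤ}
    (hx : x ≠ 0) (hy : y ≠ 0) (h : x ^ p - y ^ q = 1) (hlt : p < q) : (p : ℤ) ∣ y := by
  by_contra hpy
  have hpodd : Odd p := hp.odd_of_ne_two hp2
  have hqodd : Odd q := hq.odd_of_ne_two hq2
  obtain ⟨a, ha⟩ := relations' hp hq hq2 h hpy
  have hxa : x = a ^ q + 1 := by linarith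
  have hlt' : q - p ≠ 0 := by omega
  have hpp : p + (q - p) = q := by omega
  rcases lt_trichotomy a 0 with h0 | h0 | h0
  · -- `a < 0`
    obtain ⟨c, rfl⟩ : ∃ c : ℤ, a = -c := ⟨-a, by ring⟩
    have hc1 : 1 ≤ c := by omega
    rw [hqodd.neg_pow] at hxa
    have hc2 : c ≠ 1 := by
      rintro rfl
      apply hx
      rw [hxa]
      simp
    have hc : 2 ≤ c := by omega
    set B : ℤ := c ^ q - 1 with hB
    have hcq : 2 ≤ c ^ q := hc.trans (le_self_pow₀ hc1 hq.ne_zero)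
    have hB1 : 1 ≤ B := by linarith
    have hw : (-y) ^ q = B ^ p + 1 := by
      have h1 : x ^ p = -(B ^ p) := by
        rw [hxa, hB, ← hpodd.neg_pow]
        congr 1
        ring
      rw [hqodd.neg_pow]
      linarith
    have hup : (-y) ^ q < (c ^ p) ^ q := by
      have h1 := pow_add_one_lt hB1 hp.two_le
      have h2 : (B + 1) ^ p = (c ^ p) ^ q := by
        rw [hB, sub_add_cancel, ← pow_mul, ← pow_mul, mul_comm]
      rw [hw, ← h2]
      exact h1
    have hlow : (c ^ p - 1) ^ q < (-y) ^ q := by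
      have hcp : 1 ≤ c ^ p := one_le_pow₀ hc1
      have h1 : (c ^ p - 1) ^ q ≤ B ^ p := by
        calc (c ^ p - 1) ^ q = (c ^ p - 1) ^ p * (c ^ p - 1) ^ (q - p) := by
              rw [← pow_add, hpp]
          _ ≤ (c ^ p - 1) ^ p * (c ^ p) ^ (q - p) := by
              refine mul_le_mul_of_nonneg_left ?_ (pow_nonneg (by linarith) _)
              exact pow_le_pow_left₀ (by linarith) (by linarith) _
          _ = ((c ^ p - 1) * c ^ (q - p)) ^ p := by
              rw [mul_pow, ← pow_mul, ← pow_mul, mul_comm p]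
          _ ≤ B ^ p := by
              refine pow_le_pow_left₀ (mul_nonneg (by linarith) (by positivity)) ?_ _
              rw [sub_mul, ← pow_add, hpp, hB, one_mul]
              have : 1 ≤ c ^ (q - p) := one_le_pow₀ hc1
              linarith
      rw [hw]
      linarith
    have h1 := hqodd.strictMono_pow.lt_iff_lt.mp hup
    have h2 := hqodd.strictMono_pow.lt_iff_lt.mp hlow
    omega
  · apply hy
    rw [hxa, h0, zero_pow hq.ne_zero, zero_add, one_pow] at h
    have h1 : y ^ q = 0 := by linarith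
    exact pow_eq_zero_iff hq.ne_zero |>.mp h1
  · -- `a > 0`
    have ha1 : 1 ≤ a := by omega
    have haq : 1 ≤ a ^ q := one_le_pow₀ ha1
    have hw : y ^ q = (a ^ q + 1) ^ p - 1 := by
      rw [← hxa]
      linarith
    have hlow : (a ^ p) ^ q < y ^ q := by
      have h1 := pow_add_one_lt haq hp.two_le
      have h2 : (a ^ q) ^ p = (a ^ p) ^ q := by
        rw [← pow_mul, ← pow_mul, mul_comm]
      rw [hw, ← h2]
      linarith
    have hup : y ^ q < (a ^ p + 1) ^ q := by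
      have hap : 1 ≤ a ^ p := one_le_pow₀ ha1
      have h1 : (a ^ q + 1) ^ p ≤ (a ^ p + 1) ^ q := by
        calc (a ^ q + 1) ^ p ≤ ((a ^ p + 1) * a ^ (q - p)) ^ p := by
              refine pow_le_pow_left₀ (by linarith) ?_ _
              rw [add_mul, ← pow_add, hpp, one_mul]
              have : 1 ≤ a ^ (q - p) := one_le_pow₀ ha1
              linarith
          _ = (a ^ p + 1) ^ p * (a ^ p) ^ (q - p) := by
              rw [mul_pow, ← pow_mul, ← pow_mul, mul_comm p (q - p)]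
          _ ≤ (a ^ p + 1) ^ p * (a ^ p + 1) ^ (q - p) := by
              refine mul_le_mul_of_nonneg_left ?_ (pow_nonneg (by linarith) _)
              exact pow_le_pow_left₀ (by linarith) (by linarith) _
          _ = (a ^ p + 1) ^ q := by rw [← pow_add, hpp]
      rw [hw]
      linarith
    have h1 := hqodd.strictMono_pow.lt_iff_lt.mp hup
    have h2 := hqodd.strictMono_pow.lt_iff_lt.mp hlow
    omega

/-- the lower bound for `|x|` -/
theorem le_abs {p q : ℕ} (hp : p.Prime) (hp2 : p ≠ 2) (hq : q.Prime) (hq2 : q ≠ 2) {x y : ℤ}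
    (hx : x ≠ 0) (h : x ^ p - y ^ q = 1) (hlt : q < p) (hqx : (q : ℤ) ∣ x) :
    (q : ℤ) ^ (p - 1) + q ≤ |x| := by
  have hpodd : Odd p := hp.odd_of_ne_two hp2
  have hqodd : Odd q := hq.odd_of_ne_two hq2
  have hq3 : 3 ≤ q := by
    have := hq.two_le
    omega
  have hqZ : (3 : ℤ) ≤ q := by exact_mod_cast hq3
  have hq0 : (q : ℤ) ≠ 0 := by linarith
  have h' : (-y) ^ q - (-x) ^ p = 1 := by
    rw [hqodd.neg_pow, hpodd.neg_pow]
    linarith
  obtain ⟨b, v, h1, h2, h3, h4⟩ := relations hq hq2 hp hp2 h' (by simpa using hqx)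
  set Y : ℤ := -y with hY
  have hb : b ≠ 0 := by
    rintro rfl
    apply hx
    linarith
  have hp1 : p - 1 = (p - 2) + 1 := by
    have := hp.two_le
    omega
  -- `v ^ p ≡ 1`
  obtain ⟨k, hk⟩ := exists_geom_sum_eq Y q
  have h5 : v ^ p = 1 + (q : ℤ) ^ (p - 2) * (b ^ p * k) := by
    rw [h2, h1, hp1, pow_succ] at hk
    refine mul_left_cancel₀ hq0 ?_
    linear_combination hk
  have h6 : ((q ^ (p - 2) : ℕ) : ℤ) ∣ v - 1 := by
    set n : ℕ := q ^ (p - 2) with hn
    have hn0 : n ≠ 0 := pow_ne_zero _ hq.ne_zero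
    have : NeZero n := ⟨hn0⟩
    have h7 : (v : ZMod n) ^ p = 1 := by
      have h8 : ((v ^ p : ℤ) : ZMod n) = ((1 + (q : ℤ) ^ (p - 2) * (b ^ p * k) : ℤ) : ZMod n) := by
        rw [h5]
      have h9 : ((q : ℤ) ^ (p - 2) : ℤ) = ((n : ℕ) : ℤ) := by
        rw [hn]
        push_cast
        rfl
      rw [h9] at h8
      push_cast at h8
      rw [ZMod.natCast_self, zero_mul, add_zero] at h8
      exact h8
    set u : (ZMod n)ˣ := Units.ofPowEqOne (v : ZMod n) p h7 hp.ne_zero with hu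
    have hup : u ^ p = 1 := by
      ext
      rw [Units.val_pow_eq_pow_val, Units.val_one]
      exact h7
    have ho1 : orderOf u ∣ p := orderOf_dvd_of_pow_eq_one hup
    have ho2 : orderOf u ∣ n.totient := by
      rw [← ZMod.card_units_eq_totient]
      exact orderOf_dvd_card
    have ho3 : orderOf u = 1 := by
      rcases (Nat.dvd_prime hp).mp ho1 with h8 | h8
      · exact h8
      · exfalso
        rw [h8, hn, Nat.totient_prime_pow hq (by omega)] at ho2
        rcases (Nat.Prime.dvd_mul hp).mp ho2 with h9 | h9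
        · have := Nat.le_of_dvd hq.pos (hp.dvd_of_dvd_pow h9)
          omega
        · have := Nat.le_of_dvd (by omega) h9
          omega
    have hu1 : u = 1 := orderOf_eq_one_iff.mp ho3
    have hv1 : (v : ZMod n) = ((1 : ℤ) : ZMod n) := by
      have h8 : (u : ZMod n) = 1 := by rw [hu1, Units.val_one]
      rw [Int.cast_one, ← h8]
      rfl
    rw [ZMod.intCast_eq_intCast_iff_dvd_sub] at hv1
    exact dvd_sub_comm.mp hv1
  have hSpos : 0 < ∑ i ∈ range q, Y ^ i := hqodd.geom_sum_pos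
  have hv0 : 0 < v := by
    rw [h2] at hSpos
    exact hpodd.pow_pos_iff.mp ((mul_pos_iff_of_pos_left (by linarith)).mp hSpos)
  have hv1 : v ≠ 1 := by
    rintro rfl
    rw [one_pow, mul_one] at h2
    have h7 : (Y - 1) * q = Y ^ q - 1 := by rw [← h2, mul_geom_sum]
    have hbp : 1 ≤ |b ^ p| := Int.one_le_abs (pow_ne_zero _ hb)
    have h8 : (q : ℤ) * q ≤ |Y - 1| := by
      rw [h1, abs_mul, abs_pow, abs_of_pos (show (0 : ℤ) < q by linarith)]
      have h9 : (q : ℤ) * q ≤ (q : ℤ) ^ (p - 1) := by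
        rw [← pow_two]
        exact pow_le_pow_right₀ (by linarith) (by omega)
      have h10 : (q : ℤ) ^ (p - 1) * 1 ≤ (q : ℤ) ^ (p - 1) * |b ^ p| :=
        mul_le_mul_of_nonneg_left hbp (by positivity)
      linarith
    have h9 : |Y - 1| ≤ |Y| + 1 := by
      have := abs_sub Y 1
      simpa using this
    have hZ8 : (8 : ℤ) ≤ |Y| := by nlinarith
    have hZq : (q : ℤ) ≤ |Y| := by nlinarith
    have h10 : |Y| ^ 3 - 1 ≤ (|Y| + 1) * q := by
      calc |Y| ^ 3 - 1 ≤ |Y| ^ q - 1 := by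
            have := pow_le_pow_right₀ (show (1 : ℤ) ≤ |Y| by linarith) hq3
            linarith
        _ = |Y ^ q| - |1| := by rw [abs_pow, abs_one]
        _ ≤ |Y ^ q - 1| := abs_sub_abs_le_abs_sub _ _
        _ = |Y - 1| * q := by
            rw [← h7, abs_mul, abs_of_pos (show (0 : ℤ) < q by linarith)]
        _ ≤ (|Y| + 1) * q := mul_le_mul_of_nonneg_right h9 (by linarith)
    nlinarith [mul_nonneg (show (0 : ℤ) ≤ |Y| + 1 by positivity) (sub_nonneg.mpr hZq)]
  have h7 : (q : ℤ) ^ (p - 2) ≤ v - 1 := by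
    have := Int.le_of_dvd (by omega) h6
    push_cast at this
    exact this
  have h8 : |x| = q * |b| * v := by
    rw [← abs_neg, h3, abs_mul, abs_mul, abs_of_pos hv0, abs_of_pos (show (0 : ℤ) < q by linarith)]
  have h9 : 1 ≤ |b| := Int.one_le_abs hb
  rw [h8, hp1, pow_succ]
  have h10 : (q : ℤ) * 1 * v ≤ q * |b| * v := by
    refine mul_le_mul_of_nonneg_right (mul_le_mul_of_nonneg_left h9 (by linarith)) hv0.le
  nlinarith

end Fermat.Agent.Cor.Cat
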