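import Fermat.Agent.Corollaries.Cat.Wieferich
import Fermat.Agent.Corollaries.Cat.Square

/-!
# Catalan's conjecture for exponents up to `1000`

By Mihailescu's double Wieferich theorem a solution of `x ^ p - y ^ q = 1` in nonzero integers
with odd primes `p ≠ q` satisfies `p ^ (q - 1) ≡ 1 mod q ^ 2` and `q ^ (p - 1) ≡ 1 mod p ^ 2`.
No pair of primes below `1000` satisfies both congruences (a computation in the kernel), so
`8` and `9` are the only consecutive powers `x ^ m`, `y ^ n` with `2 ≤ m, n ≤ 1000`, and more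
generally with all prime factors of `m` and `n` below `1000`.
-/

namespace Fermat.Agent.Cor.Cat

/-- no prime divisor `≤ 31`, except `p` itself -/
def sieve (p : ℕ) : Bool :=
  [2, 3, 5, 7, 11, 13, 17, 19, 23, 29, 31].all fun d => p % d != 0 || p == d

/-- one of the two Wieferich congruences fails -/
def notWief (p q : ℕ) : Bool :=
  p ^ (q - 1) % q ^ 2 != 1 || q ^ (p - 1) % p ^ 2 != 1

theorem sieve_of_prime {p : ℕ} (hp : p.Prime) : sieve p = true := by
  rw [sieve, List.all_eq_true]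
  intro d hd
  have hdp : d.Prime := by
    have : ∀ d ∈ [2, 3, 5, 7, 11, 13, 17, 19, 23, 29, 31], d.Prime := by
      simp only [List.forall_mem_cons, List.not_mem_nil, false_imp_iff, implies_true, and_true]
      norm_num
    exact this d hd
  by_cases h : p % d = 0
  · have := (Nat.prime_dvd_prime_iff_eq hdp hp).1 (Nat.dvd_of_mod_eq_zero h)
    simp [this]
  · simp [h]

/-- all the pairs below `1000` -/
theorem check_all : ((List.range 1000).all fun p => !(sieve p) ||
    (List.range p).all fun q => !(sieve q) || decide (q < 3) || notWief p q) = true := by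
  decide +kernel

/-- the pairs of primes below `1000` -/
theorem not_wief {p q : ℕ} (hp : p.Prime) (hq : q.Prime) (hq2 : q ≠ 2) (hlt : q < p)
    (hp1 : p < 1000) : p ^ (q - 1) % q ^ 2 ≠ 1 ∨ q ^ (p - 1) % p ^ 2 ≠ 1 := by
  have h := check_all
  rw [List.all_eq_true] at h
  have h1 := h p (List.mem_range.2 hp1)
  rw [sieve_of_prime hp, Bool.not_true, Bool.false_or, List.all_eq_true] at h1
  have h2 := h1 q (List.mem_range.2 hlt)
  have hq3 : ¬ q < 3 := by
    have := hq.two_le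
    omega
  rw [sieve_of_prime hq, decide_eq_false hq3, Bool.not_true, Bool.false_or, Bool.false_or,
    notWief] at h2
  simpa using h2

/-- **`x ^ p - y ^ q = 1` has no solution in nonzero integers for odd primes `p ≠ q` below
`1000`.** -/
theorem pow_sub_pow_ne_one_of_lt {p q : ℕ} (hp : p.Prime) (hp2 : p ≠ 2) (hq : q.Prime)
    (hq2 : q ≠ 2) (hpq : p ≠ q) (hp1 : p < 1000) (hq1 : q < 1000) {x y : ℤ} (hx : x ≠ 0)
    (hy : y ≠ 0) : x ^ p - y ^ q ≠ 1 := by
  refine pow_sub_pow_ne_one_of_not_wieferich hp hp2 hq hq2 hpq ?_ hx hy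
  rcases Nat.lt_or_gt_of_ne hpq with h | h
  · exact (not_wief hq hp hp2 h hq1).symm
  · exact not_wief hp hq hq2 h hp1

/-- two positive `n`-th powers, `2 ≤ n`, are not consecutive -/
theorem pow_ne_pow_add_one {x y n : ℕ} (hn : 2 ≤ n) (hy : 0 < y) : x ^ n ≠ y ^ n + 1 := by
  intro h
  have hlt : y < x := by
    by_contra hle
    have := Nat.pow_le_pow_left (not_lt.1 hle) n
    omega
  have h1 : (y + 1) ^ n ≤ x ^ n := Nat.pow_le_pow_left hlt n
  have h2 : y ^ n + 1 < (y + 1) ^ n := by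
    obtain ⟨k, rfl⟩ := Nat.exists_eq_add_of_le hn
    have h3 : y ^ (1 + k) ≤ (y + 1) ^ (1 + k) := Nat.pow_le_pow_left (Nat.le_succ y) _
    have h4 : 1 < (y + 1) ^ (1 + k) := Nat.one_lt_pow (by omega) (by omega)
    rw [show 2 + k = (1 + k) + 1 by ring, pow_succ, pow_succ]
    nlinarith
  omega

/-- **Catalan's conjecture for exponents with small prime factors**: if all prime factors of `m`
and `n` are below `1000`, then `x ^ m = y ^ n + 1` with `0 < y`, `2 ≤ m, n` only for
`3 ^ 2 = 2 ^ 3 + 1`. -/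
theorem catalan_of_forall_prime_lt {m n : ℕ} (hm : 2 ≤ m) (hn : 2 ≤ n)
    (hm' : ∀ p : ℕ, p.Prime → p ∣ m → p < 1000) (hn' : ∀ p : ℕ, p.Prime → p ∣ n → p < 1000)
    {x y : ℕ} (hy : 0 < y) (h : x ^ m = y ^ n + 1) : x = 3 ∧ m = 2 ∧ y = 2 ∧ n = 3 := by
  have hx : 2 ≤ x := by
    by_contra hlt
    have h1 : x ^ m ≤ 1 := by
      calc x ^ m ≤ 1 ^ m := Nat.pow_le_pow_left (by omega) m
        _ = 1 := one_pow m
    have h2 := pow_pos hy n
    omega
  -- prime factors `p` of `m` and `q` of `n`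
  have key : ∀ p q : ℕ, p.Prime → q.Prime → p ∣ m → q ∣ n → p = 2 ∧ q = 3 := by
    intro p q hp hq hpm hqn
    obtain ⟨k, hk⟩ := hpm
    obtain ⟨l, hl⟩ := hqn
    have h1 : (x ^ k) ^ p = (y ^ l) ^ q + 1 := by
      rw [← pow_mul, ← pow_mul, mul_comm k, mul_comm l, ← hk, ← hl, h]
    have hX : 0 < x ^ k := pow_pos (by omega) k
    have hY : 0 < y ^ l := pow_pos hy l
    by_cases hp2 : p = 2
    · subst hp2
      exact ⟨rfl, (sq_eq_pow_add_one_nat hq.two_le hY h1).2.2⟩
    · exfalso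
      by_cases hq2 : q = 2
      · subst hq2
        refine sq_add_one_ne_pow (x := ((y ^ l : ℕ) : ℤ)) (y := ((x ^ k : ℕ) : ℤ)) hp.two_le
          (by exact_mod_cast hY.ne') ?_
        exact_mod_cast h1.symm
      · by_cases hpq : p = q
        · subst hpq
          exact pow_ne_pow_add_one hp.two_le hY h1
        · refine pow_sub_pow_ne_one_of_lt hp hp2 hq hq2 hpq (hm' p hp ⟨k, hk⟩) (hn' q hq ⟨l, hl⟩)
            (x := ((x ^ k : ℕ) : ℤ)) (y := ((y ^ l : ℕ) : ℤ)) (by exact_mod_cast hX.ne')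
            (by exact_mod_cast hY.ne') ?_
          have h2 : (((x ^ k : ℕ) : ℤ)) ^ p = ((y ^ l : ℕ) : ℤ) ^ q + 1 := by exact_mod_cast h1
          rw [h2]; ring
  have hmf := Nat.minFac_prime (show m ≠ 1 by omega)
  obtain ⟨h2, -⟩ := key _ _ hmf (Nat.minFac_prime (show n ≠ 1 by omega)) m.minFac_dvd n.minFac_dvd
  obtain ⟨k, hk⟩ : 2 ∣ m := h2 ▸ m.minFac_dvd
  have h3 : (x ^ k) ^ 2 = y ^ n + 1 := by rw [← pow_mul, mul_comm k, ← hk, h]
  obtain ⟨h4, h5, h6⟩ := sq_eq_pow_add_one_nat hn hy h3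
  have hk1 : k = 1 := by
    by_contra hk1
    have hk2 : 2 ≤ k := by omega
    have h7 : 2 ^ 2 ≤ x ^ k := (Nat.pow_le_pow_left hx 2).trans (Nat.pow_le_pow_right (by omega) hk2)
    omega
  subst hk1
  exact ⟨by simpa using h4, by omega, h5, h6⟩

/-- **Catalan's conjecture for exponents up to `1000`**: `8` and `9` are the only consecutive
powers `x ^ m`, `y ^ n` of positive integers with `2 ≤ m, n ≤ 1000`. -/
theorem catalan_of_le {m n : ℕ} (hm : 2 ≤ m) (hn : 2 ≤ n) (hm' : m ≤ 1000) (hn' : n ≤ 1000)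
    {x y : ℕ} (hy : 0 < y) (h : x ^ m = y ^ n + 1) : x = 3 ∧ m = 2 ∧ y = 2 ∧ n = 3 := by
  have key : ∀ m : ℕ, 2 ≤ m → m ≤ 1000 → ∀ p : ℕ, p.Prime → p ∣ m → p < 1000 := by
    intro m hm hm' p hp hpm
    have h1 := Nat.le_of_dvd (by omega) hpm
    rcases Nat.lt_or_ge p 1000 with h2 | h2
    · exact h2
    · exfalso
      have : p = 1000 := by omega
      rw [this] at hp
      exact absurd hp (by norm_num)
  exact catalan_of_forall_prime_lt hm hn (key m hm hm') (key n hn hn') hy h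

end Fermat.Agent.Cor.Cat
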