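import Fermat.Agent.Corollaries.Cat.Jacobi
import Fermat.Agent.Corollaries.ZetaK.DegOne

/-!
# The relation of `Cat/Jacobi` for all ideals of `ℚ(ζ_p)`

Every ideal class contains a prime ideal of degree one which does not divide `p`; so for every
non-zero ideal `I` the product of the `σ I`, `σ ∈ T`, is principal.
-/

set_option autoImplicit false

noncomputable section

namespace Fermat.Agent.Cor.Cat

open NumberField Finset
open scoped nonZeroDivisors

universe u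

variable {p : ℕ} [hp : Fact p.Prime] {K : Type u} [Field K] [NumberField K]

theorem prod_map_span_singleton_mul (T : Finset (K ≃ₐ[ℚ] K)) (x : 𝓞 K) (I : Ideal (𝓞 K)) :
    ∏ σ ∈ T, (Ideal.span {x} * I).map (act σ) =
      Ideal.span {∏ σ ∈ T, act σ x} * ∏ σ ∈ T, I.map (act σ) := by
  rw [← Ideal.prod_span_singleton, ← prod_mul_distrib]
  refine prod_congr rfl fun σ _ => ?_
  rw [Ideal.map_mul, Ideal.map_span, Set.image_singleton]

theorem act_ne_zero (σ : K ≃ₐ[ℚ] K) {y : 𝓞 K} (hy : y ≠ 0) : act σ y ≠ 0 := by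
  intro h
  have h' := congrArg (act σ⁻¹) h
  rw [act_act, inv_mul_cancel, act_one] at h'
  exact hy (h'.trans (map_zero (act σ⁻¹)))

/-- Cancellation of a principal ideal. -/
theorem exists_of_span_mul {R : Type*} [CommRing R] [IsDedekindDomain R]
    {a b : R} {J : Ideal R} (hb : b ≠ 0) (h : Ideal.span {a} = Ideal.span {b} * J) :
    ∃ c : R, J = Ideal.span {c} := by
  have h2 : a ∈ Ideal.span {b} := Ideal.dvd_span_singleton.mp ⟨J, h⟩
  obtain ⟨c, rfl⟩ := Ideal.mem_span_singleton.mp h2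
  refine ⟨c, ?_⟩
  rw [← Ideal.span_singleton_mul_span_singleton] at h
  have h0 : (Ideal.span {b} : Ideal R) ≠ 0 := by
    rw [Ideal.zero_eq_bot, ne_eq, Ideal.span_singleton_eq_bot]
    exact hb
  exact (mul_left_cancel₀ h0 h).symm

variable [IsCyclotomicExtension {p} ℚ K] {ζ : K}

theorem exists_half_ideal (hp2 : p ≠ 2) (hζ : IsPrimitiveRoot ζ p) :
    ∃ T : Finset (K ≃ₐ[ℚ] K),
      (∀ σ τ : K ≃ₐ[ℚ] K, τ ζ = (σ ζ)⁻¹ → (σ ∈ T ↔ τ ∉ T)) ∧
      ∀ I : Ideal (𝓞 K), I ≠ ⊥ →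
        ∃ α : 𝓞 K, ∏ σ ∈ T,
          I.map (NumberField.RingOfIntegers.mapRingEquiv σ.toRingEquiv : 𝓞 K →+* 𝓞 K) =
            Ideal.span {α} := by
  obtain ⟨T, hT, hP⟩ := exists_half (K := K) hp2 hζ
  refine ⟨T, hT, fun I hI => ?_⟩
  have hI0 : I ∈ (Ideal (𝓞 K))⁰ := mem_nonZeroDivisors_of_ne_zero hI
  obtain ⟨P, hPI, hPn, hPp⟩ := exists_deg_one_in_class (ClassGroup.mk0 ⟨I, hI0⟩) p
  obtain ⟨α, hα⟩ := hP P.1 (Ideal.isPrime_of_prime P.2) hPn hPp.ne'
  obtain ⟨x, y, hx, hy, hxy⟩ := ClassGroup.mk0_eq_mk0_iff.mp hPI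
  have h1 := congrArg (fun J => ∏ σ ∈ T, Ideal.map (act σ) J) hxy
  simp only [prod_map_span_singleton_mul] at h1
  rw [show ∏ σ ∈ T, Ideal.map (act σ) (P.1 : Ideal (𝓞 K)) = Ideal.span {α} from hα,
    Ideal.span_singleton_mul_span_singleton] at h1
  exact exists_of_span_mul (prod_ne_zero_iff.mpr fun σ _ => act_ne_zero σ hy) h1

end Fermat.Agent.Cor.Cat
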