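import Fermat.Agent.Corollaries.Cat.Cassels
import Fermat.Agent.Corollaries.Cat.Mih
import Fermat.Agent.Corollaries.Cat.Theta

/-!
# Mihailescu's double Wieferich theorem (2000)

If `p`, `q` are odd primes and `x ^ p - y ^ q = 1` with nonzero integers `x`, `y`, then `q ^ 2 ∣ x`,
`p ^ 2 ∣ y`, `p ^ (q - 1) ≡ 1 mod q ^ 2` and `q ^ (p - 1) ≡ 1 mod p ^ 2`.
-/

namespace Fermat.Agent.Cor.Cat

open Finset NumberField

/-- the `p`-th cyclotomic field -/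
theorem exists_cyclotomic (p : ℕ) [Fact p.Prime] : ∃ (K : Type) (_ : Field K) (_ : NumberField K)
    (_ : IsCyclotomicExtension {p} ℚ K) (ζ : K), IsPrimitiveRoot ζ p := by
  have h0 : NeZero p := ⟨(Fact.out : p.Prime).ne_zero⟩
  have h1 : IsCyclotomicExtension {p} ℚ (CyclotomicField p ℚ) := by
    have e : (DivisionRing.toRatAlgebra : Algebra ℚ (CyclotomicField p ℚ)) =
      CyclotomicField.algebra p ℚ := Subsingleton.elim _ _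
    rw [e]
    exact CyclotomicField.isCyclotomicExtension p ℚ
  have h2 : NumberField (CyclotomicField p ℚ) := IsCyclotomicExtension.numberField {p} ℚ _
  exact ⟨_, _, h2, h1, _, IsCyclotomicExtension.zeta_spec p ℚ (CyclotomicField p ℚ)⟩

/-- `q ^ 2` divides `x` -/
theorem sq_dvd_left {p q : ℕ} (hp : p.Prime) (hp2 : p ≠ 2) (hq : q.Prime) (hq2 : q ≠ 2)
    (hpq : p ≠ q) {x y : ℤ} (hx : x ≠ 0) (hy : y ≠ 0) (h : x ^ p - y ^ q = 1) :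
    (q : ℤ) ^ 2 ∣ x := by
  have : Fact p.Prime := ⟨hp⟩
  obtain ⟨hqx, hpy⟩ := cassels hp hp2 hq hq2 hpq hx hy h
  obtain ⟨a, u, h1, h2, -, -⟩ := relations hp hp2 hq hq2 h hpy
  obtain ⟨K, _, _, _, ζ, hζ⟩ := exists_cyclotomic p
  obtain ⟨T, hT1, hT2⟩ := exists_half_ideal hp2 hζ
  exact mihailescu_sq_dvd hp hq hp2 hq2 hpq hζ hT1 hT2 hqx h1 h2

/-- Wieferich's congruence from `q ^ 2 ∣ x` and Cassels' relation -/
theorem wieferich_of_sq_dvd {p q : ℕ} (hq : q.Prime) (hp : p.Prime) (hpq : p ≠ q)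
    (hq2 : q ≠ 2) {x a : ℤ} (h1 : x - 1 = p ^ (q - 1) * a ^ q) (hx : (q : ℤ) ^ 2 ∣ x) :
    (p : ℤ) ^ (q - 1) ≡ 1 [ZMOD (q : ℤ) ^ 2] := by
  have : Fact q.Prime := ⟨hq⟩
  have hqx : (q : ℤ) ∣ x := (dvd_pow_self _ two_ne_zero).trans hx
  have hodd := hq.odd_of_ne_two hq2
  have hpq' : (p : ZMod q) ≠ 0 := by
    rw [Ne, ZMod.natCast_eq_zero_iff]
    exact fun h => hpq ((Nat.prime_dvd_prime_iff_eq hq hp).1 h).symm
  have ha : (q : ℤ) ∣ a - (-1) := by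
    rw [← ZMod.intCast_zmod_eq_zero_iff_dvd] at hqx ⊢
    have h2 : ((x - 1 : ℤ) : ZMod q) = ((p ^ (q - 1) * a ^ q : ℤ) : ZMod q) := by rw [h1]
    push_cast at h2 ⊢
    rw [ZMod.pow_card_sub_one_eq_one hpq', ZMod.pow_card, one_mul, hqx] at h2
    rw [← h2]; ring
  have h3 : (q : ℤ) ^ 2 ∣ a ^ q - (-1) ^ q := by
    have := dvd_sub_pow_of_dvd_sub ha 1
    simpa using this
  rw [hodd.neg_one_pow] at h3
  have h4 : (q : ℤ) ^ 2 ∣ (p : ℤ) ^ (q - 1) - 1 := by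
    have h5 : (p : ℤ) ^ (q - 1) - 1 = p ^ (q - 1) * (a ^ q - -1) - x := by
      linear_combination h1
    rw [h5]
    exact dvd_sub (h3.mul_left _) hx
  exact (Int.modEq_iff_dvd.2 h4).symm

/-- **Mihailescu's theorem (2000)**: the double Wieferich criterion for Catalan's equation. -/
theorem double_wieferich {p q : ℕ} (hp : p.Prime) (hp2 : p ≠ 2) (hq : q.Prime) (hq2 : q ≠ 2)
    (hpq : p ≠ q) {x y : ℤ} (hx : x ≠ 0) (hy : y ≠ 0) (h : x ^ p - y ^ q = 1) :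
    ((q : ℤ) ^ 2 ∣ x ∧ (p : ℤ) ^ 2 ∣ y) ∧ (p : ℤ) ^ (q - 1) ≡ 1 [ZMOD (q : ℤ) ^ 2] ∧
      (q : ℤ) ^ (p - 1) ≡ 1 [ZMOD (p : ℤ) ^ 2] := by
  have h' := symm_eq hp hp2 hq hq2 h
  have h1 := sq_dvd_left hp hp2 hq hq2 hpq hx hy h
  have h2 := sq_dvd_left hq hq2 hp hp2 hpq.symm (neg_ne_zero.2 hy) (neg_ne_zero.2 hx) h'
  obtain ⟨hqx, hpy⟩ := cassels hp hp2 hq hq2 hpq hx hy h
  obtain ⟨a, u, h3, -, -, -⟩ := relations hp hp2 hq hq2 h hpy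
  obtain ⟨b, v, h4, -, -, -⟩ := relations hq hq2 hp hp2 h' ((dvd_neg).2 hqx)
  exact ⟨⟨h1, (dvd_neg).1 h2⟩, wieferich_of_sq_dvd hq hp hpq hq2 h3 h1,
    wieferich_of_sq_dvd hp hq hpq.symm hp2 h4 h2⟩

/-- the criterion for exponents: if `p ^ (q - 1)` is not `1` modulo `q ^ 2`, then
`x ^ p - y ^ q = 1` has no solution in nonzero integers, and neither has `x ^ q - y ^ p = 1` -/
theorem pow_sub_pow_ne_one_of_not_wieferich {p q : ℕ} (hp : p.Prime) (hp2 : p ≠ 2) (hq : q.Prime)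
    (hq2 : q ≠ 2) (hpq : p ≠ q) (hw : p ^ (q - 1) % q ^ 2 ≠ 1 ∨ q ^ (p - 1) % p ^ 2 ≠ 1) {x y : ℤ}
    (hx : x ≠ 0) (hy : y ≠ 0) : x ^ p - y ^ q ≠ 1 := by
  intro h
  obtain ⟨-, h1, h2⟩ := double_wieferich hp hp2 hq hq2 hpq hx hy h
  have key : ∀ a b c : ℕ, 1 < c → (a : ℤ) ^ b ≡ 1 [ZMOD (c : ℤ) ^ 2] → a ^ b % c ^ 2 = 1 := by
    intro a b c hc hh
    have h3 : a ^ b ≡ 1 [MOD c ^ 2] := by
      rw [← Int.natCast_modEq_iff]; push_cast; exact hh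
    have h4 : 1 < c ^ 2 := Nat.one_lt_pow two_ne_zero hc
    rw [h3, Nat.mod_eq_of_lt h4]
  rcases hw with hw | hw
  · exact hw (key _ _ _ hq.one_lt h1)
  · exact hw (key _ _ _ hp.one_lt h2)

end Fermat.Agent.Cor.Cat
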